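import Mathlib

/-!
# Corank modulo `t` forces divisibility of the determinant

If `φ : R →+* κ` is a surjection onto a field whose kernel is contained in `t R`, and the
reduction `M.map φ` of a square matrix `M` has rank `≤ s`, then `t ^ (n - s) ∣ det M`.
(Used for local discriminant bounds: Riemann-Hurwitz via discriminants.)
-/

set_option autoImplicit false

namespace Fermat.Agent.H75

open Matrix

variable {R κ : Type*} [CommRing R] [Field κ] {n : Type*} [Fintype n] [DecidableEq n]

/-- Products of transvections lift along a surjective ring homomorphism, with determinant one. -/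
theorem detrank_exists_lift (φ : R →+* κ) (hφ : Function.Surjective φ)
    (L : List (TransvectionStruct n κ)) :
    ∃ P : Matrix n n R, P.det = 1 ∧ P.map φ = (L.map TransvectionStruct.toMatrix).prod := by
  induction L with
  | nil => exact ⟨1, det_one, by simp⟩
  | cons a L ih =>
    obtain ⟨P, hP1, hP2⟩ := ih
    obtain ⟨c, hc⟩ := hφ a.c
    refine ⟨transvection a.i a.j c * P, ?_, ?_⟩
    · rw [det_mul, det_transvection_of_ne _ _ a.hij, hP1, one_mul]
    · rw [List.map_cons, List.prod_cons, Matrix.map_mul, hP2]
      congr 1
      rw [TransvectionStruct.toMatrix, transvection, transvection, Matrix.map_add _ (map_add φ),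
        Matrix.map_one _ (map_zero φ) (map_one φ), Matrix.map_single, hc]

/-- If all entries of the columns in `J` are divisible by `t`, then `t ^ #J ∣ det`. -/
theorem detrank_pow_dvd_det_of_cols (t : R) (N : Matrix n n R) (J : Finset n)
    (h : ∀ j ∈ J, ∀ i, t ∣ N i j) : t ^ J.card ∣ N.det := by
  classical
  -- choose quotients
  have hq : ∀ i j, ∃ a : R, N i j = (if j ∈ J then t else 1) * a := by
    intro i j
    by_cases hj : j ∈ J
    · obtain ⟨a, ha⟩ := h j hj i
      exact ⟨a, by simp [hj, ha]⟩
    · exact ⟨N i j, by simp [hj]⟩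
  choose A hA using hq
  have hN : N = of fun i j => (fun j => if j ∈ J then t else 1) j * (of A : Matrix n n R) i j := by
    ext i j
    simp [hA i j]
  rw [hN, det_mul_row]
  have hprod : (∏ j, (if j ∈ J then t else (1 : R))) = t ^ J.card := by
    rw [Finset.prod_ite_mem Finset.univ J (fun _ => t)]
    simp
  rw [hprod]
  exact Dvd.intro _ rfl

/-- **Corank ⇒ divisibility of the determinant.**  Let `φ : R →+* κ` be surjective onto a
field with `ker φ ⊆ t R`.  If the reduction of `M` has rank `≤ s`, then
`t ^ (n - s) ∣ det M`. -/
theorem pow_dvd_det_of_rank_map_le (φ : R →+* κ) (hφ : Function.Surjective φ) (t : R)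
    (hker : ∀ x, φ x = 0 → t ∣ x) (M : Matrix n n R) (s : ℕ)
    (hr : (M.map φ).rank ≤ s) : t ^ (Fintype.card n - s) ∣ M.det := by
  classical
  obtain ⟨L, L', D, hD⟩ :=
    Matrix.Pivot.exists_list_transvec_mul_mul_list_transvec_eq_diagonal (M.map φ)
  obtain ⟨P, hP1, hP2⟩ := detrank_exists_lift φ hφ L
  obtain ⟨Q, hQ1, hQ2⟩ := detrank_exists_lift φ hφ L'
  set N : Matrix n n R := P * M * Q with hN
  have hdet : N.det = M.det := by
    rw [hN, det_mul, det_mul, hP1, hQ1, one_mul, mul_one]
  have hNmap : N.map φ = diagonal D := by
    rw [hN, Matrix.map_mul, Matrix.map_mul, hP2, hQ2, hD]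
  -- rank of the diagonal matrix
  have hrank : (diagonal D).rank = (M.map φ).rank := by
    rw [← hD]
    rw [rank_mul_eq_left_of_isUnit_det _ _ (by
      rw [TransvectionStruct.det_toMatrix_prod]; exact isUnit_one)]
    rw [rank_mul_eq_right_of_isUnit_det _ _ (by
      rw [TransvectionStruct.det_toMatrix_prod]; exact isUnit_one)]
  rw [rank_diagonal] at hrank
  set J : Finset n := Finset.univ.filter (fun j => D j = 0) with hJ
  have hJcard : Fintype.card n - s ≤ J.card := by
    have h1 : Fintype.card {i // D i ≠ 0} = (Finset.univ.filter (fun j => ¬ D j = 0)).card := by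
      rw [Fintype.card_subtype]
    have h2 : (Finset.univ.filter (fun j => D j = 0)).card
        + (Finset.univ.filter (fun j => ¬ D j = 0)).card = Fintype.card n := by
      rw [Finset.card_filter_add_card_filter_not]
      exact Finset.card_univ
    have h3 : (Finset.univ.filter (fun j => ¬ D j = 0)).card ≤ s := by
      rw [← h1, hrank]; exact hr
    have h4 : J.card = (Finset.univ.filter (fun j => D j = 0)).card := by rw [hJ]
    omega
  have hcols : ∀ j ∈ J, ∀ i, t ∣ N i j := by
    intro j hj i
    apply hker
    have : (N.map φ) i j = (diagonal D) i j := by rw [hNmap]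
    rw [map_apply] at this
    rw [this]
    have hDj : D j = 0 := by
      simpa [hJ] using hj
    by_cases hij : i = j
    · subst hij; simp [hDj]
    · simp [diagonal_apply_ne _ hij]
  have := detrank_pow_dvd_det_of_cols t N J hcols
  rw [hdet] at this
  exact (pow_dvd_pow t hJcard).trans this

/-- Special case: polynomial matrices evaluated at a point. -/
theorem pow_dvd_det_of_rank_eval_le {K : Type*} [Field K] (a : K)
    (M : Matrix n n (Polynomial K)) (s : ℕ)
    (hr : (M.map (Polynomial.evalRingHom a)).rank ≤ s) :
    (Polynomial.X - Polynomial.C a) ^ (Fintype.card n - s) ∣ M.det := by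
  refine pow_dvd_det_of_rank_map_le (Polynomial.evalRingHom a) ?_ _ ?_ M s hr
  · intro c
    exact ⟨Polynomial.C c, by simp⟩
  · intro x hx
    rw [Polynomial.dvd_iff_isRoot]
    exact hx

end Fermat.Agent.H75
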