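import Fermat.Agent.H56.RH.Interfaces
import Fermat.Agent.H75.DetRank

/-!
# ES-D-A4 (Hurwitz), blocks (CD) and (TR)

* `corankDet : Fermat.Agent.H56.RH.CorankDetStatement`
* `traceRank : Fermat.Agent.H56.RH.TraceRankStatement`
-/

set_option autoImplicit false

namespace Fermat.Agent.H75

open Matrix Module

/-- **(CD)** corank modulo `t` forces divisibility of the determinant. -/
theorem corankDet : Fermat.Agent.H56.RH.CorankDetStatement := by
  intro K A _ _ _ φ t hφ hker n c G hr
  have h := pow_dvd_det_of_rank_map_le φ hφ t (fun x hx => (hker x).mp hx) G (G.map φ).rank le_rfl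
  rw [Fintype.card_fin] at h
  exact (pow_dvd_pow t (by omega)).trans h

section Local

variable {K C : Type*} [Field K] [IsAlgClosed K] [CommRing C] [Algebra K C] [IsLocalRing C]
  [Module.Finite K C]

/-- Every element of a finite-dimensional local algebra over an algebraically closed field is a
constant plus a nilpotent. -/
theorem rhtr_exists_const (z : C) : ∃ c : K, IsNilpotent (z - algebraMap K C c) := by
  haveI : IsArtinianRing C := IsArtinianRing.of_finite K C
  have hb : Function.Bijective (algebraMap K (IsLocalRing.ResidueField C)) :=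
    IsAlgClosed.algebraMap_bijective_of_isIntegral
  obtain ⟨c, hc⟩ := hb.2 (IsLocalRing.residue C z)
  refine ⟨c, ?_⟩
  have hmem : z - algebraMap K C c ∈ IsLocalRing.maximalIdeal C := by
    rw [← IsLocalRing.residue_eq_zero_iff, map_sub, sub_eq_zero, ← hc]
    rfl
  rw [← Ring.KrullDimLE.nilradical_eq_maximalIdeal] at hmem
  exact mem_nilradical.mp hmem

/-- The residue of an element (as an element of `K`). -/
noncomputable def rhtrRes (z : C) : K := (rhtr_exists_const (K := K) z).choose

theorem rhtrRes_spec (z : C) : IsNilpotent (z - algebraMap K C (rhtrRes (K := K) z)) :=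
  (rhtr_exists_const (K := K) z).choose_spec

theorem rhtrRes_unique (z : C) (c : K) (hc : IsNilpotent (z - algebraMap K C c)) :
    rhtrRes (K := K) z = c := by
  have h1 := rhtrRes_spec (K := K) z
  have h2 : IsNilpotent (algebraMap K C (c - rhtrRes (K := K) z)) := by
    have : algebraMap K C (c - rhtrRes (K := K) z)
        = (z - algebraMap K C (rhtrRes (K := K) z)) - (z - algebraMap K C c) := by
      rw [map_sub]; ring
    rw [this]
    exact (Commute.all _ _).isNilpotent_sub h1 hc
  have h3 : IsNilpotent (c - rhtrRes (K := K) z) :=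
    (IsNilpotent.map_iff (FaithfulSMul.algebraMap_injective K C)).mp h2
  exact (sub_eq_zero.mp h3.eq_zero).symm

theorem rhtrRes_algebraMap (c : K) : rhtrRes (K := K) (algebraMap K C c) = c :=
  rhtrRes_unique _ _ (by simp)

theorem rhtrRes_add (x y : C) :
    rhtrRes (K := K) (x + y) = rhtrRes (K := K) x + rhtrRes (K := K) y := by
  apply rhtrRes_unique
  have : x + y - algebraMap K C (rhtrRes (K := K) x + rhtrRes (K := K) y)
      = (x - algebraMap K C (rhtrRes (K := K) x)) + (y - algebraMap K C (rhtrRes (K := K) y)) := by
    rw [map_add]; ring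
  rw [this]
  exact (Commute.all _ _).isNilpotent_add (rhtrRes_spec x) (rhtrRes_spec y)

theorem rhtrRes_mul (x y : C) :
    rhtrRes (K := K) (x * y) = rhtrRes (K := K) x * rhtrRes (K := K) y := by
  apply rhtrRes_unique
  have : x * y - algebraMap K C (rhtrRes (K := K) x * rhtrRes (K := K) y)
      = (x - algebraMap K C (rhtrRes (K := K) x)) * y
        + algebraMap K C (rhtrRes (K := K) x) * (y - algebraMap K C (rhtrRes (K := K) y)) := by
    rw [map_mul]; ring
  rw [this]
  exact (Commute.all _ _).isNilpotent_add
    ((Commute.all _ _).isNilpotent_mul_right (rhtrRes_spec x))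
    ((Commute.all _ _).isNilpotent_mul_left (rhtrRes_spec y))

theorem rhtrRes_smul (c : K) (x : C) :
    rhtrRes (K := K) (c • x) = c * rhtrRes (K := K) x := by
  rw [Algebra.smul_def, rhtrRes_mul, rhtrRes_algebraMap]

/-- Trace on a local algebra: `Tr z = dim C * res z`. -/
theorem rhtr_trace_eq (z : C) :
    Algebra.trace K C z = (Module.finrank K C : K) * rhtrRes (K := K) z := by
  have h1 : z = algebraMap K C (rhtrRes (K := K) z) + (z - algebraMap K C (rhtrRes (K := K) z)) := by
    ring
  have h2 : Algebra.trace K C (z - algebraMap K C (rhtrRes (K := K) z)) = 0 :=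
    (Algebra.isNilpotent_trace_of_isNilpotent (R := K) (rhtrRes_spec z)).eq_zero
  conv_lhs => rw [h1]
  rw [map_add, h2, add_zero, Algebra.trace_algebraMap, nsmul_eq_mul]

end Local

section Pi

variable {K : Type*} [Field K] {s : ℕ} {C : Fin s → Type*}
  [∀ j, CommRing (C j)] [∀ j, Algebra K (C j)] [∀ j, Module.Finite K (C j)]

/-- The trace on a finite product is the sum of the traces. -/
theorem rhtr_trace_pi (x : ∀ j, C j) :
    Algebra.trace K (∀ j, C j) x = ∑ j, Algebra.trace K (C j) (x j) := by
  classical
  let β : ∀ j, Basis (Fin (Module.finrank K (C j))) K (C j) := fun j => Module.finBasis K (C j)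
  rw [Algebra.trace_eq_matrix_trace (Pi.basis β), Matrix.trace, Fintype.sum_sigma]
  refine Finset.sum_congr rfl fun j _ => ?_
  rw [Algebra.trace_eq_matrix_trace (β j), Matrix.trace]
  refine Finset.sum_congr rfl fun i _ => ?_
  simp only [Matrix.diag_apply, Algebra.leftMulMatrix_apply, LinearMap.toMatrix_apply,
    Algebra.coe_lmul_eq_mul, LinearMap.mul_apply', Pi.basis_repr, Pi.basis_apply, Pi.mul_apply,
    Pi.single_eq_same]

end Pi

/-- **(TR)** rank of the trace form of a finite product of local algebras. -/
theorem traceRank : Fermat.Agent.H56.RH.TraceRankStatement := by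
  classical
  intro K _ _ s C _ _ _ _ n b
  set G := Algebra.traceMatrix K b with hG
  -- the index set
  set J := {j : Fin s // ((Module.finrank K (C j) : ℕ) : K) ≠ 0} with hJ
  -- the residue map
  let ρ : (∀ j, C j) →ₗ[K] (J → K) :=
    { toFun := fun x j => rhtrRes (K := K) (x j.1)
      map_add' := fun x y => by
        funext j
        simp only [Pi.add_apply]
        exact rhtrRes_add _ _
      map_smul' := fun c x => by
        funext j
        simp only [Pi.smul_apply, RingHom.id_apply, smul_eq_mul]
        exact rhtrRes_smul _ _ }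
  have hρ_apply : ∀ x (j : J), ρ x j = rhtrRes (K := K) (x j.1) := fun _ _ => rfl
  have hρ_surj : Function.Surjective ρ := by
    intro c
    refine ⟨fun j => if h : ((Module.finrank K (C j) : ℕ) : K) ≠ 0
      then algebraMap K (C j) (c ⟨j, h⟩) else 0, ?_⟩
    funext j
    rw [hρ_apply, dif_pos j.2, rhtrRes_algebraMap]
  -- trace formula
  have htr : ∀ x y : ∀ j, C j, Algebra.trace K (∀ j, C j) (x * y)
      = ∑ j, (Module.finrank K (C j) : K) * (rhtrRes (K := K) (x j) * rhtrRes (K := K) (y j)) := by
    intro x y
    rw [rhtr_trace_pi]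
    refine Finset.sum_congr rfl fun j _ => ?_
    rw [Pi.mul_apply, rhtr_trace_eq, rhtrRes_mul]
  -- kernel of the Gram matrix
  have hker : ∀ x : ∀ j, C j, G *ᵥ b.equivFun x = 0 ↔ ρ x = 0 := by
    intro x
    rw [hG, Algebra.traceMatrix_of_basis_mulVec]
    constructor
    · intro h
      funext j
      rw [hρ_apply, Pi.zero_apply]
      -- all traces against elements vanish
      have hall : ∀ y : ∀ j, C j, Algebra.trace K (∀ j, C j) (x * y) = 0 := by
        intro y
        rw [← b.sum_repr y, Finset.mul_sum, map_sum]
        refine Finset.sum_eq_zero fun i _ => ?_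
        rw [mul_smul_comm, map_smul, congrFun h i, Pi.zero_apply, smul_zero]
      have h1 := hall (Pi.single j.1 1)
      rw [htr, Finset.sum_eq_single j.1] at h1
      · rw [Pi.single_eq_same] at h1
        have h1' : rhtrRes (K := K) (1 : C j.1) = 1 := by
          rw [← map_one (algebraMap K (C j.1))]
          exact rhtrRes_algebraMap 1
        rw [h1', mul_one] at h1
        exact (mul_eq_zero.mp h1).resolve_left j.2
      · intro j' _ hj'
        rw [Pi.single_eq_of_ne hj']
        have : rhtrRes (K := K) (0 : C j') = 0 := by
          rw [← map_zero (algebraMap K (C j'))]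
          exact rhtrRes_algebraMap 0
        rw [this, mul_zero, mul_zero]
      · intro h; exact absurd (Finset.mem_univ _) h
    · intro h
      funext i
      rw [Pi.zero_apply, htr]
      refine Finset.sum_eq_zero fun j _ => ?_
      by_cases hj : ((Module.finrank K (C j) : ℕ) : K) ≠ 0
      · have := congrFun h ⟨j, hj⟩
        rw [hρ_apply, Pi.zero_apply] at this
        rw [this, zero_mul, mul_zero]
      · rw [not_not] at hj
        rw [hj, zero_mul]
  -- rank-nullity
  have hrn : finrank K (LinearMap.range G.mulVecLin) + finrank K (LinearMap.ker G.mulVecLin)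
      = n := by
    rw [LinearMap.finrank_range_add_finrank_ker, finrank_pi, Fintype.card_fin]
  haveI : Module.Finite K (∀ j, C j) := Module.Finite.of_basis b
  have hrn2 : finrank K (LinearMap.range ρ) + finrank K (LinearMap.ker ρ) = n := by
    rw [LinearMap.finrank_range_add_finrank_ker, Module.finrank_eq_card_basis b, Fintype.card_fin]
  have hrange : finrank K (LinearMap.range ρ) = Nat.card J := by
    rw [LinearMap.range_eq_top.mpr hρ_surj, finrank_top, finrank_pi, Nat.card_eq_fintype_card]
  -- the two kernels correspond under `b.equivFun`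
  have hkeq : finrank K (LinearMap.ker G.mulVecLin) = finrank K (LinearMap.ker ρ) := by
    have hmap : (LinearMap.ker ρ).map (b.equivFun : (∀ j, C j) →ₗ[K] (Fin n → K))
        = LinearMap.ker G.mulVecLin := by
      ext v
      simp only [Submodule.mem_map, LinearMap.mem_ker, Matrix.mulVecLin_apply, LinearEquiv.coe_coe]
      constructor
      · rintro ⟨x, hx, rfl⟩
        exact (hker x).mpr hx
      · intro hv
        refine ⟨b.equivFun.symm v, ?_, LinearEquiv.apply_symm_apply _ _⟩
        apply (hker _).mp
        rw [LinearEquiv.apply_symm_apply]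
        exact hv
    rw [← hmap]
    exact LinearEquiv.finrank_map_eq b.equivFun _
  have hrank : G.rank = finrank K (LinearMap.range G.mulVecLin) := rfl
  omega

end Fermat.Agent.H75
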