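import Fermat.Agent.H75.Inf2Galois

set_option autoImplicit false

namespace Fermat.Agent.H75.Inf2

open Fermat.Agent.H13.Cft Fermat.Agent.H78.CFT groupCohomology

attribute [local instance] isGalois_rat_Qb

/-- A function on `G × G` right-invariant under `N × N`, `N` of finite index, has finite range. -/
lemma finite_range_of_invariant {G : Type} [Group G] {M : Type} (N : Subgroup G) [N.FiniteIndex]
    (c : G × G → M) (hinv : ∀ g h, ∀ n ∈ N, ∀ m ∈ N, c (g * n, h * m) = c (g, h)) :
    (Set.range c).Finite := by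
  have : Finite (G ⧸ N) := Subgroup.finite_quotient_of_finiteIndex
  have hsub : Set.range c ⊆
      Set.range (fun q : (G ⧸ N) × (G ⧸ N) => c (Quotient.out q.1, Quotient.out q.2)) := by
    rintro _ ⟨⟨g, h⟩, rfl⟩
    refine ⟨(QuotientGroup.mk g, QuotientGroup.mk h), ?_⟩
    have hg : g⁻¹ * Quotient.out (QuotientGroup.mk g : G ⧸ N) ∈ N := by
      rw [← QuotientGroup.eq]
      exact (QuotientGroup.out_eq' _).symm
    have hh : h⁻¹ * Quotient.out (QuotientGroup.mk h : G ⧸ N) ∈ N := by
      rw [← QuotientGroup.eq]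
      exact (QuotientGroup.out_eq' _).symm
    have := hinv g h _ hg _ hh
    simp only [mul_inv_cancel_left] at this
    exact this
  exact (Set.finite_range _).subset hsub

/-- The unit of `F` attached to a unit of `ℚ̄` lying in `F`. -/
noncomputable def unitOfMem {E : IntermediateField ℚ Qb} (F : IntermediateField E Qb) (u : Qbˣ)
    (h : (u : Qb) ∈ F) : Fˣ :=
  Units.mk0 ⟨(u : Qb), h⟩ (fun h0 => u.ne_zero (congrArg Subtype.val h0))

@[simp] lemma map_unitOfMem {E : IntermediateField ℚ Qb} (F : IntermediateField E Qb) (u : Qbˣ)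
    (h : (u : Qb) ∈ F) : Units.map (algebraMap F Qb : F →* Qb) (unitOfMem F u h) = u :=
  Units.ext rfl

set_option synthInstance.maxHeartbeats 400000 in
lemma coe_smul_unit {E : IntermediateField ℚ Qb} (F : IntermediateField E Qb)
    (σ : F ≃ₐ[E] F) (u : Fˣ) : ((σ • u : Fˣ) : F) = σ (u : F) := rfl

set_option synthInstance.maxHeartbeats 400000 in
set_option maxHeartbeats 1000000 in
/-- **[LOC-FIN]** every level 2-cocycle of `G_E` with values in `ℚ̄ˣ` is inflated from a finite
Galois extension `F / E`. -/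
theorem lvl2Finite : Lvl2FiniteStatement := by
  intro E c hlvl hcoc
  classical
  obtain ⟨N, ⟨hNn, hNf, F0, hF0, hF0N⟩, hinv⟩ := hlvl
  have hfin : (Set.range c).Finite := finite_range_of_invariant N c hinv
  -- a finite generating set
  let b := Module.finBasis ℚ F0
  let T : Set Qb := (fun u : Qbˣ => (u : Qb)) '' Set.range c ∪ Set.range (fun i => (b i : Qb))
  have hT : T.Finite := (hfin.image _).union (Set.finite_range _)
  have : Finite T := hT
  let K0 : IntermediateField E Qb := IntermediateField.adjoin E T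
  have hK0 : FiniteDimensional E K0 :=
    IntermediateField.finiteDimensional_adjoin (fun x _ => Algebra.IsIntegral.isIntegral x)
  let F : IntermediateField E Qb := IntermediateField.normalClosure E K0 Qb
  have hFn : Normal E F := inferInstance
  have hFf : FiniteDimensional E F := inferInstance
  have hFg : IsGalois E F := ⟨⟩
  have hTF : ∀ x ∈ T, x ∈ F := fun x hx =>
    (IntermediateField.le_normalClosure K0) (IntermediateField.subset_adjoin E T hx)
  -- the kernel of restriction is contained in `N`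
  have hker : ∀ g : E.fixingSubgroup, resEF E F g = 1 → g ∈ N := by
    intro g hg
    apply hF0N
    rw [Subgroup.mem_comap, IntermediateField.mem_fixingSubgroup_iff]
    intro x hx
    have hb : ∀ i, (g : Qb ≃ₐ[ℚ] Qb) (b i : Qb) = b i := by
      intro i
      have := (resEF_eq_one_iff E F g).1 hg ⟨(b i : Qb), hTF _ (Or.inr ⟨i, rfl⟩)⟩
      exact this
    have hx' : (⟨x, hx⟩ : F0) = ∑ i, (b.repr ⟨x, hx⟩ i) • b i := (b.sum_repr _).symm
    have hx'' : x = ∑ i, (b.repr ⟨x, hx⟩ i) • (b i : Qb) := by
      have := congrArg (fun y : F0 => (y : Qb)) hx'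
      simp only [IntermediateField.coe_sum, IntermediateField.coe_smul] at this
      exact this
    rw [hx'']
    simp only [Subgroup.coe_subtype, map_sum, map_rat_smul, hb]
  -- lifts
  have hsurj := resEF_surjective E F
  let lift : (F ≃ₐ[E] F) → E.fixingSubgroup := Function.surjInv hsurj
  have hlift : ∀ σ, resEF E F (lift σ) = σ := Function.surjInv_eq hsurj
  have hval : ∀ p : E.fixingSubgroup × E.fixingSubgroup, ((c p : Qbˣ) : Qb) ∈ F :=
    fun p => hTF _ (Or.inl ⟨c p, ⟨p, rfl⟩, rfl⟩)
  let c' : (F ≃ₐ[E] F) × (F ≃ₐ[E] F) → Fˣ := fun p =>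
    unitOfMem F (c (lift p.1, lift p.2)) (hval _)
  have hcongr : ∀ g g' h h' : E.fixingSubgroup, resEF E F g = resEF E F g' →
      resEF E F h = resEF E F h' → c (g', h') = c (g, h) := by
    intro g g' h h' hg hh
    have h1 : g⁻¹ * g' ∈ N := hker _ (by rw [map_mul, map_inv, hg, inv_mul_cancel])
    have h2 : h⁻¹ * h' ∈ N := hker _ (by rw [map_mul, map_inv, hh, inv_mul_cancel])
    have := hinv g h _ h1 _ h2
    simpa using this
  have hinfl : ∀ g h : E.fixingSubgroup,
      Units.map (algebraMap F Qb : F →* Qb) (c' (resEF E F g, resEF E F h)) = c (g, h) := by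
    intro g h
    simp only [c', map_unitOfMem]
    exact hcongr g _ h _ (hlift _).symm (hlift _).symm
  refine ⟨F, hFf, hFg, c', ?_, ?_⟩
  · intro σ τ υ
    have hinj : Function.Injective (Units.map (algebraMap F Qb : F →* Qb)) :=
      Units.map_injective (algebraMap F Qb).injective
    apply hinj
    have e1 : resEF E F (lift σ * lift τ) = σ * τ := by rw [map_mul, hlift, hlift]
    have e2 : resEF E F (lift τ * lift υ) = τ * υ := by rw [map_mul, hlift, hlift]
    have a1 := hinfl (lift σ * lift τ) (lift υ)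
    have a2 := hinfl (lift σ) (lift τ)
    have a3 := hinfl (lift τ) (lift υ)
    have a4 := hinfl (lift σ) (lift τ * lift υ)
    rw [e1, hlift] at a1
    rw [hlift, hlift] at a2 a3
    rw [hlift, e2] at a4
    have a5 : Units.map (algebraMap F Qb : F →* Qb) (σ • c' (τ, υ)) =
        actU (lift σ : Qb ≃ₐ[ℚ] Qb) (c (lift τ, lift υ)) := by
      rw [← a3]
      apply Units.ext
      show ((σ (c' (τ, υ) : F) : F) : Qb) = (lift σ : Qb ≃ₐ[ℚ] Qb) ((c' (τ, υ) : F) : Qb)
      rw [← resEF_apply, hlift]
    rw [map_mul, map_mul, a1, a2, a5, a4]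
    exact hcoc (lift σ) (lift τ) (lift υ)
  · funext ⟨g, h⟩
    exact hinfl g h

end Fermat.Agent.H75.Inf2
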