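import Fermat.Agent.H75.Coh2InfResCore

/-!
# Inflation core with an explicit trivialisation (P-CFT, LOC-INF2)

Variant of `Fermat.Agent.H75.Coh2.inf_core_inj` where the vanishing of `H¹(S, V)` is replaced by
an explicit trivialisation `z` of the single 1-cocycle that occurs in the proof (so that the
lemma applies to level cochains, where only level 1-cocycles are known to be coboundaries).
-/

namespace Fermat.Agent.H75.Coh2

section core

variable {k : Type*} {G : Type*} {V : Type*} [CommRing k] [Group G] [AddCommGroup V] [Module k V]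
  (ρ : Representation k G V)

/-- The function `s ↦ a s - c (1, 1)` is a 1-cocycle on `S` when `d a = c` is inflated. -/
theorem inf_core_cocycle (S : Subgroup G)
    (c : G × G → V)
    (hc1 : ∀ g h, ∀ s ∈ S, c (g * s, h) = c (g, h))
    (hc2 : ∀ g h, ∀ s ∈ S, c (g, h * s) = c (g, h))
    (hc3 : ∀ g h, ∀ s ∈ S, ρ s (c (g, h)) = c (g, h))
    (a : G → V) (ha : ∀ g h, c (g, h) = ρ g (a h) - a (g * h) + a g)
    (s t : G) (hs : s ∈ S) (ht : t ∈ S) :
    a (s * t) - c (1, 1) = ρ s (a t - c (1, 1)) + (a s - c (1, 1)) := by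
  have he : ρ s (c (1, 1)) = c (1, 1) := hc3 1 1 s hs
  have hcS : c (s, t) = c (1, 1) := by
    have h1 := hc1 1 t s hs
    have h2 := hc2 1 1 t ht
    rw [one_mul] at h1 h2
    rw [h1, h2]
  have h := ha s t
  rw [hcS] at h
  simp only [map_sub, he]
  linear_combination (norm := abel) h

/-- Cochain-level core of the injectivity of inflation in degree 2, with an explicit
trivialisation `z` of the 1-cocycle `s ↦ a s - c (1, 1)` on `S`. -/
theorem inf_core_inj' (S : Subgroup G) [S.Normal]
    (c : G × G → V)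
    (hc : ∀ g h j : G, c (g * h, j) + c (g, h) = ρ g (c (h, j)) + c (g, h * j))
    (hc1 : ∀ g h, ∀ s ∈ S, c (g * s, h) = c (g, h))
    (hc2 : ∀ g h, ∀ s ∈ S, c (g, h * s) = c (g, h))
    (a : G → V) (ha : ∀ g h, c (g, h) = ρ g (a h) - a (g * h) + a g)
    (z : V) (hz : ∀ s ∈ S, a s - c (1, 1) = ρ s z - z) :
    ∃ a' : G → V, (∀ g h, c (g, h) = ρ g (a' h) - a' (g * h) + a' g) ∧
      (∀ g, ∀ s ∈ S, a' (g * s) = a' g) ∧ (∀ g, ∀ s ∈ S, ρ s (a' g) = a' g) := by
  have hc_one_left := cocycle_one_left ρ c hc
  have hc_one_right := cocycle_one_right ρ c hc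
  have haS : ∀ s ∈ S, a s = c (1, 1) + (ρ s z - z) := by
    intro s hs
    have := hz s hs
    linear_combination (norm := abel) this
  have key1 : ∀ g, ∀ s ∈ S, a (g * s) - (ρ (g * s) z - z) = a g - (ρ g z - z) := by
    intro g s hs
    have h1 := ha g s
    have h2 : c (g, s) = ρ g (c (1, 1)) := by
      have := hc2 g 1 s hs
      rw [one_mul] at this
      rw [this, hc_one_right]
    rw [h2, haS s hs] at h1
    simp only [map_add, map_sub, map_mul, Module.End.mul_apply] at h1 ⊢
    linear_combination (norm := abel) h1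
  refine ⟨fun g => a g - (ρ g z - z), ?_, key1, ?_⟩
  · intro g h
    rw [ha g h]
    simp only [map_sub, map_mul, Module.End.mul_apply]
    abel
  · intro g s hs
    have h1 := ha s g
    have h2 : c (s, g) = c (1, 1) := by
      have := hc1 1 g s hs
      rw [one_mul] at this
      rw [this, hc_one_left]
    have h3 : s * g = g * (g⁻¹ * s * g) := by group
    have h4 := key1 g (g⁻¹ * s * g) (Subgroup.Normal.conj_mem' ‹_› s hs g)
    rw [← h3] at h4
    rw [h2, haS s hs] at h1
    simp only [map_sub, map_mul, Module.End.mul_apply] at h1 h4 ⊢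
    linear_combination (norm := abel) h4 - h1

end core

end Fermat.Agent.H75.Coh2
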