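import Fermat.Agent.H75.Inf2Finite
import Fermat.Agent.H75.Inf2Core

set_option autoImplicit false

namespace Fermat.Agent.H75.Inf2

open Fermat.Agent.H13.Cft Fermat.Agent.H78.CFT groupCohomology

attribute [local instance] isGalois_rat_Qb

/-- The action of `G_E` on `ℚ̄ˣ`, additively, as a `ℤ`-linear representation. -/
noncomputable def repU (E : IntermediateField ℚ Qb) :
    Representation ℤ E.fixingSubgroup (Additive Qbˣ) where
  toFun g := (MonoidHom.toAdditive (actU (g : Qb ≃ₐ[ℚ] Qb))).toIntLinearMap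
  map_one' := LinearMap.ext fun u =>
    congrArg Additive.ofMul (Units.ext (rfl : ((1 : Qb ≃ₐ[ℚ] Qb) (Additive.toMul u : Qbˣ) : Qb) = _))
  map_mul' g h := LinearMap.ext fun u =>
    congrArg Additive.ofMul (Units.ext (rfl : (((g : Qb ≃ₐ[ℚ] Qb) * (h : Qb ≃ₐ[ℚ] Qb))
      (Additive.toMul u : Qbˣ) : Qb) = _))

@[simp] lemma repU_apply (E : IntermediateField ℚ Qb) (g : E.fixingSubgroup) (u : Qbˣ) :
    repU E g (Additive.ofMul u) = Additive.ofMul (actU (g : Qb ≃ₐ[ℚ] Qb) u) := rfl

variable (E : IntermediateField ℚ Qb) (F : IntermediateField E Qb)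

lemma actU_inflE_of_ker [Normal E F] (c : (F ≃ₐ[E] F) × (F ≃ₐ[E] F) → Fˣ)
    (s : E.fixingSubgroup) (hs : resEF E F s = 1) (p : E.fixingSubgroup × E.fixingSubgroup) :
    actU (s : Qb ≃ₐ[ℚ] Qb) (inflE E F c p) = inflE E F c p := by
  apply Units.ext
  show (s : Qb ≃ₐ[ℚ] Qb) (((c (resEF E F p.1, resEF E F p.2) : Fˣ) : F) : Qb) = _
  exact (resEF_eq_one_iff E F s).1 hs _

set_option synthInstance.maxHeartbeats 400000 in
lemma inflE_cocycle [Normal E F] (c : (F ≃ₐ[E] F) × (F ≃ₐ[E] F) → Fˣ) (hc : IsMulCocycle₂ c)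
    (g h j : E.fixingSubgroup) :
    inflE E F c (g * h, j) * inflE E F c (g, h) =
      actU (g : Qb ≃ₐ[ℚ] Qb) (inflE E F c (h, j)) * inflE E F c (g, h * j) := by
  have := congrArg (Units.map (algebraMap F Qb : F →* Qb)) (hc (resEF E F g) (resEF E F h)
    (resEF E F j))
  simp only [map_mul] at this
  simp only [inflE, map_mul]
  rw [this]
  congr 1
  apply Units.ext
  show ((resEF E F g ((c (resEF E F h, resEF E F j) : Fˣ) : F) : F) : Qb) = _
  rw [resEF_apply]
  rfl


lemma fixingSubgroup_restrictScalars_le :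
    (F.restrictScalars ℚ).fixingSubgroup ≤ E.fixingSubgroup := by
  intro s hs
  rw [IntermediateField.mem_fixingSubgroup_iff] at hs ⊢
  intro x hx
  exact hs x (by
    have : (algebraMap E Qb ⟨x, hx⟩ : Qb) ∈ F := F.algebraMap_mem ⟨x, hx⟩
    exact this)

lemma resEF_inclusion [Normal E F] (s : (F.restrictScalars ℚ).fixingSubgroup) :
    resEF E F (Subgroup.inclusion (fixingSubgroup_restrictScalars_le E F) s) = 1 := by
  rw [resEF_eq_one_iff]
  intro x
  exact (IntermediateField.mem_fixingSubgroup_iff _ _).1 s.2 x x.2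

lemma mem_fixingSubgroup_of_resEF [Normal E F] (s : E.fixingSubgroup) (hs : resEF E F s = 1) :
    (s : Qb ≃ₐ[ℚ] Qb) ∈ (F.restrictScalars ℚ).fixingSubgroup := by
  rw [IntermediateField.mem_fixingSubgroup_iff]
  intro x hx
  exact (resEF_eq_one_iff E F s).1 hs ⟨x, hx⟩

set_option synthInstance.maxHeartbeats 400000 in
set_option maxHeartbeats 1000000 in
/-- **[LOC-INF2]** inflation `H²(Gal(F/E), Fˣ) → H²_lvl(G_E, ℚ̄ˣ)` is injective, given Hilbert 90
for level cocycles. -/
theorem inf2Lvl (hH90 : H90LvlStatement) : Inf2LvlStatement := by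
  intro E F _ _ c hc hcob
  classical
  obtain ⟨x, ⟨N, ⟨hNn, hNf, F0, hF0, hF0N⟩, hxN⟩, hx⟩ := hcob
  let S : Subgroup E.fixingSubgroup := (resEF E F).ker
  have hSmem : ∀ s, s ∈ S ↔ resEF E F s = 1 := fun s => MonoidHom.mem_ker
  let ca : E.fixingSubgroup × E.fixingSubgroup → Additive Qbˣ :=
    fun p => Additive.ofMul (inflE E F c p)
  let a : E.fixingSubgroup → Additive Qbˣ := fun g => Additive.ofMul (x g)
  have hca : ∀ g h j, ca (g * h, j) + ca (g, h) = repU E g (ca (h, j)) + ca (g, h * j) :=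
    fun g h j => congrArg Additive.ofMul (inflE_cocycle E F c hc g h j)
  have hc1 : ∀ g h, ∀ s ∈ S, ca (g * s, h) = ca (g, h) := by
    intro g h s hs
    simp only [ca, inflE, map_mul, (hSmem s).1 hs, mul_one]
  have hc2 : ∀ g h, ∀ s ∈ S, ca (g, h * s) = ca (g, h) := by
    intro g h s hs
    simp only [ca, inflE, map_mul, (hSmem s).1 hs, mul_one]
  have hc3 : ∀ g h, ∀ s ∈ S, repU E s (ca (g, h)) = ca (g, h) :=
    fun g h s hs => congrArg Additive.ofMul
      (actU_inflE_of_ker E F c s ((hSmem s).1 hs) (g, h))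
  have ha : ∀ g h, ca (g, h) = repU E g (a h) - a (g * h) + a g := by
    intro g h
    have := hx (g, h)
    simp only [ca, a, repU_apply, ← this, mulD₁E]
    rw [ofMul_div, ofMul_mul]
    abel
  -- the 1-cocycle on `G_F`
  let F' : IntermediateField ℚ Qb := F.restrictScalars ℚ
  have hle : F'.fixingSubgroup ≤ E.fixingSubgroup := fixingSubgroup_restrictScalars_le E F
  let ι : F'.fixingSubgroup →* E.fixingSubgroup := Subgroup.inclusion hle
  have hιS : ∀ s, ι s ∈ S := fun s => (hSmem _).2 (resEF_inclusion E F s)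
  let xF : F'.fixingSubgroup → Qbˣ := fun s => x (ι s) / inflE E F c (1, 1)
  have hxF_lvl : IsLvlFun₁ (lvlE F') xF := by
    have := hNn
    refine ⟨N.comap ι, ⟨inferInstance, ⟨?_⟩, F0, hF0, ?_⟩, ?_⟩
    · rw [Subgroup.index_comap]
      intro h
      exact hNf.index_ne_zero (Subgroup.index_eq_zero_of_relIndex_eq_zero h)
    · intro s hs
      rw [Subgroup.mem_comap] at hs ⊢
      exact hF0N hs
    · intro g n hn
      simp only [xF, map_mul]
      rw [hxN (ι g) (ι n) hn]
  have hxF_coc : IsMulCocycle₁E F' xF := by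
    intro s t
    have := Coh2.inf_core_cocycle (repU E) S ca hc1 hc2 hc3 a ha (ι s) (ι t) (hιS s) (hιS t)
    have h2 := congrArg Additive.toMul this
    simp only [ca, a, ← map_mul, repU_apply, ← ofMul_div, ← ofMul_mul, toMul_ofMul] at h2
    exact h2
  obtain ⟨z, hz⟩ := hH90 F' xF hxF_lvl hxF_coc
  obtain ⟨a', ha'1, ha'2, ha'3⟩ := Coh2.inf_core_inj' (repU E) S ca hca hc1 hc2 a ha
    (Additive.ofMul z) (by
      intro s hs
      have hs' : (s : Qb ≃ₐ[ℚ] Qb) ∈ F'.fixingSubgroup :=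
        mem_fixingSubgroup_of_resEF E F s ((hSmem s).1 hs)
      have h1 := hz ⟨(s : Qb ≃ₐ[ℚ] Qb), hs'⟩
      have h2 : ι ⟨(s : Qb ≃ₐ[ℚ] Qb), hs'⟩ = s := Subtype.ext rfl
      simp only [xF, h2] at h1
      simp only [ca, a, repU_apply, ← ofMul_div]
      exact congrArg Additive.ofMul h1)
  -- descent
  have hmem : ∀ g, ((Additive.toMul (a' g) : Qbˣ) : Qb) ∈ F := fun g =>
    mem_of_fixed E F _ (fun s hs => by
      have := ha'3 g s ((hSmem s).2 ((resEF_eq_one_iff E F s).2 hs))
      exact congrArg (fun u : Additive Qbˣ => ((Additive.toMul u : Qbˣ) : Qb)) this)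
  have hsurj := resEF_surjective E F
  let lift : (F ≃ₐ[E] F) → E.fixingSubgroup := Function.surjInv hsurj
  have hlift : ∀ σ, resEF E F (lift σ) = σ := Function.surjInv_eq hsurj
  have ha'congr : ∀ g g' : E.fixingSubgroup, resEF E F g = resEF E F g' → a' g' = a' g := by
    intro g g' hg
    have h1 : g⁻¹ * g' ∈ S := (hSmem _).2 (by rw [map_mul, map_inv, hg, inv_mul_cancel])
    have := ha'2 g _ h1
    simpa using this
  refine ⟨fun σ => unitOfMem F (Additive.toMul (a' (lift σ))) (hmem _), fun σ τ => ?_⟩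
  have hinj : Function.Injective (Units.map (algebraMap F Qb : F →* Qb)) :=
    Units.map_injective (algebraMap F Qb).injective
  apply hinj
  have e1 : a' (lift (σ * τ)) = a' (lift σ * lift τ) :=
    ha'congr _ _ (by rw [map_mul, hlift, hlift, hlift])
  have a5 : Units.map (algebraMap F Qb : F →* Qb)
      (σ • unitOfMem F (Additive.toMul (a' (lift τ))) (hmem _)) =
        actU (lift σ : Qb ≃ₐ[ℚ] Qb) (Additive.toMul (a' (lift τ))) := by
    apply Units.ext
    show ((σ ((unitOfMem F (Additive.toMul (a' (lift τ))) (hmem _) : Fˣ) : F) : F) : Qb) = _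
    rw [← hlift σ, resEF_apply, hlift]
    rfl
  have a6 : Units.map (algebraMap F Qb : F →* Qb) (c (σ, τ)) =
      Additive.toMul (ca (lift σ, lift τ)) := by
    simp only [ca, inflE, hlift, toMul_ofMul]
  rw [map_mul, map_div, a5, map_unitOfMem, map_unitOfMem, a6, ha'1 (lift σ) (lift τ), e1]
  apply Additive.ofMul.injective
  simp only [ofMul_mul, ofMul_div, ofMul_toMul]
  rfl

end Fermat.Agent.H75.Inf2
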