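import Mathlib
import Fermat.Prelude.Def_FLTPrelim_FreyPackage
import Fermat.Agent.H3.FreyReduction

/-!
# P-S13, WP1(b): elliptic divisibility sequences with `b = 0`

* `preNormEDS_zero_odd`, `normEDS_zero_odd`: for `b = 0` the odd terms are `± c ^ (k (k + 1) / 2)`.
* `map_preΨ_odd_of_map_Ψ₂Sq_eq_zero`, `eval_preΨ_odd_of_eval_Ψ₂Sq_eq_zero`, `eval_preΨ_of_odd`:
  at an abscissa of a `2`-torsion point, the odd division polynomial `preΨ_n` takes the value
  `± Ψ₃ ^ ((n ^ 2 - 1) / 8)`.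
* Frey curve: `frey_four_mul_eval₂_Ψ₂Sq`, `frey_256_mul_eval₂_Ψ₃` and
  `frey_exists_eval_preΨ_not_dvd`: there is an integer `e` with `p ∤ preΨ_p(e)`.
-/

set_option autoImplicit false

namespace Fermat.Agent.H75

open Polynomial

section EDS

variable {R : Type*} [CommRing R]

/-- For an elliptic divisibility sequence with parameter `b = 0`, the odd terms of `preNormEDS`
are, up to an explicit sign, powers of `c`. -/
theorem preNormEDS_zero_odd (c d : R) (k : ℕ) :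
    preNormEDS (0 : R) c d (2 * (k : ℤ) + 1) = (-1) ^ (k / 2) * c ^ (k * (k + 1) / 2) := by
  induction k using Nat.strong_induction_on with
  | _ k ih =>
    rcases Nat.even_or_odd' k with ⟨j, rfl | rfl⟩
    · -- k = 2 j
      rcases Nat.eq_zero_or_pos j with rfl | hj
      · simp
      · obtain ⟨i, rfl⟩ : ∃ i, j = i + 1 := ⟨j - 1, by omega⟩
        rw [preNormEDS_odd]
        have hev : Even ((2 * (i + 1) : ℕ) : ℤ) := by
          rw [Int.even_coe_nat]; exact even_two_mul _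
        rw [if_pos hev, if_pos hev, mul_zero, zero_sub, mul_one]
        have e1 : ((2 * (i + 1) : ℕ) : ℤ) - 1 = 2 * (i : ℤ) + 1 := by push_cast; ring
        have e2 : ((2 * (i + 1) : ℕ) : ℤ) + 1 = 2 * ((i + 1 : ℕ) : ℤ) + 1 := by push_cast; ring
        rw [e1, e2, ih i (by omega), ih (i + 1) (by omega)]
        have h1 : 2 * (i + 1) / 2 = i + 1 := by omega
        have hpar : (i / 2) + 3 * ((i + 1) / 2) + 1 = (i + 1) + 2 * ((i + 1) / 2) := by omega
        have hexp : i * (i + 1) / 2 + 3 * ((i + 1) * (i + 1 + 1) / 2) =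
            2 * (i + 1) * (2 * (i + 1) + 1) / 2 := by
          have a1 : 2 ∣ i * (i + 1) := (Nat.even_mul_succ_self i).two_dvd
          have a2 : 2 ∣ (i + 1) * (i + 1 + 1) := (Nat.even_mul_succ_self (i + 1)).two_dvd
          obtain ⟨u, hu⟩ := a1
          obtain ⟨v, hv⟩ := a2
          rw [hu, hv, Nat.mul_div_cancel_left _ two_pos, Nat.mul_div_cancel_left _ two_pos]
          have : 2 * (i + 1) * (2 * (i + 1) + 1) = 2 * (u + 3 * v) := by nlinarith
          rw [this, Nat.mul_div_cancel_left _ two_pos]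
        have hc : c ^ (i * (i + 1) / 2 + 3 * ((i + 1) * (i + 1 + 1) / 2)) =
            c ^ (i * (i + 1) / 2) * (c ^ ((i + 1) * (i + 1 + 1) / 2)) ^ 3 := by
          rw [pow_add, pow_mul' c 3]
        have hsign : (-1 : R) ^ (i + 1) = -((-1 : R) ^ (i / 2) * ((-1) ^ ((i + 1) / 2)) ^ 3) := by
          have : (-1 : R) ^ (i + 1 + 2 * ((i + 1) / 2)) = (-1) ^ (i + 1) := by
            rw [pow_add, pow_mul]; simp
          rw [← this, ← hpar, pow_succ, ← pow_mul, ← pow_add, mul_comm 3]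
          ring
        rw [h1, ← hexp, hc, hsign]
        ring
    · -- k = 2 j + 1
      rcases Nat.eq_zero_or_pos j with rfl | hj
      · simp
      · rw [preNormEDS_odd]
        have hodd : ¬ Even ((2 * j + 1 : ℕ) : ℤ) := by
          rw [Int.even_coe_nat]; simp
        rw [if_neg hodd, if_neg hodd, mul_zero, sub_zero, mul_one]
        have e1 : ((2 * j + 1 : ℕ) : ℤ) + 2 = 2 * ((j + 1 : ℕ) : ℤ) + 1 := by push_cast; ring
        have e2 : ((2 * j + 1 : ℕ) : ℤ) = 2 * (j : ℤ) + 1 := by push_cast; ring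
        rw [e1, e2, ih (j + 1) (by omega), ih j (by omega)]
        have h1 : (2 * j + 1) / 2 = j := by omega
        have hexp : (j + 1) * (j + 1 + 1) / 2 + 3 * (j * (j + 1) / 2) =
            (2 * j + 1) * (2 * j + 1 + 1) / 2 := by
          have a1 : 2 ∣ j * (j + 1) := (Nat.even_mul_succ_self j).two_dvd
          have a2 : 2 ∣ (j + 1) * (j + 1 + 1) := (Nat.even_mul_succ_self (j + 1)).two_dvd
          obtain ⟨u, hu⟩ := a1
          obtain ⟨v, hv⟩ := a2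
          rw [hu, hv, Nat.mul_div_cancel_left _ two_pos, Nat.mul_div_cancel_left _ two_pos]
          have : (2 * j + 1) * (2 * j + 1 + 1) = 2 * (v + 3 * u) := by nlinarith
          rw [this, Nat.mul_div_cancel_left _ two_pos]
        have hc : c ^ ((j + 1) * (j + 1 + 1) / 2 + 3 * (j * (j + 1) / 2)) =
            c ^ ((j + 1) * (j + 1 + 1) / 2) * (c ^ (j * (j + 1) / 2)) ^ 3 := by
          rw [pow_add, pow_mul' c 3]
        have hsign : (-1 : R) ^ j = ((-1 : R) ^ ((j + 1) / 2) * ((-1) ^ (j / 2)) ^ 3) := by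
          have : (-1 : R) ^ (j + 2 * (j / 2)) = (-1) ^ j := by
            rw [pow_add, pow_mul]; simp
          rw [← this, ← pow_mul, ← pow_add]
          congr 1
          omega
        rw [h1, ← hexp, hc, hsign]
        ring


/-- For `b = 0` the odd terms of `normEDS` are, up to sign, powers of `c`. -/
theorem normEDS_zero_odd (c d : R) (k : ℕ) :
    normEDS (0 : R) c d (2 * (k : ℤ) + 1) = (-1) ^ (k / 2) * c ^ (k * (k + 1) / 2) := by
  have hodd : ¬ Even (2 * (k : ℤ) + 1) := Int.not_even_two_mul_add_one _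
  rw [normEDS, if_neg hodd, mul_one, zero_pow (by norm_num), preNormEDS_zero_odd]

/-- For `b = 0` the even terms of `normEDS` vanish. -/
theorem normEDS_zero_even (c d : R) (m : ℤ) : normEDS (0 : R) c d (2 * m) = 0 := by
  rw [normEDS, if_pos (even_two_mul m), mul_zero]

end EDS

section Weierstrass

variable {R S : Type*} [CommRing R] [CommRing S] (W : WeierstrassCurve R)

/-- If a ring homomorphism kills `Ψ₂Sq`, it sends `preΨ (2k+1)` to `± (image of Ψ₃) ^ (k(k+1)/2)`. -/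
theorem map_preΨ_odd_of_map_Ψ₂Sq_eq_zero (f : R[X] →+* S) (hf : f W.Ψ₂Sq = 0) (k : ℕ) :
    f (W.preΨ (2 * (k : ℤ) + 1)) = (-1) ^ (k / 2) * f W.Ψ₃ ^ (k * (k + 1) / 2) := by
  rw [WeierstrassCurve.preΨ, map_preNormEDS, map_pow, hf, zero_pow (by norm_num),
    preNormEDS_zero_odd]

/-- At an abscissa `e` of a `2`-torsion point, `preΨ (2k+1)` takes the value
`± Ψ₃(e) ^ (k(k+1)/2)`. -/
theorem eval_preΨ_odd_of_eval_Ψ₂Sq_eq_zero (e : R) (he : W.Ψ₂Sq.eval e = 0) (k : ℕ) :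
    (W.preΨ (2 * (k : ℤ) + 1)).eval e = (-1) ^ (k / 2) * W.Ψ₃.eval e ^ (k * (k + 1) / 2) :=
  map_preΨ_odd_of_map_Ψ₂Sq_eq_zero W (Polynomial.evalRingHom e) he k

/-- Version for an odd natural index `n`. -/
theorem eval_preΨ_of_odd (e : R) (he : W.Ψ₂Sq.eval e = 0) {n : ℕ} (hn : Odd n) :
    (W.preΨ (n : ℤ)).eval e = (-1) ^ (n / 4) * W.Ψ₃.eval e ^ ((n ^ 2 - 1) / 8) := by
  obtain ⟨k, rfl⟩ := hn
  have h := eval_preΨ_odd_of_eval_Ψ₂Sq_eq_zero W e he k
  have e1 : ((2 * k + 1 : ℕ) : ℤ) = 2 * (k : ℤ) + 1 := by push_cast; ring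
  have e2 : (2 * k + 1) / 4 = k / 2 := by omega
  have e3 : ((2 * k + 1) ^ 2 - 1) / 8 = k * (k + 1) / 2 := by
    obtain ⟨u, hu⟩ := (Nat.even_mul_succ_self k).two_dvd
    have : (2 * k + 1) ^ 2 - 1 = 8 * u := by
      have : (2 * k + 1) ^ 2 = 4 * (k * (k + 1)) + 1 := by ring
      rw [this, hu]; omega
    rw [this, hu, Nat.mul_div_cancel_left _ (by norm_num), Nat.mul_div_cancel_left _ two_pos]
  rw [e1, e2, e3]
  exact h

/-- The bivariate version: if a ring homomorphism kills `ψ₂`, it sends `ψ (2k+1)` to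
`± (image of C Ψ₃) ^ (k(k+1)/2)`. -/
theorem map_ψ_odd_of_map_ψ₂_eq_zero (f : R[X][X] →+* S) (hf : f W.ψ₂ = 0) (k : ℕ) :
    f (W.ψ (2 * (k : ℤ) + 1)) = (-1) ^ (k / 2) * f (C W.Ψ₃) ^ (k * (k + 1) / 2) := by
  rw [WeierstrassCurve.ψ, map_normEDS, hf, normEDS_zero_odd]

end Weierstrass

section Frey

variable (P : FreyPackage)

lemma frey_b₂ : P.freyCurveInt.b₂ = P.b ^ P.p - P.a ^ P.p := by
  have h := Fermat.Agent.H3.frey_four_mul_a₂ P
  rw [WeierstrassCurve.b₂, Fermat.Agent.H3.freyCurveInt_a₁]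
  linarith

lemma frey_eight_mul_b₄ : 8 * P.freyCurveInt.b₄ = -(P.a ^ P.p * P.b ^ P.p) := by
  have h := Fermat.Agent.H3.frey_sixteen_mul_a₄ P
  rw [WeierstrassCurve.b₄, Fermat.Agent.H3.freyCurveInt_a₁, Fermat.Agent.H3.freyCurveInt_a₃]
  linarith

lemma frey_b₆ : P.freyCurveInt.b₆ = 0 := by
  rw [WeierstrassCurve.b₆, Fermat.Agent.H3.freyCurveInt_a₃, Fermat.Agent.H3.freyCurveInt_a₆]
  ring

lemma frey_256_mul_b₈ : 256 * P.freyCurveInt.b₈ = -(P.a ^ P.p * P.b ^ P.p) ^ 2 := by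
  have h := Fermat.Agent.H3.frey_sixteen_mul_a₄ P
  rw [WeierstrassCurve.b₈, Fermat.Agent.H3.freyCurveInt_a₁, Fermat.Agent.H3.freyCurveInt_a₃,
    Fermat.Agent.H3.freyCurveInt_a₆]
  linear_combination (P.a ^ P.p * P.b ^ P.p - 16 * P.freyCurveInt.a₄) * h

/-- `4 Ψ₂Sq(x) = x (4 x - a^p) (4 x + b^p)` on the integral Frey model, after any ring
homomorphism `φ` and evaluation at any `x`. -/
lemma frey_four_mul_eval₂_Ψ₂Sq {k : Type*} [CommRing k] (φ : ℤ →+* k) (x : k) :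
    4 * P.freyCurveInt.Ψ₂Sq.eval₂ φ x =
      x * (4 * x - φ (P.a ^ P.p)) * (4 * x + φ (P.b ^ P.p)) := by
  have h2 := congrArg φ (frey_b₂ P)
  have h4 := congrArg φ (frey_eight_mul_b₄ P)
  have h6 := congrArg φ (frey_b₆ P)
  simp only [map_mul, map_sub, map_neg, map_ofNat, map_zero] at h2 h4 h6
  rw [WeierstrassCurve.Ψ₂Sq]
  simp only [eval₂_add, eval₂_mul, eval₂_C, eval₂_X, eval₂_pow, map_mul, map_ofNat, eval₂_ofNat]
  linear_combination (4 * x ^ 2) * h2 + x * h4 + 4 * h6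

/-- `256 Ψ₃(x)` on the integral Frey model, after any ring homomorphism `φ` and evaluation at
any `x`. -/
lemma frey_256_mul_eval₂_Ψ₃ {k : Type*} [CommRing k] (φ : ℤ →+* k) (x : k) :
    256 * P.freyCurveInt.Ψ₃.eval₂ φ x =
      3 * (4 * x) ^ 4 + 4 * (φ (P.b ^ P.p) - φ (P.a ^ P.p)) * (4 * x) ^ 3
        - 6 * (φ (P.a ^ P.p) * φ (P.b ^ P.p)) * (4 * x) ^ 2
        - (φ (P.a ^ P.p) * φ (P.b ^ P.p)) ^ 2 := by
  have h2 := congrArg φ (frey_b₂ P)
  have h4 := congrArg φ (frey_eight_mul_b₄ P)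
  have h6 := congrArg φ (frey_b₆ P)
  have h8 := congrArg φ (frey_256_mul_b₈ P)
  rw [map_mul, map_neg, map_pow, map_mul] at h8
  simp only [map_mul, map_sub, map_neg, map_ofNat, map_zero] at h2 h4 h6 h8
  rw [WeierstrassCurve.Ψ₃]
  simp only [eval₂_add, eval₂_mul, eval₂_C, eval₂_X, eval₂_pow, eval₂_ofNat]
  linear_combination (256 * x ^ 3) * h2 + (96 * x ^ 2) * h4 + (768 * x) * h6 + h8

/-- `p` does not divide both `a ^ p` and `b ^ p`. -/
lemma frey_not_dvd_both : ¬ (((P.p : ℤ) ∣ P.a ^ P.p) ∧ ((P.p : ℤ) ∣ P.b ^ P.p)) := by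
  rintro ⟨ha, hb⟩
  have hp : Prime (P.p : ℤ) := Nat.prime_iff_prime_int.mp P.pp
  have ha' := hp.dvd_of_dvd_pow ha
  have hb' := hp.dvd_of_dvd_pow hb
  have h1 : (P.p : ℤ) ∣ gcd P.a P.b := dvd_gcd ha' hb'
  rw [P.hgcdab] at h1
  exact hp.not_dvd_one h1

/-- **WP1(b), Frey form.** On the integral Frey model there is an integer abscissa `e` at which
the `p`-th division polynomial `preΨ_p` takes a value prime to `p`. -/
theorem frey_exists_eval_preΨ_not_dvd :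
    ∃ e : ℤ, ¬ ((P.p : ℤ) ∣ (P.freyCurveInt.preΨ (P.p : ℤ)).eval e) := by
  have : Fact P.p.Prime := ⟨P.pp⟩
  obtain ⟨k', hk'⟩ := P.hp_odd
  have hp5 := P.hp5
  set φ : ℤ →+* ZMod P.p := Int.castRingHom (ZMod P.p) with hφ
  -- small numbers are invertible mod `p`
  have h2 : (2 : ZMod P.p) ≠ 0 := by
    intro h
    have : ((2 : ℕ) : ZMod P.p) = 0 := by exact_mod_cast h
    rw [ZMod.natCast_eq_zero_iff] at this
    have := Nat.le_of_dvd (by norm_num) this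
    omega
  have h4 : (4 : ZMod P.p) ≠ 0 := by
    have : (4 : ZMod P.p) = 2 * 2 := by norm_num
    rw [this]; exact mul_ne_zero h2 h2
  have h256 : (256 : ZMod P.p) ≠ 0 := by
    have : (256 : ZMod P.p) = 2 ^ 8 := by norm_num
    rw [this]; exact pow_ne_zero _ h2
  -- the three cases
  have hnot := frey_not_dvd_both P
  have hα : φ (P.a ^ P.p) = 0 ↔ (P.p : ℤ) ∣ P.a ^ P.p := by
    rw [hφ, eq_intCast, ZMod.intCast_zmod_eq_zero_iff_dvd]
  have hβ : φ (P.b ^ P.p) = 0 ↔ (P.p : ℤ) ∣ P.b ^ P.p := by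
    rw [hφ, eq_intCast, ZMod.intCast_zmod_eq_zero_iff_dvd]
  -- choose `x` with `4 x = t`
  obtain ⟨x, hx2, hx3⟩ : ∃ x : ZMod P.p,
      x * (4 * x - φ (P.a ^ P.p)) * (4 * x + φ (P.b ^ P.p)) = 0 ∧
      3 * (4 * x) ^ 4 + 4 * (φ (P.b ^ P.p) - φ (P.a ^ P.p)) * (4 * x) ^ 3
        - 6 * (φ (P.a ^ P.p) * φ (P.b ^ P.p)) * (4 * x) ^ 2
        - (φ (P.a ^ P.p) * φ (P.b ^ P.p)) ^ 2 ≠ 0 := by
    by_cases ha : φ (P.a ^ P.p) = 0
    · have hb : φ (P.b ^ P.p) ≠ 0 := fun hb ↦ hnot ⟨hα.mp ha, hβ.mp hb⟩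
      refine ⟨-φ (P.b ^ P.p) / 4, ?_, ?_⟩
      · have : 4 * (-φ (P.b ^ P.p) / 4) + φ (P.b ^ P.p) = 0 := by field_simp; ring
        rw [this, mul_zero]
      · have e4 : 4 * (-φ (P.b ^ P.p) / 4) = -φ (P.b ^ P.p) := by field_simp
        rw [e4, ha]
        have : 3 * (-φ (P.b ^ P.p)) ^ 4 + 4 * (φ (P.b ^ P.p) - 0) * (-φ (P.b ^ P.p)) ^ 3 -
            6 * (0 * φ (P.b ^ P.p)) * (-φ (P.b ^ P.p)) ^ 2 - (0 * φ (P.b ^ P.p)) ^ 2 =
            -(φ (P.b ^ P.p)) ^ 4 := by ring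
        rw [this]
        exact neg_ne_zero.mpr (pow_ne_zero _ hb)
    · by_cases hb : φ (P.b ^ P.p) = 0
      · refine ⟨φ (P.a ^ P.p) / 4, ?_, ?_⟩
        · have : 4 * (φ (P.a ^ P.p) / 4) - φ (P.a ^ P.p) = 0 := by field_simp; ring
          rw [this, mul_zero, zero_mul]
        · have e4 : 4 * (φ (P.a ^ P.p) / 4) = φ (P.a ^ P.p) := by field_simp
          rw [e4, hb]
          have : 3 * (φ (P.a ^ P.p)) ^ 4 + 4 * (0 - φ (P.a ^ P.p)) * (φ (P.a ^ P.p)) ^ 3 -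
              6 * (φ (P.a ^ P.p) * 0) * (φ (P.a ^ P.p)) ^ 2 - (φ (P.a ^ P.p) * 0) ^ 2 =
              -(φ (P.a ^ P.p)) ^ 4 := by ring
          rw [this]
          exact neg_ne_zero.mpr (pow_ne_zero _ ha)
      · refine ⟨0, by simp, ?_⟩
        have : 3 * (4 * (0 : ZMod P.p)) ^ 4 +
            4 * (φ (P.b ^ P.p) - φ (P.a ^ P.p)) * (4 * (0 : ZMod P.p)) ^ 3 -
            6 * (φ (P.a ^ P.p) * φ (P.b ^ P.p)) * (4 * (0 : ZMod P.p)) ^ 2 -
            (φ (P.a ^ P.p) * φ (P.b ^ P.p)) ^ 2 = -(φ (P.a ^ P.p) * φ (P.b ^ P.p)) ^ 2 := by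
          ring
        rw [this]
        exact neg_ne_zero.mpr (pow_ne_zero _ (mul_ne_zero ha hb))
  obtain ⟨e, rfl⟩ := ZMod.intCast_surjective x
  refine ⟨e, fun hdvd ↦ ?_⟩
  -- the ring hom `f = (reduction mod p) ∘ (evaluation at e)`
  set f : ℤ[X] →+* ZMod P.p := Polynomial.eval₂RingHom φ ((e : ℤ) : ZMod P.p) with hf
  have hfΨ₂ : f P.freyCurveInt.Ψ₂Sq = 0 := by
    have h := frey_four_mul_eval₂_Ψ₂Sq P φ ((e : ℤ) : ZMod P.p)
    rw [hx2] at h
    exact (mul_eq_zero.mp h).resolve_left h4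
  have hfΨ₃ : f P.freyCurveInt.Ψ₃ ≠ 0 := by
    intro h0
    have h := frey_256_mul_eval₂_Ψ₃ P φ ((e : ℤ) : ZMod P.p)
    rw [show P.freyCurveInt.Ψ₃.eval₂ φ ((e : ℤ) : ZMod P.p) = f P.freyCurveInt.Ψ₃ from rfl, h0,
      mul_zero] at h
    exact hx3 h.symm
  have hmain := map_preΨ_odd_of_map_Ψ₂Sq_eq_zero P.freyCurveInt f hfΨ₂ k'
  have hidx : ((P.p : ℕ) : ℤ) = 2 * (k' : ℤ) + 1 := by rw [hk']; push_cast; ring
  rw [← hidx] at hmain
  have hne : f (P.freyCurveInt.preΨ (P.p : ℤ)) ≠ 0 := by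
    rw [hmain]
    exact mul_ne_zero (pow_ne_zero _ (neg_ne_zero.mpr one_ne_zero)) (pow_ne_zero _ hfΨ₃)
  apply hne
  have hcast : f (P.freyCurveInt.preΨ (P.p : ℤ)) =
      (((P.freyCurveInt.preΨ (P.p : ℤ)).eval e : ℤ) : ZMod P.p) := by
    rw [hf, Polynomial.coe_eval₂RingHom, hφ]
    have h := Polynomial.hom_eval₂ (P.freyCurveInt.preΨ (P.p : ℤ)) (RingHom.id ℤ)
      (Int.castRingHom (ZMod P.p)) e
    rw [RingHom.comp_id] at h
    exact h.symm
  rw [hcast, ZMod.intCast_zmod_eq_zero_iff_dvd]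
  exact hdvd

end Frey

section FreyDegree

variable (P : FreyPackage)

lemma frey_not_even_p : ¬ Even ((P.p : ℕ) : ℤ) := by
  rw [Int.even_coe_nat, Nat.not_even_iff_odd]
  exact P.hp_odd

/-- The degree of the `p`-th division polynomial of the integral Frey model. -/
theorem frey_preΨ_natDegree :
    (P.freyCurveInt.preΨ (P.p : ℤ)).natDegree = (P.p ^ 2 - 1) / 2 := by
  rw [WeierstrassCurve.natDegree_preΨ (W := P.freyCurveInt) (n := (P.p : ℤ))
    (by simpa using P.hp0), if_neg (frey_not_even_p P), Int.natAbs_natCast]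

/-- The leading coefficient of the `p`-th division polynomial of the integral Frey model. -/
theorem frey_preΨ_leadingCoeff :
    (P.freyCurveInt.preΨ (P.p : ℤ)).leadingCoeff = (P.p : ℤ) := by
  rw [WeierstrassCurve.leadingCoeff_preΨ (W := P.freyCurveInt) (n := (P.p : ℤ))
    (by simpa using P.hp0), if_neg (frey_not_even_p P), Int.cast_id]

/-- The `p`-th division polynomial of the rational Frey curve comes from the integral model. -/
theorem frey_preΨ_map :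
    (P.freyCurveInt.preΨ (P.p : ℤ)).map (Int.castRingHom ℚ) = P.freyCurve.preΨ (P.p : ℤ) := by
  rw [← WeierstrassCurve.map_preΨ, Fermat.Agent.H3.freyCurveInt_map]

end FreyDegree

end Fermat.Agent.H75
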