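import Mathlib

/-!
# P-IGUSA, IG-E2: abstract field lemmas

* `irreducible_of_factor`: a monic polynomial over an intermediate field `G` which factors over
  the big field as `(X - y) * g` with `y ∉ G` and `g` irreducible is irreducible over `G`.
* `exists_extend_ringHom`: extension of a ring homomorphism to a simple extension.
* `relrank_sup_adjoin_simple`: the relative rank of a simple extension is the degree of an
  irreducible polynomial having the generator as a root.
-/

set_option autoImplicit false

namespace Fermat.Agent.H75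

open Polynomial IntermediateField

/-- A root of an irreducible polynomial over a field is integral over that field. -/
lemma isIntegral_of_irreducible_root {K E : Type*} [Field K] [Field E] [Algebra K E]
    (y : E) (P : Polynomial K) (hP : Irreducible P) (hPy : Polynomial.aeval y P = 0) :
    IsIntegral K y := by
  have hP0 : P ≠ 0 := hP.ne_zero
  exact (isAlgebraic_iff_isIntegral).mp ⟨P, hP0, hPy⟩

theorem irreducible_of_factor {F E : Type*} [Field F] [Field E] [Algebra F E]
    (G : IntermediateField F E) (P : Polynomial G) (hP : P.Monic) (y : E) (hy : y ∉ G)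
    (g : Polynomial E) (hg : Irreducible g)
    (h : P.map (algebraMap G E) = (X - C y) * g) : Irreducible P := by
  classical
  have hPy : Polynomial.aeval y P = 0 := by
    rw [Polynomial.aeval_def, Polynomial.eval₂_eq_eval_map, h]
    simp
  have hint : IsIntegral G y := ⟨P, hP, by rwa [Polynomial.aeval_def] at hPy⟩
  have hμ_irr : Irreducible (minpoly G y) := minpoly.irreducible hint
  obtain ⟨Q, hQ⟩ := minpoly.dvd G y hPy
  have hμy : ((minpoly G y).map (algebraMap G E)).eval y = 0 := by
    rw [Polynomial.eval_map, ← Polynomial.aeval_def]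
    exact minpoly.aeval G y
  obtain ⟨μ', hμ'⟩ : (X - C y) ∣ (minpoly G y).map (algebraMap G E) :=
    Polynomial.dvd_iff_isRoot.mpr hμy
  have hX : (X - C y : E[X]) ≠ 0 := X_sub_C_ne_zero y
  have hg' : g = μ' * Q.map (algebraMap G E) := by
    have : (X - C y) * g = (X - C y) * (μ' * Q.map (algebraMap G E)) := by
      rw [← h, hQ, Polynomial.map_mul, hμ', mul_assoc]
    exact mul_left_cancel₀ hX this
  rcases hg.isUnit_or_isUnit hg' with hu | hu
  · exfalso
    have hdeg : (minpoly G y).natDegree = 1 := by
      have := congrArg natDegree hμ'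
      rw [natDegree_map, natDegree_mul hX hu.ne_zero, natDegree_X_sub_C,
        natDegree_eq_zero_of_isUnit hu] at this
      exact this
    have hmem := (minpoly.natDegree_eq_one_iff (A := G) (x := y)).mp hdeg
    obtain ⟨z, hz⟩ := hmem
    exact hy (hz ▸ z.2)
  · have hQu : IsUnit Q := by
      have hQ0 : Q ≠ 0 := by
        rintro rfl
        rw [mul_zero] at hQ
        exact hP.ne_zero hQ
      have hd : Q.natDegree = 0 := by
        have := natDegree_eq_zero_of_isUnit hu
        rwa [natDegree_map] at this
      rw [Polynomial.isUnit_iff]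
      obtain ⟨c, hc⟩ := natDegree_eq_zero.mp hd
      refine ⟨c, ?_, hc⟩
      rw [isUnit_iff_ne_zero]
      rintro rfl
      exact hQ0 (by rw [← hc, map_zero])
    rw [hQ]
    exact (irreducible_mul_isUnit hQu).mpr hμ_irr

theorem exists_extend_ringHom {F E E' : Type*} [Field F] [Field E] [Algebra F E] [Field E']
    (G : IntermediateField F E) (y : E) (P : Polynomial G) (hP : Irreducible P)
    (hPy : (P.map (algebraMap G E)).eval y = 0) (φ : G →+* E') (y' : E')
    (hy' : (P.map φ).eval y' = 0) :
    ∃ φ' : ↥(G ⊔ IntermediateField.adjoin F {y}) →+* E',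
      (∀ x : G, φ' ⟨x, (le_sup_left : G ≤ G ⊔ IntermediateField.adjoin F {y}) x.2⟩ = φ x) ∧
      φ' ⟨y, (le_sup_right : IntermediateField.adjoin F {y} ≤ G ⊔ IntermediateField.adjoin F {y})
        (IntermediateField.mem_adjoin_simple_self F y)⟩ = y' := by
  have hPy' : aeval y P = 0 := by rw [aeval_def, eval₂_eq_eval_map]; exact hPy
  have hint : IsIntegral G y := isIntegral_of_irreducible_root y P hP hPy'
  have hmin : P * C P.leadingCoeff⁻¹ = minpoly G y := minpoly.eq_of_irreducible hP hPy'
  have hroot : eval₂ φ y' (minpoly G y) = 0 := by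
    rw [← hmin, eval₂_mul, eval₂_eq_eval_map, hy', zero_mul]
  have hle : ∀ x : E, x ∈ G ⊔ IntermediateField.adjoin F {y} → x ∈ G⟮y⟯ := by
    intro x hx
    rw [← IntermediateField.restrictScalars_adjoin_eq_sup] at hx
    exact hx
  let ι : ↥(G ⊔ IntermediateField.adjoin F {y}) →+* ↥(G⟮y⟯) :=
    { toFun := fun x ↦ ⟨x.1, hle x.1 x.2⟩
      map_one' := rfl
      map_mul' := fun _ _ ↦ rfl
      map_zero' := rfl
      map_add' := fun _ _ ↦ rfl }
  refine ⟨((AdjoinRoot.lift φ y' hroot).comp
    (IntermediateField.adjoinRootEquivAdjoin G hint).symm.toRingEquiv.toRingHom).comp ι, ?_, ?_⟩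
  · intro x
    have h1 : (IntermediateField.adjoinRootEquivAdjoin G hint).symm
        (ι ⟨x, (le_sup_left : G ≤ G ⊔ IntermediateField.adjoin F {y}) x.2⟩) =
        AdjoinRoot.of _ x := by
      rw [AlgEquiv.symm_apply_eq]
      have : (AdjoinRoot.of (minpoly G y)) x = algebraMap G (AdjoinRoot (minpoly G y)) x := rfl
      rw [this, AlgEquiv.commutes]
      rfl
    change (AdjoinRoot.lift φ y' hroot) ((IntermediateField.adjoinRootEquivAdjoin G hint).symm
      (ι ⟨x, _⟩)) = φ x
    rw [h1, AdjoinRoot.lift_of]
  · have h1 : (IntermediateField.adjoinRootEquivAdjoin G hint).symm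
        (ι ⟨y, (le_sup_right : IntermediateField.adjoin F {y} ≤
          G ⊔ IntermediateField.adjoin F {y}) (IntermediateField.mem_adjoin_simple_self F y)⟩) =
        AdjoinRoot.root _ := by
      rw [AlgEquiv.symm_apply_eq, IntermediateField.adjoinRootEquivAdjoin_apply_root]
      rfl
    change (AdjoinRoot.lift φ y' hroot) ((IntermediateField.adjoinRootEquivAdjoin G hint).symm
      (ι ⟨y, _⟩)) = y'
    rw [h1, AdjoinRoot.lift_root]

theorem relrank_sup_adjoin_simple {F E : Type*} [Field F] [Field E] [Algebra F E]
    (G : IntermediateField F E) (y : E) (P : Polynomial G) (hP : Irreducible P)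
    (hPy : (P.map (algebraMap G E)).eval y = 0) :
    IntermediateField.relrank G (G ⊔ IntermediateField.adjoin F {y}) =
      (P.natDegree : Cardinal) := by
  have hPy' : aeval y P = 0 := by rw [aeval_def, eval₂_eq_eval_map]; exact hPy
  have hint : IsIntegral G y := isIntegral_of_irreducible_root y P hP hPy'
  have hmin : P * C P.leadingCoeff⁻¹ = minpoly G y := minpoly.eq_of_irreducible hP hPy'
  have hdeg : (minpoly G y).natDegree = P.natDegree := by
    rw [← hmin]
    exact natDegree_mul_C (inv_ne_zero (leadingCoeff_ne_zero.mpr hP.ne_zero))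
  have hle : G ≤ G ⊔ IntermediateField.adjoin F {y} := le_sup_left
  rw [IntermediateField.relrank_eq_rank_of_le hle]
  have hext : IntermediateField.extendScalars hle = G⟮y⟯ := by
    apply IntermediateField.restrictScalars_injective F
    rw [IntermediateField.extendScalars_restrictScalars,
      IntermediateField.restrictScalars_adjoin_eq_sup]
  rw [hext]
  have := IntermediateField.adjoin.finiteDimensional hint
  rw [← Module.finrank_eq_rank, IntermediateField.adjoin.finrank hint, hdeg]

end Fermat.Agent.H75
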