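/-
helper75 — P-CFT row 806 (SD-LOCFIN).

* `locHomologyEquiv` : `Hⁿ(locComplex 𝔄 M) ≃ₗ ∏ v, Hⁿ(Γ v, M)` (homology commutes with the product
  of the local level complexes; any commutative ring `k`, any index type).
* `finite_locHomology`, `finrank_locHomology` (the product formula, `k` a field),
  `finite_lvlH_of_sha`.
* `locFinite : Fermat.Agent.H13.Cft.LocFiniteStatement`.
-/
import Fermat.Agent.H13.Cft.WaistV2
import Fermat.Agent.H19.Cft.HomologyApi

set_option autoImplicit false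

universe u

open CategoryTheory

namespace Fermat.Agent.H75.LocFin

open Fermat.Agent.H13.Cft Fermat.Agent.H19

noncomputable section

section general

variable {k G : Type u} [CommRing k] [Group G] (𝔄 : ArithDatum k G) (M : Rep.{u} k G)

lemma locComplex_d_hom_apply (n : ℕ)
    (x : ∀ v, lvlCochains (𝔄.lvlv v) (Rep.res (𝔄.loc v) M) n) :
    ((locComplex 𝔄 M).d n (n + 1)).hom x =
      fun v => lvlD (𝔄.lvlv v) (Rep.res (𝔄.loc v) M) n (x v) := by
  simp only [locComplex, CochainComplex.of.d, dif_pos, eqToHom_refl, Category.comp_id]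
  rfl

/-- The projection of the product of the local complexes to a factor. -/
def locProj (v : 𝔄.ι) : locComplex 𝔄 M ⟶ lvlComplex (𝔄.lvlv v) (Rep.res (𝔄.loc v) M) where
  f n := ModuleCat.ofHom (LinearMap.proj v)
  comm' i j (hij : _ = _) := by
    subst hij
    ext x : 2
    simp only [locComplex, CochainComplex.of.d, dif_pos, eqToHom_refl, Category.comp_id,
      ModuleCat.hom_comp]
    rfl

lemma locProj_f_apply (v : 𝔄.ι) (n : ℕ)
    (x : ∀ v, lvlCochains (𝔄.lvlv v) (Rep.res (𝔄.loc v) M) n) :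
    ((locProj 𝔄 M v).f n).hom x = x v := rfl

/-- The comparison map `Hⁿ(∏ v, C(Γ v, M)) → ∏ v, Hⁿ(Γ v, M)`. -/
def locHomologyToPi (n : ℕ) :
    (locComplex 𝔄 M).homology n →ₗ[k] ∀ v, lvlH (𝔄.lvlv v) (Rep.res (𝔄.loc v) M) n :=
  LinearMap.pi fun v => (HomologicalComplex.homologyMap (locProj 𝔄 M v) n).hom

lemma locHomologyToPi_apply (n : ℕ) (z : (locComplex 𝔄 M).homology n) (v : 𝔄.ι) :
    locHomologyToPi 𝔄 M n z v = (HomologicalComplex.homologyMap (locProj 𝔄 M v) n).hom z := rfl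

lemma locD_eq_zero_iff (n : ℕ) (x : ∀ v, lvlCochains (𝔄.lvlv v) (Rep.res (𝔄.loc v) M) n) :
    ((locComplex 𝔄 M).d n (n + 1)).hom x = 0 ↔
      ∀ v, lvlD (𝔄.lvlv v) (Rep.res (𝔄.loc v) M) n (x v) = 0 := by
  rw [locComplex_d_hom_apply]
  exact funext_iff

/-- The class of a family of local cocycles. -/
def locHMk (n : ℕ) (x : ∀ v, lvlCochains (𝔄.lvlv v) (Rep.res (𝔄.loc v) M) n)
    (hx : ∀ v, lvlD (𝔄.lvlv v) (Rep.res (𝔄.loc v) M) n (x v) = 0) :
    (locComplex 𝔄 M).homology n :=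
  hMk (locComplex 𝔄 M) n x ((locD_eq_zero_iff 𝔄 M n x).2 hx)

lemma locHomologyToPi_locHMk (n : ℕ)
    (x : ∀ v, lvlCochains (𝔄.lvlv v) (Rep.res (𝔄.loc v) M) n)
    (hx : ∀ v, lvlD (𝔄.lvlv v) (Rep.res (𝔄.loc v) M) n (x v) = 0) (v : 𝔄.ι) :
    locHomologyToPi 𝔄 M n (locHMk 𝔄 M n x hx) v =
      lvlHMk (𝔄.lvlv v) (Rep.res (𝔄.loc v) M) n (x v) (hx v) := by
  exact hapi_homologyMap_hMk (locComplex 𝔄 M) n _ (locProj 𝔄 M v) x _ _

lemma locHMk_surjective (n : ℕ) (z : (locComplex 𝔄 M).homology n) :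
    ∃ (x : ∀ v, lvlCochains (𝔄.lvlv v) (Rep.res (𝔄.loc v) M) n)
      (hx : ∀ v, lvlD (𝔄.lvlv v) (Rep.res (𝔄.loc v) M) n (x v) = 0),
      locHMk 𝔄 M n x hx = z := by
  obtain ⟨x, hx, rfl⟩ := hapi_hMk_surjective (locComplex 𝔄 M) n z
  exact ⟨x, (locD_eq_zero_iff 𝔄 M n x).1 hx, rfl⟩

lemma locHomologyToPi_surjective (n : ℕ) : Function.Surjective (locHomologyToPi 𝔄 M n) := by
  intro w
  have h : ∀ v, ∃ (x : lvlCochains (𝔄.lvlv v) (Rep.res (𝔄.loc v) M) n)
      (hx : lvlD (𝔄.lvlv v) (Rep.res (𝔄.loc v) M) n x = 0),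
      lvlHMk (𝔄.lvlv v) (Rep.res (𝔄.loc v) M) n x hx = w v :=
    fun v => lvlHMk_surjective (𝔄.lvlv v) (Rep.res (𝔄.loc v) M) n (w v)
  choose x hx hw using h
  refine ⟨locHMk 𝔄 M n x hx, ?_⟩
  funext v
  rw [locHomologyToPi_locHMk, hw]

lemma locHomologyToPi_injective (n : ℕ) : Function.Injective (locHomologyToPi 𝔄 M n) := by
  rw [← LinearMap.ker_eq_bot, LinearMap.ker_eq_bot']
  intro z hz
  obtain ⟨x, hx, rfl⟩ := locHMk_surjective 𝔄 M n z
  have hv : ∀ v, lvlHMk (𝔄.lvlv v) (Rep.res (𝔄.loc v) M) n (x v) (hx v) = 0 := fun v => by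
    rw [← locHomologyToPi_locHMk, hz]
    rfl
  cases n with
  | zero =>
    have hx0 : x = 0 := by
      funext v
      exact (lvlHMk_zero_eq_zero_iff (𝔄.lvlv v) (Rep.res (𝔄.loc v) M) (x v) (hx v)).1 (hv v)
    exact (hapi_hMk_zero_eq_zero_iff (locComplex 𝔄 M) x _).2 hx0
  | succ m =>
    have h : ∀ v, ∃ y : lvlCochains (𝔄.lvlv v) (Rep.res (𝔄.loc v) M) m,
        lvlD (𝔄.lvlv v) (Rep.res (𝔄.loc v) M) m y = x v :=
      fun v => (lvlHMk_succ_eq_zero_iff (𝔄.lvlv v) (Rep.res (𝔄.loc v) M) m (x v) (hx v)).1 (hv v)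
    choose y hy using h
    refine (hapi_hMk_succ_eq_zero_iff (locComplex 𝔄 M) m x _).2 ⟨y, ?_⟩
    rw [locComplex_d_hom_apply]
    funext v
    exact hy v

/-- **Homology commutes with the product of the local complexes.** -/
def locHomologyEquiv (n : ℕ) :
    (locComplex 𝔄 M).homology n ≃ₗ[k] ∀ v, lvlH (𝔄.lvlv v) (Rep.res (𝔄.loc v) M) n :=
  LinearEquiv.ofBijective (locHomologyToPi 𝔄 M n)
    ⟨locHomologyToPi_injective 𝔄 M n, locHomologyToPi_surjective 𝔄 M n⟩

lemma locHomologyEquiv_apply (n : ℕ) (z : (locComplex 𝔄 M).homology n) (v : 𝔄.ι) :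
    locHomologyEquiv 𝔄 M n z v = (HomologicalComplex.homologyMap (locProj 𝔄 M v) n).hom z := rfl

/-- Finiteness of the cohomology of the product of the local complexes. -/
theorem finite_locHomology (n : ℕ)
    (h : ∀ v, Module.Finite k (lvlH (𝔄.lvlv v) (Rep.res (𝔄.loc v) M) n)) :
    Module.Finite k ((locComplex 𝔄 M).homology n) :=
  Module.Finite.equiv (locHomologyEquiv 𝔄 M n).symm

end general

section field

variable {k G : Type u} [Field k] [Group G] (𝔄 : ArithDatum k G) (M : Rep.{u} k G)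

/-- **The product formula** for the dimension of the cohomology of the product of the local
complexes. -/
theorem finrank_locHomology (n : ℕ)
    (h : ∀ v, Module.Finite k (lvlH (𝔄.lvlv v) (Rep.res (𝔄.loc v) M) n)) :
    Module.finrank k ((locComplex 𝔄 M).homology n) =
      ∑ v, Module.finrank k (lvlH (𝔄.lvlv v) (Rep.res (𝔄.loc v) M) n) := by
  rw [(locHomologyEquiv 𝔄 M n).finrank_eq, Module.finrank_pi_fintype]

/-- `Hⁿ(G, M)` is finite if `Шⁿ(M)` and the local cohomology groups are. -/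
theorem finite_lvlH_of_sha (n : ℕ)
    (h : ∀ v, Module.Finite k (lvlH (𝔄.lvlv v) (Rep.res (𝔄.loc v) M) n))
    (hsha : Module.Finite k (frameSha 𝔄 M n)) : Module.Finite k (lvlH 𝔄.lvl M n) := by
  have := finite_locHomology 𝔄 M n h
  let f : (lvlComplex 𝔄.lvl M).homology n →ₗ[k] (locComplex 𝔄 M).homology n :=
    (HomologicalComplex.homologyMap (resTot 𝔄 M) n).hom
  have : Module.Finite k (LinearMap.ker f) := hsha
  have : Module.Finite k (LinearMap.range f) := inferInstance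
  have : Module.Finite k ((lvlComplex 𝔄.lvl M).homology n ⧸ LinearMap.ker f) :=
    Module.Finite.equiv f.quotKerEquivRange.symm
  exact Module.Finite.of_submodule_quotient (LinearMap.ker f)

end field

/-- **[LOCFIN]** (P-CFT row 806). -/
theorem locFinite : LocFiniteStatement := by
  intro p _ G _ 𝔄 M n h
  exact ⟨finite_locHomology 𝔄 M n h, finite_lvlH_of_sha 𝔄 M n h⟩

end

end Fermat.Agent.H75.LocFin
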