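import Fermat.Agent.H75.Inf2Lvl
import Fermat.Agent.H61.CFT.UnramBaseChange

set_option autoImplicit false

namespace Fermat.Agent.H75.Inf2

open Fermat.Agent.H13.Cft Fermat.Agent.H78.CFT groupCohomology

attribute [local instance] isGalois_rat_Qb

variable (E : IntermediateField ℚ Qb)

/-- The kernel of the restriction `G_E → Gal(L/E)` is a level of `G_E`. -/
theorem ker_resEF_mem_lvl (L : IntermediateField E Qb) [FiniteDimensional E L] [Normal E L] :
    (resEF E L).ker ∈ (lvlE E).sets := by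
  classical
  let b := Module.finBasis E L
  let T : Set Qb := Set.range (fun i => ((b i : L) : Qb))
  have : Finite T := Set.finite_range _
  let F0 : IntermediateField ℚ Qb := IntermediateField.adjoin ℚ T
  have hF0 : FiniteDimensional ℚ F0 :=
    IntermediateField.finiteDimensional_adjoin (fun x _ => Algebra.IsIntegral.isIntegral x)
  refine ⟨inferInstance, ⟨?_⟩, F0, hF0, ?_⟩
  · rw [Subgroup.index_ker]
    exact Nat.card_pos.ne'
  · intro g hg
    rw [Subgroup.mem_comap, IntermediateField.mem_fixingSubgroup_iff] at hg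
    rw [MonoidHom.mem_ker, resEF_eq_one_iff]
    intro x
    have hb : ∀ i, (g : Qb ≃ₐ[ℚ] Qb) ((b i : L) : Qb) = b i := fun i =>
      hg _ (IntermediateField.subset_adjoin ℚ T ⟨i, rfl⟩)
    have hE : ∀ e : E, (g : Qb ≃ₐ[ℚ] Qb) (e : Qb) = e := fun e =>
      (IntermediateField.mem_fixingSubgroup_iff _ _).1 g.2 e e.2
    have hx : x = ∑ i, (b.repr x i) • b i := (b.sum_repr x).symm
    have hx' : (x : Qb) = ∑ i, ((b.repr x i : E) : Qb) * ((b i : L) : Qb) := by
      have := congrArg (fun y : L => (y : Qb)) hx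
      simp only [IntermediateField.coe_sum] at this
      rw [this]
      rfl
    rw [hx']
    simp only [map_sum, map_mul, hb, hE]

set_option synthInstance.maxHeartbeats 400000 in
set_option maxHeartbeats 1000000 in
/-- **(F2)** The inflation to `G_E` of a finite-level coboundary is a level coboundary. -/
theorem isLvlMulCoboundary_inflE (L : IntermediateField E Qb) [FiniteDimensional E L]
    [IsGalois E L] (c : (L ≃ₐ[E] L) × (L ≃ₐ[E] L) → Lˣ) (hc : IsMulCoboundary₂ c) :
    IsLvlMulCoboundary₂E E (inflE E L c) := by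
  obtain ⟨y, hy⟩ := hc
  refine ⟨fun g => Units.map (algebraMap L Qb : L →* Qb) (y (resEF E L g)),
    ⟨(resEF E L).ker, ker_resEF_mem_lvl E L, ?_⟩, ?_⟩
  · intro g n hn
    simp only [map_mul, MonoidHom.mem_ker.1 hn, mul_one]
  · rintro ⟨g, h⟩
    have := congrArg (Units.map (algebraMap L Qb : L →* Qb)) (hy (resEF E L g) (resEF E L h))
    simp only [map_mul, map_div] at this
    simp only [mulD₁E, inflE, map_mul]
    rw [← this]
    have a5 : Units.map (algebraMap L Qb : L →* Qb) (resEF E L g • y (resEF E L h)) =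
        actU (g : Qb ≃ₐ[ℚ] Qb) (Units.map (algebraMap L Qb : L →* Qb) (y (resEF E L h))) := by
      apply Units.ext
      show ((resEF E L g ((y (resEF E L h) : Lˣ) : L) : L) : Qb) = _
      rw [resEF_apply]
      rfl
    rw [a5]
    rw [div_mul_eq_mul_div]


section tower

variable (F L : IntermediateField E Qb)

set_option synthInstance.maxHeartbeats 400000 in
set_option maxHeartbeats 1000000 in
/-- **(F1)** Inflation to `G_E` is compatible with inflation between finite levels. -/
theorem inflE_pullCochain [Normal E F] [Normal E L]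
    (ι : (L ≃ₐ[E] L) →* (F ≃ₐ[E] F)) (hι : ∀ g : E.fixingSubgroup, ι (resEF E L g) = resEF E F g)
    (ψ : Fˣ →* Lˣ) (hψ : ∀ u : Fˣ, (((ψ u : Lˣ) : L) : Qb) = ((u : F) : Qb))
    (c : (F ≃ₐ[E] F) × (F ≃ₐ[E] F) → Fˣ) :
    inflE E L (Fermat.Agent.H61.CFT.pullCochain ι ψ c) = inflE E F c := by
  funext p
  apply Units.ext
  show (((ψ (c (ι (resEF E L p.1), ι (resEF E L p.2))) : Lˣ) : L) : Qb) =
    (((c (resEF E F p.1, resEF E F p.2)) : Fˣ) : F)
  rw [hψ, hι, hι]

set_option synthInstance.maxHeartbeats 400000 in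
set_option maxHeartbeats 1000000 in
/-- **(F3)** Inflation between finite levels is injective on `H²` (given Hilbert 90 for level
cocycles). -/
theorem isMulCoboundary_of_pullCochain (hH90 : H90LvlStatement)
    [FiniteDimensional E F] [IsGalois E F] [FiniteDimensional E L] [IsGalois E L]
    (ι : (L ≃ₐ[E] L) →* (F ≃ₐ[E] F)) (hι : ∀ g : E.fixingSubgroup, ι (resEF E L g) = resEF E F g)
    (ψ : Fˣ →* Lˣ) (hψ : ∀ u : Fˣ, (((ψ u : Lˣ) : L) : Qb) = ((u : F) : Qb))
    (c : (F ≃ₐ[E] F) × (F ≃ₐ[E] F) → Fˣ) (hc : IsMulCocycle₂ c)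
    (h : IsMulCoboundary₂ (Fermat.Agent.H61.CFT.pullCochain ι ψ c)) : IsMulCoboundary₂ c := by
  refine inf2Lvl hH90 E F c hc ?_
  rw [← inflE_pullCochain E F L ι hι ψ hψ c]
  exact isLvlMulCoboundary_inflE E L _ h

variable {F L}

/-- Restriction `Gal(L/E) → Gal(F/E)` for `F ≤ L` normal over `E` inside `ℚ̄`. -/
noncomputable def resLF [Normal E F] [Normal E L] (h : F ≤ L) :
    (L ≃ₐ[E] L) →* (F ≃ₐ[E] F) :=
  (resEF E L).liftOfRightInverse (Function.surjInv (resEF_surjective E L))
    (Function.surjInv_eq (resEF_surjective E L))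
    ⟨resEF E F, fun g hg => by
      rw [MonoidHom.mem_ker, resEF_eq_one_iff] at hg ⊢
      exact fun x => hg ⟨x, h x.2⟩⟩

lemma resLF_resEF [Normal E F] [Normal E L] (h : F ≤ L) (g : E.fixingSubgroup) :
    resLF E h (resEF E L g) = resEF E F g :=
  MonoidHom.liftOfRightInverse_comp_apply _ _ _ _ _

/-- The inclusion `Fˣ → Lˣ` for `F ≤ L`. -/
noncomputable def unitsInclLF (h : F ≤ L) : Fˣ →* Lˣ :=
  Units.map ((IntermediateField.inclusion h : F →ₐ[E] L) : F →* L)

lemma coe_unitsInclLF (h : F ≤ L) (u : Fˣ) :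
    (((unitsInclLF E h u : Lˣ) : L) : Qb) = ((u : F) : Qb) := rfl

lemma resLF_apply [Normal E F] [Normal E L] (h : F ≤ L) (σ : L ≃ₐ[E] L) (x : F) :
    ((resLF E h σ x : F) : Qb) = ((σ ⟨x, h x.2⟩ : L) : Qb) := by
  obtain ⟨g, rfl⟩ := resEF_surjective E L σ
  rw [resLF_resEF, resEF_apply, resEF_apply]

set_option synthInstance.maxHeartbeats 400000 in
lemma unitsInclLF_smul [Normal E F] [Normal E L] (h : F ≤ L) (σ : L ≃ₐ[E] L) (a : Fˣ) :
    unitsInclLF E h (resLF E h σ • a) = σ • unitsInclLF E h a := by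
  apply Units.ext
  apply Subtype.ext
  show ((resLF E h σ (a : F) : F) : Qb) = ((σ ((unitsInclLF E h a : Lˣ) : L) : L) : Qb)
  rw [resLF_apply]
  rfl

end tower

end Fermat.Agent.H75.Inf2
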