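import Fermat.Agent.H75.Coh2Transfer

namespace Fermat.Agent.H75.Coh2

open CategoryTheory groupCohomology Rep

universe u
variable {k G : Type u} [CommRing k] [Group G] (A : Rep k G) (H : Subgroup G)

/-- If the restriction of a class in `H²(G, A)` to a subgroup `H` of finite index vanishes,
then the class is killed by the index `[G : H]`. -/
theorem index_smul_eq_zero_of_res_eq_zero [H.FiniteIndex] (x : groupCohomology.H2 A)
    (hx : groupCohomology.map H.subtype (𝟙 (res H.subtype A)) 2 x = 0) : H.index • x = 0 := by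
  induction x using H2_induction_on with | @h c =>
  rw [H2π_comp_map_apply, H2π_eq_zero_iff] at hx
  obtain ⟨b, hb⟩ := hx
  let _ := H.fintypeQuotientOfFiniteIndex
  have hc := (mem_cocycles₂_iff (A := A) c).1 c.2
  classical
  obtain ⟨a, ha⟩ := exists_cobound_card_smul A.ρ H (⇑c) hc
    (fun g => if hg : g ∈ H then b ⟨g, hg⟩ else 0) (by
      intro h hh j hj
      have := congrFun hb (⟨h, hh⟩, ⟨j, hj⟩)
      simp only [dif_pos hh, dif_pos hj, dif_pos (H.mul_mem hh hj)]
      rw [coe_mapCocycles₂] at this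
      simpa using this.symm)
  rw [← map_nsmul, H2π_eq_zero_iff]
  refine ⟨a, ?_⟩
  funext ⟨g, h⟩
  rw [d₁₂_hom_apply, ha, Subgroup.index_eq_card, Nat.card_eq_fintype_card]
  rfl

/-- Restriction to a subgroup of index prime to `m` is injective on `m`-torsion classes
of `H²`. -/
theorem eq_zero_of_res_eq_zero_of_coprime [H.FiniteIndex] (m : ℕ) (hm : Nat.Coprime m H.index)
    (x : groupCohomology.H2 A) (hmx : m • x = 0)
    (hx : groupCohomology.map H.subtype (𝟙 (res H.subtype A)) 2 x = 0) : x = 0 := by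
  have h1 := index_smul_eq_zero_of_res_eq_zero A H x hx
  have h2 : ((Nat.gcd m H.index : ℕ) : ℤ) • x = 0 := by
    rw [Nat.gcd_eq_gcd_ab, add_smul, mul_comm, mul_smul, mul_comm, mul_smul, natCast_zsmul,
      natCast_zsmul, hmx, h1, smul_zero, smul_zero, add_zero]
  rw [hm.gcd_eq_one] at h2
  simpa using h2

/-- **Restriction is injective on `p`-primary torsion when `p ∤ [G : H]`.** -/
theorem eq_zero_of_res_eq_zero_of_prime_pow [H.FiniteIndex] (p n : ℕ) (hp : p.Prime)
    (hpH : ¬ p ∣ H.index) (x : groupCohomology.H2 A) (hpx : p ^ n • x = 0)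
    (hx : groupCohomology.map H.subtype (𝟙 (res H.subtype A)) 2 x = 0) : x = 0 :=
  eq_zero_of_res_eq_zero_of_coprime A H (p ^ n)
    (Nat.Coprime.pow_left n ((Nat.Prime.coprime_iff_not_dvd hp).2 hpH)) x hpx hx

/-- `H²(G, A)` is killed by the order of `G`. -/
theorem card_smul_H2_eq_zero [Finite G] (x : groupCohomology.H2 A) : Nat.card G • x = 0 := by
  have h0 : groupCohomology.map (⊥ : Subgroup G).subtype
      (𝟙 (res (⊥ : Subgroup G).subtype A)) 2 = 0 :=
    (isZero_groupCohomology_succ_of_subsingleton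
      (res (⊥ : Subgroup G).subtype A) 1).eq_of_tgt _ _
  have h := index_smul_eq_zero_of_res_eq_zero A (⊥ : Subgroup G) x (by rw [h0]; rfl)
  rwa [Subgroup.index_bot] at h

end Fermat.Agent.H75.Coh2
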