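import Fermat.Agent.H75.Inf2Tower
import Fermat.Agent.H78.CFT.LocalH2

/-!
# LOC-INFL: the inflation of a finite-level coboundary is a level coboundary
-/

set_option autoImplicit false

namespace Fermat.Agent.H75.Inf2

open Fermat.Agent.H78.CFT

/-- **[LOC-INFL]** the inflation of a finite level coboundary is a level coboundary. -/
theorem inflCoboundary : InflCoboundaryStatement :=
  fun E F _ _ c hc => isLvlMulCoboundary_inflE E F c hc

end Fermat.Agent.H75.Inf2
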