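/-
helper75 — P-CFT row 835 (H3-SYL), part 2: Sylow + transfer in degree 3.

* `eq_zero_of_sylow_subsingleton` : if `Hⁿ(Gal(F/F^P), Fˣ) = 0` for a Sylow `p`-subgroup `P`, then
  `Hⁿ(Gal(F/K), Fˣ)` has no `p`-torsion (every `n`, arbitrary fields);
* `h3TorsionAbs` : abstract currency;
* `h3Torsion : TateLocalAbsStatement → H3TorsionStatement`.
-/
import Fermat.Agent.H78.CFT.LocalInvRows
import Fermat.Agent.H44.CFT.FieldDict
import Fermat.Agent.H81.Local.BrPair
import Fermat.Agent.H75.TransferN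

set_option autoImplicit false
set_option linter.style.haveILetI false
set_option synthInstance.maxHeartbeats 400000

noncomputable section

open CategoryTheory groupCohomology Rep

namespace Fermat.Agent.H75.H3Syl

open Fermat.Agent.H24.Brauer Fermat.Agent.H44.CFT Fermat.Agent.H78.CFT

/-- A class killed by `m` and by `n` with `m`, `n` coprime vanishes. -/
theorem eq_zero_of_coprime_smul {C : Type*} [AddCommGroup C] (m n : ℕ) (h : Nat.Coprime m n)
    (x : C) (hm : m • x = 0) (hn : n • x = 0) : x = 0 := by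
  have h2 : ((Nat.gcd m n : ℕ) : ℤ) • x = 0 := by
    rw [Nat.gcd_eq_gcd_ab, add_smul, mul_comm, mul_smul, mul_comm (n : ℤ), mul_smul,
      natCast_zsmul, natCast_zsmul, hm, hn, smul_zero, smul_zero, add_zero]
  rw [h, Nat.cast_one, one_smul] at h2
  exact h2

/-- **Sylow + transfer, abstract form**: if `Hⁿ(Gal(F/F^P), Fˣ) = 0` for a Sylow `p`-subgroup
`P` of `Gal(F/K)`, then `Hⁿ(Gal(F/K), Fˣ)` has no `p`-torsion. -/
theorem eq_zero_of_sylow_subsingleton (p : ℕ) [Fact p.Prime] (K F : Type) [Field K] [Field F]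
    [Algebra K F] [FiniteDimensional K F] [IsGalois K F] (n : ℕ) (P : Sylow p (F ≃ₐ[K] F))
    (hsub : Subsingleton (groupCohomology
      (Rep.ofAlgebraAutOnUnits ↥(layerBase (P : Subgroup (F ≃ₐ[K] F)).subtype) F) n))
    (x : groupCohomology (Rep.ofAlgebraAutOnUnits K F) n) (hpx : p • x = 0) : x = 0 := by
  classical
  have hp : p.Prime := Fact.out
  haveI : Finite (F ≃ₐ[K] F) := inferInstance
  let ι : ↥(P : Subgroup (F ≃ₐ[K] F)) →* (F ≃ₐ[K] F) := (P : Subgroup (F ≃ₐ[K] F)).subtype
  have hι : Function.Injective ι := Subtype.val_injective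
  have hsub' : Subsingleton (groupCohomology (res ι (Rep.ofAlgebraAutOnUnits K F)) n) := by
    rw [res_eq_res_layerEquiv ι hι]
    let i := mapIso (A := Rep.ofAlgebraAutOnUnits (layerBase ι) F)
      (B := res (layerEquiv ι hι).toMonoidHom (Rep.ofAlgebraAutOnUnits (layerBase ι) F))
      (layerEquiv ι hι) (LinearEquiv.refl ℤ _) (fun g => rfl) n
    exact i.toLinearEquiv.toEquiv.subsingleton
  have hres : (groupCohomology.map ι (𝟙 (res ι (Rep.ofAlgebraAutOnUnits K F))) n).hom x = 0 :=
    Subsingleton.elim _ _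
  have hidx : ¬ p ∣ (P : Subgroup (F ≃ₐ[K] F)).index := P.not_dvd_index
  have h1 := Fermat.Agent.H75.TransferN.index_smul_eq_zero_of_res_eq_zero
    (Rep.ofAlgebraAutOnUnits K F) (P : Subgroup (F ≃ₐ[K] F)) n x hres
  exact eq_zero_of_coprime_smul p _ ((Nat.Prime.coprime_iff_not_dvd hp).2 hidx) x hpx h1

/-- **[H3-SYL]**, abstract currency: the `p`-torsion of `H³(Gal(F/K), Fˣ)` vanishes for every
finite Galois extension of local fields. -/
theorem h3TorsionAbs (hT : TateLocalAbsStatement) (h2 : LocalPairTowerStatement)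
    (p q : ℕ) [Fact p.Prime] [Fact q.Prime] (K F : Type) [Field K] [Field F] [Algebra K F]
    [FiniteDimensional K F] [IsGalois K F] (j : F →+* Qb) (hj : IsLocalPair q K F j)
    (x : groupCohomology (Rep.ofAlgebraAutOnUnits K F) 3) (hpx : p • x = 0) : x = 0 := by
  classical
  let P : Sylow p (F ≃ₐ[K] F) := default
  let ι : ↥(P : Subgroup (F ≃ₐ[K] F)) →* (F ≃ₐ[K] F) := (P : Subgroup (F ≃ₐ[K] F)).subtype
  have hι : Function.Injective ι := Subtype.val_injective
  have hpair : IsLocalPair q ↥(layerBase ι) F j := h2 q K ↥(layerBase ι) F j hj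
  have hPG : IsPGroup p (F ≃ₐ[layerBase ι] F) := (P.isPGroup').of_equiv (layerEquiv ι hι)
  exact eq_zero_of_sylow_subsingleton p K F 3 P (hT p q ↥(layerBase ι) F j hpair hPG) x hpx

/-- **[H3-SYL]** (row 835), with the tower statement as a hypothesis. -/
theorem h3Torsion_of (hT : TateLocalAbsStatement) (h2 : LocalPairTowerStatement) :
    H3TorsionStatement := by
  intro p q _ _ E hE F _ _ x hpx
  exact h3TorsionAbs hT h2 p q E F (algebraMap F Qb) (isLocalPair_of_intermediateField hE F) x hpx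

/-- **[H3-SYL]** (row 835). -/
theorem h3Torsion (hT : TateLocalAbsStatement) : H3TorsionStatement :=
  h3Torsion_of hT Fermat.Agent.H81.Local.localPairTower

end Fermat.Agent.H75.H3Syl

end
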