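import Fermat.Agent.H75.Coh2Card
import Fermat.Agent.H75.Coh2Res

/-!
# Adapters for the degree-2 group cohomology toolkit (P-CFT, LOC-3)

The statements of `Coh2InfRes` / `Coh2Res` in the explicit shapes requested by consumers
(Mathlib maps written out, hypothesis `Subsingleton (H1 _)`).
-/

namespace Fermat.Agent.H75.Coh2

open CategoryTheory groupCohomology Rep

universe u

/-- Middle exactness of inflation–restriction in degree 2, with all maps written out
(the shape of `Fermat.Agent.H44.CFT.InfRes2MiddleStatement`, universe-polymorphic). -/
theorem infRes2_middle (k G : Type u) [CommRing k] [Group G] (A : Rep k G) (S : Subgroup G)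
    [S.Normal] (hH1 : Subsingleton (groupCohomology.H1 (Rep.res S.subtype A)))
    (x : groupCohomology.H2 A)
    (hx : (groupCohomology.map S.subtype (𝟙 (Rep.res S.subtype A)) 2).hom x = 0) :
    ∃ y : groupCohomology.H2 (A.quotientToInvariants S),
      (groupCohomology.map (QuotientGroup.mk' S)
        (Rep.ofHom <| A.ρ.quotientToInvariants_lift S) 2).hom y = x :=
  exists_inf2_eq_of_res2_eq_zero A S (h1Vanishes_of_subsingleton A S hH1) x hx

/-- Injectivity of inflation in degree 2, with all maps written out. -/
theorem infRes2_injective (k G : Type u) [CommRing k] [Group G] (A : Rep k G) (S : Subgroup G)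
    [S.Normal] (hH1 : Subsingleton (groupCohomology.H1 (Rep.res S.subtype A))) :
    Function.Injective (groupCohomology.map (A := A.quotientToInvariants S) (B := A)
        (QuotientGroup.mk' S) (Rep.ofHom <| A.ρ.quotientToInvariants_lift S) 2).hom :=
  inf2_injective A S (h1Vanishes_of_subsingleton A S hH1)

/-- Restriction after inflation is zero in degree 2, with all maps written out. -/
theorem infRes2_zero (k G : Type u) [CommRing k] [Group G] (A : Rep k G) (S : Subgroup G)
    [S.Normal] (y : groupCohomology.H2 (A.quotientToInvariants S)) :
    (groupCohomology.map S.subtype (𝟙 (Rep.res S.subtype A)) 2).hom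
      ((groupCohomology.map (QuotientGroup.mk' S)
        (Rep.ofHom <| A.ρ.quotientToInvariants_lift S) 2).hom y) = 0 :=
  res2_inf2 A S y

/-- The order bound from inflation–restriction, hypothesis in `Subsingleton` form. -/
theorem infRes2_card_dvd (k G : Type u) [CommRing k] [Group G] (A : Rep k G) (S : Subgroup G)
    [S.Normal] (hH1 : Subsingleton (groupCohomology.H1 (Rep.res S.subtype A)))
    [Finite (groupCohomology.H2 (A.quotientToInvariants S))]
    [Finite (groupCohomology.H2 (Rep.res S.subtype A))] :
    Finite (groupCohomology.H2 A) ∧
      Nat.card (groupCohomology.H2 A) ∣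
        Nat.card (groupCohomology.H2 (A.quotientToInvariants S)) *
          Nat.card (groupCohomology.H2 (Rep.res S.subtype A)) :=
  finite_H2_and_card_dvd A S (h1Vanishes_of_subsingleton A S hH1)

/-- The statement requested by LOC-4, verbatim (universe `0`). -/
theorem infRes2Middle_type0 :
    ∀ (k G : Type) [CommRing k] [Group G] (A : Rep k G) (S : Subgroup G) [S.Normal],
      Subsingleton (groupCohomology.H1 (Rep.res S.subtype A)) →
      ∀ x : groupCohomology.H2 A,
        (groupCohomology.map S.subtype (𝟙 (Rep.res S.subtype A)) 2).hom x = 0 →
        ∃ y : groupCohomology.H2 (A.quotientToInvariants S),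
          (groupCohomology.map (QuotientGroup.mk' S)
            (Rep.ofHom <| A.ρ.quotientToInvariants_lift S) 2).hom y = x :=
  fun k G _ _ A S _ hH1 x hx => infRes2_middle k G A S hH1 x hx

end Fermat.Agent.H75.Coh2
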