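import Fermat.Agent.H78.CFT.LocalRows

set_option autoImplicit false

namespace Fermat.Agent.H75.Inf2

open Fermat.Agent.H13.Cft Fermat.Agent.H78.CFT groupCohomology

theorem isGalois_rat_Qb : IsGalois ℚ Qb := Fermat.Agent.H81.isGalois_rat_Qbar

attribute [local instance] isGalois_rat_Qb

variable (E : IntermediateField ℚ Qb) (F : IntermediateField E Qb)

/-- Restriction to `F` is compatible with the inclusion `F ⊆ ℚ̄`. -/
lemma resEF_apply [Normal E F] (g : E.fixingSubgroup) (x : F) :
    ((resEF E F g x : F) : Qb) = (g : Qb ≃ₐ[ℚ] Qb) (x : Qb) := by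
  simp only [resEF, MonoidHom.coe_comp, Function.comp_apply]
  rw [AlgEquiv.restrictNormalHom_apply]
  rfl

lemma resEF_surjective [Normal E F] : Function.Surjective (resEF E F) := by
  have h1 : Function.Surjective (AlgEquiv.restrictNormalHom (F := E) (K₁ := Qb) F) :=
    AlgEquiv.restrictNormalHom_surjective Qb
  exact h1.comp (IntermediateField.fixingSubgroupEquiv E).surjective

lemma resEF_eq_one_iff [Normal E F] (g : E.fixingSubgroup) :
    resEF E F g = 1 ↔ ∀ x : F, (g : Qb ≃ₐ[ℚ] Qb) (x : Qb) = x := by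
  constructor
  · intro h x
    rw [← resEF_apply, h]
    rfl
  · intro h
    ext x
    rw [resEF_apply, h]
    rfl

lemma resEF_eq_iff [Normal E F] (g h : E.fixingSubgroup) :
    resEF E F g = resEF E F h ↔ ∀ x : F, (g : Qb ≃ₐ[ℚ] Qb) (x : Qb) = (h : Qb ≃ₐ[ℚ] Qb) x := by
  constructor
  · intro hgh x
    rw [← resEF_apply, hgh, resEF_apply]
  · intro hx
    ext x
    rw [resEF_apply, hx, resEF_apply]

/-- An element of `ℚ̄` fixed by `Gal(ℚ̄/F)` lies in `F`. -/
lemma mem_of_fixed (y : Qb)
    (h : ∀ g : E.fixingSubgroup, (∀ x : F, (g : Qb ≃ₐ[ℚ] Qb) (x : Qb) = x) →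
      (g : Qb ≃ₐ[ℚ] Qb) y = y) : y ∈ F := by
  rw [← InfiniteGalois.fixedField_fixingSubgroup F]
  rw [IntermediateField.mem_fixedField_iff]
  intro σ hσ
  have := h ((IntermediateField.fixingSubgroupEquiv E).symm σ) (by
    intro x
    have := (IntermediateField.mem_fixingSubgroup_iff F σ).1 hσ x x.2
    exact this)
  exact this

end Fermat.Agent.H75.Inf2
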