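import Mathlib

namespace Fermat.Agent.H75.Coh2

section core

variable {k : Type*} {G : Type*} {V : Type*} [CommRing k] [Group G] [AddCommGroup V] [Module k V]
  (ρ : Representation k G V)

lemma cocycle_one_left (c : G × G → V)
    (hc : ∀ g h j : G, c (g * h, j) + c (g, h) = ρ g (c (h, j)) + c (g, h * j)) (g : G) :
    c (1, g) = c (1, 1) := by
  have := hc 1 1 g
  simp only [one_mul, map_one, Module.End.one_apply] at this
  exact (add_left_cancel this).symm

lemma cocycle_one_right (c : G × G → V)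
    (hc : ∀ g h j : G, c (g * h, j) + c (g, h) = ρ g (c (h, j)) + c (g, h * j)) (g : G) :
    c (g, 1) = ρ g (c (1, 1)) := by
  have := hc g 1 1
  simp only [mul_one] at this
  exact add_right_cancel this

/-- Cochain-level core of the injectivity of inflation in degree 2: an inflated 2-cocycle
which is a coboundary on `G` is the coboundary of an inflated 1-cochain,
provided `H¹(S, V) = 0`. -/
theorem inf_core_inj (S : Subgroup G) [S.Normal]
    (hH1 : ∀ f : S → V, (∀ s t : S, f (s * t) = ρ s (f t) + f s) →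
      ∃ z : V, ∀ s : S, f s = ρ s z - z)
    (c : G × G → V)
    (hc : ∀ g h j : G, c (g * h, j) + c (g, h) = ρ g (c (h, j)) + c (g, h * j))
    (hc1 : ∀ g h, ∀ s ∈ S, c (g * s, h) = c (g, h))
    (hc2 : ∀ g h, ∀ s ∈ S, c (g, h * s) = c (g, h))
    (hc3 : ∀ g h, ∀ s ∈ S, ρ s (c (g, h)) = c (g, h))
    (a : G → V) (ha : ∀ g h, c (g, h) = ρ g (a h) - a (g * h) + a g) :
    ∃ a' : G → V, (∀ g h, c (g, h) = ρ g (a' h) - a' (g * h) + a' g) ∧
      (∀ g, ∀ s ∈ S, a' (g * s) = a' g) ∧ (∀ g, ∀ s ∈ S, ρ s (a' g) = a' g) := by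
  -- the constant `e = c (1, 1)`
  have he : ∀ s ∈ S, ρ s (c (1, 1)) = c (1, 1) := fun s hs => hc3 1 1 s hs
  have hcS : ∀ s ∈ S, ∀ t ∈ S, c (s, t) = c (1, 1) := by
    intro s hs t ht
    have h1 := hc1 1 t s hs
    have h2 := hc2 1 1 t ht
    rw [one_mul] at h1 h2
    rw [h1, h2]
  have hc_one_left := cocycle_one_left ρ c hc
  have hc_one_right := cocycle_one_right ρ c hc
  -- the restriction of `a - e` to `S` is a 1-cocycle
  obtain ⟨z, hz⟩ := hH1 (fun s => a s - c (1, 1)) (by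
    intro s t
    have h := ha s t
    rw [hcS s s.2 t t.2] at h
    simp only [Subgroup.coe_mul, map_sub, he s s.2]
    linear_combination (norm := abel) h)
  have haS : ∀ s ∈ S, a s = c (1, 1) + (ρ s z - z) := by
    intro s hs
    have := hz ⟨s, hs⟩
    simp only at this
    linear_combination (norm := abel) this
  have key1 : ∀ g, ∀ s ∈ S, a (g * s) - (ρ (g * s) z - z) = a g - (ρ g z - z) := by
    intro g s hs
    have h1 := ha g s
    have h2 : c (g, s) = ρ g (c (1, 1)) := by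
      have := hc2 g 1 s hs
      rw [one_mul] at this
      rw [this, hc_one_right]
    rw [h2, haS s hs] at h1
    simp only [map_add, map_sub, map_mul, Module.End.mul_apply] at h1 ⊢
    linear_combination (norm := abel) h1
  refine ⟨fun g => a g - (ρ g z - z), ?_, key1, ?_⟩
  · intro g h
    rw [ha g h]
    simp only [map_sub, map_mul, Module.End.mul_apply]
    abel
  · intro g s hs
    have h1 := ha s g
    have h2 : c (s, g) = c (1, 1) := by
      have := hc1 1 g s hs
      rw [one_mul] at this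
      rw [this, hc_one_left]
    have h3 : s * g = g * (g⁻¹ * s * g) := by group
    have h4 := key1 g (g⁻¹ * s * g) (Subgroup.Normal.conj_mem' ‹_› s hs g)
    rw [← h3] at h4
    rw [h2, haS s hs] at h1
    simp only [map_add, map_sub, map_mul, Module.End.mul_apply] at h1 h4 ⊢
    linear_combination (norm := abel) h4 - h1

end core

end Fermat.Agent.H75.Coh2


namespace Fermat.Agent.H75.Coh2

section core

variable {k : Type*} {G : Type*} {V : Type*} [CommRing k] [Group G] [AddCommGroup V] [Module k V]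
  (ρ : Representation k G V)

/-- A 2-cocycle vanishing on `S × G` and `G × S` is inflated from `G ⧸ S`. -/
theorem inflated_of_vanishing (S : Subgroup G) [S.Normal] (c : G × G → V)
    (hc : ∀ g h j : G, c (g * h, j) + c (g, h) = ρ g (c (h, j)) + c (g, h * j))
    (h1 : ∀ g, ∀ s ∈ S, c (s, g) = 0) (h2 : ∀ g, ∀ s ∈ S, c (g, s) = 0) :
    (∀ g h, ∀ s ∈ S, c (g * s, h) = c (g, h)) ∧ (∀ g h, ∀ s ∈ S, c (g, h * s) = c (g, h)) ∧
      (∀ g h, ∀ s ∈ S, ρ s (c (g, h)) = c (g, h)) := by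
  have A2 : ∀ g h, ∀ s ∈ S, c (g, h * s) = c (g, h) := by
    intro g h s hs
    have := hc g h s
    rw [h2 (g * h) s hs, h2 h s hs, map_zero, zero_add, zero_add] at this
    exact this.symm
  have A1 : ∀ g h, ∀ s ∈ S, c (g * s, h) = c (g, h) := by
    intro g h s hs
    have := hc g s h
    rw [h2 g s hs, h1 h s hs, map_zero, zero_add, add_zero] at this
    rw [this]
    have e : s * h = h * (h⁻¹ * s * h) := by group
    rw [e, A2 g h _ (Subgroup.Normal.conj_mem' ‹_› s hs h)]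
  refine ⟨A1, A2, ?_⟩
  intro g h s hs
  have := hc s g h
  rw [h1 g s hs, h1 (g * h) s hs, add_zero, add_zero] at this
  rw [← this]
  have e : s * g = g * (g⁻¹ * s * g) := by group
  rw [e, A1 g h _ (Subgroup.Normal.conj_mem' ‹_› s hs g)]

/-- The conjugation 1-cocycle attached to a 2-cocycle vanishing on `S × S`. -/
lemma twisted_cocycle (S : Subgroup G) [S.Normal] (c : G × G → V)
    (hc : ∀ g h j : G, c (g * h, j) + c (g, h) = ρ g (c (h, j)) + c (g, h * j))
    (hcS : ∀ s ∈ S, ∀ t ∈ S, c (s, t) = 0) (g : G) (m m' : G) (hm : m ∈ S) (hm' : m' ∈ S) :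
    c (g, g⁻¹ * (m * m') * g) - c (m * m', g) =
      ρ m (c (g, g⁻¹ * m' * g) - c (m', g)) + (c (g, g⁻¹ * m * g) - c (m, g)) := by
  have hn : g⁻¹ * m * g ∈ S := Subgroup.Normal.conj_mem' ‹_› m hm g
  have hn' : g⁻¹ * m' * g ∈ S := Subgroup.Normal.conj_mem' ‹_› m' hm' g
  have c1 := hc g (g⁻¹ * m * g) (g⁻¹ * m' * g)
  have c2 := hc m g (g⁻¹ * m' * g)
  have c3 := hc m m' g
  rw [hcS _ hn _ hn', map_zero, zero_add] at c1
  rw [hcS _ hm _ hm', add_zero] at c3
  have e1 : g * (g⁻¹ * m * g) = m * g := by group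
  have e2 : g⁻¹ * m * g * (g⁻¹ * m' * g) = g⁻¹ * (m * m') * g := by group
  have e3 : g * (g⁻¹ * m' * g) = m' * g := by group
  rw [e1, e2] at c1
  rw [e3] at c2
  simp only [map_sub]
  linear_combination (norm := abel) -c1 + c2 - c3

end core

end Fermat.Agent.H75.Coh2

namespace Fermat.Agent.H75.Coh2

section core2

variable {k : Type*} {G : Type*} {V : Type*} [CommRing k] [Group G] [AddCommGroup V] [Module k V]
  (ρ : Representation k G V)

lemma step_i (S : Subgroup G) (c : G × G → V)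
    (hc : ∀ g h j : G, c (g * h, j) + c (g, h) = ρ g (c (h, j)) + c (g, h * j))
    (hcS : ∀ s ∈ S, ∀ t ∈ S, c (s, t) = 0) (r : G) (x : V) (j n : G) (hj : j ∈ S) (hn : n ∈ S) :
    x + c (r, j * n) = (x + c (r, j)) + c (r * j, n) := by
  have := hc r j n
  rw [hcS j hj n hn, map_zero, zero_add] at this
  rw [← this]; abel

lemma step_ii (S : Subgroup G) [S.Normal] (c : G × G → V)
    (hc : ∀ g h j : G, c (g * h, j) + c (g, h) = ρ g (c (h, j)) + c (g, h * j))
    (hcS : ∀ s ∈ S, ∀ t ∈ S, c (s, t) = 0) (r : G) (x : V)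
    (hx : ∀ m ∈ S, ρ m x - x = c (r, r⁻¹ * m * r) - c (m, r))
    (j m : G) (hj : j ∈ S) (hm : m ∈ S) :
    ρ m (x + c (r, j)) - (x + c (r, j)) =
      c (r * j, (r * j)⁻¹ * m * (r * j)) - c (m, r * j) := by
  have hn : r⁻¹ * m * r ∈ S := Subgroup.Normal.conj_mem' ‹_› m hm r
  have hn' : j⁻¹ * (r⁻¹ * m * r) * j ∈ S := Subgroup.Normal.conj_mem' ‹_› _ hn j
  have c1 := hc m r j
  have c2 := hc r (r⁻¹ * m * r) j
  have c3 := hc r j (j⁻¹ * (r⁻¹ * m * r) * j)
  rw [hcS _ hn _ hj, map_zero, zero_add] at c2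
  rw [hcS _ hj _ hn', map_zero, zero_add] at c3
  have e1 : r * (r⁻¹ * m * r) = m * r := by group
  have e2 : j * (j⁻¹ * (r⁻¹ * m * r) * j) = r⁻¹ * m * r * j := by group
  have e3 : (r * j)⁻¹ * m * (r * j) = j⁻¹ * (r⁻¹ * m * r) * j := by group
  rw [e1] at c2
  rw [e2] at c3
  rw [e3]
  have hx' := hx m hm
  simp only [map_add]
  linear_combination (norm := abel) hx' - c1 + c2 - c3

lemma cocycle_add_cobound (c : G × G → V)
    (hc : ∀ g h j : G, c (g * h, j) + c (g, h) = ρ g (c (h, j)) + c (g, h * j)) (a : G → V)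
    (g h j : G) :
    (c (g * h, j) + (ρ (g * h) (a j) - a (g * h * j) + a (g * h))) +
      (c (g, h) + (ρ g (a h) - a (g * h) + a g)) =
    ρ g (c (h, j) + (ρ h (a j) - a (h * j) + a h)) +
      (c (g, h * j) + (ρ g (a (h * j)) - a (g * (h * j)) + a g)) := by
  have := hc g h j
  simp only [map_add, map_sub, map_mul, Module.End.mul_apply, mul_assoc]
  linear_combination (norm := abel) this

/-- Cochain-level core of exactness of inflation-restriction in degree 2: a 2-cocycle whose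
restriction to the normal subgroup `S` is a coboundary is cohomologous to an inflated cocycle,
provided `H¹(S, V) = 0`. -/
theorem inf_core_exact (S : Subgroup G) [S.Normal]
    (hH1 : ∀ f : S → V, (∀ s t : S, f (s * t) = ρ s (f t) + f s) →
      ∃ z : V, ∀ s : S, f s = ρ s z - z)
    (c : G × G → V)
    (hc : ∀ g h j : G, c (g * h, j) + c (g, h) = ρ g (c (h, j)) + c (g, h * j))
    (b : G → V) (hb : ∀ s ∈ S, ∀ t ∈ S, c (s, t) = ρ s (b t) - b (s * t) + b s) :
    ∃ (a : G → V) (c' : G × G → V),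
      (∀ g h, c' (g, h) = c (g, h) + (ρ g (a h) - a (g * h) + a g)) ∧
      (∀ g h j : G, c' (g * h, j) + c' (g, h) = ρ g (c' (h, j)) + c' (g, h * j)) ∧
      (∀ g h, ∀ s ∈ S, c' (g * s, h) = c' (g, h)) ∧
      (∀ g h, ∀ s ∈ S, c' (g, h * s) = c' (g, h)) ∧
      (∀ g h, ∀ s ∈ S, ρ s (c' (g, h)) = c' (g, h)) := by
  classical
  -- Step 1: make the restriction to `S` vanish
  let c₁ : G × G → V := fun p => c p + (ρ p.1 ((-b) p.2) - (-b) (p.1 * p.2) + (-b) p.1)
  have hc₁ : ∀ g h j : G, c₁ (g * h, j) + c₁ (g, h) = ρ g (c₁ (h, j)) + c₁ (g, h * j) :=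
    fun g h j => cocycle_add_cobound ρ c hc (-b) g h j
  have hc₁S : ∀ s ∈ S, ∀ t ∈ S, c₁ (s, t) = 0 := by
    intro s hs t ht
    simp only [c₁, hb s hs t ht, Pi.neg_apply, map_neg]
    abel
  -- Step 2: choose the correcting elements
  have hex : ∀ g : G, ∃ x : V, ∀ m ∈ S, ρ m x - x = c₁ (g, g⁻¹ * m * g) - c₁ (m, g) := by
    intro g
    obtain ⟨z, hz⟩ := hH1 (fun m => c₁ (g, g⁻¹ * m * g) - c₁ (m, g))
      (fun s t => twisted_cocycle ρ S c₁ hc₁ hc₁S g s t s.2 t.2)
    exact ⟨z, fun m hm => (hz ⟨m, hm⟩).symm⟩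
  choose a₀ ha₀ using hex
  -- Step 3: coset representatives
  let r : G → G := fun g => Quotient.out (QuotientGroup.mk g : G ⧸ S)
  have hr1 : ∀ g, (r g)⁻¹ * g ∈ S := by
    intro g
    have h := QuotientGroup.out_eq' (QuotientGroup.mk g : G ⧸ S)
    rwa [QuotientGroup.eq] at h
  have hr2 : ∀ g, ∀ s ∈ S, r (g * s) = r g := by
    intro g s hs
    have : (QuotientGroup.mk (g * s) : G ⧸ S) = QuotientGroup.mk g := by
      rw [QuotientGroup.eq]; simpa using S.inv_mem hs
    simp only [r, this]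
  have hr3 : ∀ g, r g * ((r g)⁻¹ * g) = g := fun g => by group
  let a₁ : G → V := fun g => a₀ (r g) + c₁ (r g, (r g)⁻¹ * g)
  have hi : ∀ g, ∀ n ∈ S, a₁ (g * n) = a₁ g + c₁ (g, n) := by
    intro g n hn
    have := step_i ρ S c₁ hc₁ hc₁S (r g) (a₀ (r g)) ((r g)⁻¹ * g) n (hr1 g) hn
    rw [hr3] at this
    simp only [a₁, hr2 g n hn, ← mul_assoc]
    rw [mul_assoc] at this
    rw [← mul_assoc] at this
    exact this
  have hii : ∀ g, ∀ m ∈ S, ρ m (a₁ g) - a₁ g = c₁ (g, g⁻¹ * m * g) - c₁ (m, g) := by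
    intro g m hm
    have := step_ii ρ S c₁ hc₁ hc₁S (r g) (a₀ (r g)) (ha₀ (r g)) ((r g)⁻¹ * g) m (hr1 g) hm
    rw [hr3] at this
    exact this
  have hκ : ∀ m ∈ S, ρ m (a₁ 1) = a₁ 1 := by
    intro m hm
    have := hii 1 m hm
    rw [hc₁S 1 S.one_mem _ (by simpa using hm), hc₁S m hm 1 S.one_mem, sub_zero,
      sub_eq_zero] at this
    exact this
  -- Step 4: the corrected cocycle
  let a : G → V := fun g => a₁ g - a₁ 1
  have haS : ∀ s ∈ S, a s = 0 := by
    intro s hs
    have := hi 1 s hs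
    rw [one_mul, hc₁S 1 S.one_mem s hs, add_zero] at this
    simp only [a, this, sub_self]
  let c' : G × G → V := fun p => c₁ p + (ρ p.1 (a p.2) - a (p.1 * p.2) + a p.1)
  have hc' : ∀ g h j : G, c' (g * h, j) + c' (g, h) = ρ g (c' (h, j)) + c' (g, h * j) :=
    fun g h j => cocycle_add_cobound ρ c₁ hc₁ a g h j
  have hv2 : ∀ g, ∀ s ∈ S, c' (g, s) = 0 := by
    intro g s hs
    simp only [c', haS s hs, map_zero, a, hi g s hs]
    abel
  have hv1 : ∀ g, ∀ s ∈ S, c' (s, g) = 0 := by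
    intro g s hs
    have e : s * g = g * (g⁻¹ * s * g) := by group
    have h1 := hi g (g⁻¹ * s * g) (Subgroup.Normal.conj_mem' ‹_› s hs g)
    rw [← e] at h1
    have h2 := hii g s hs
    simp only [c', haS s hs, a, h1, map_sub, hκ s hs]
    linear_combination (norm := abel) h2
  obtain ⟨i1, i2, i3⟩ := inflated_of_vanishing ρ S c' hc' hv1 hv2
  refine ⟨fun g => a g - b g, c', ?_, hc', i1, i2, i3⟩
  intro g h
  simp only [c', c₁, Pi.neg_apply, map_neg, map_sub]
  abel

end core2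

end Fermat.Agent.H75.Coh2
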