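import Fermat.Agent.H13.S14Final
import Fermat.Agent.H53.S14T.Interfaces

/-!
# P-S14, block T, final assembly (T-F)

`KummerDatumStatement` from the Galois-Kummer statement (T-G3), the fixed-field statement (T-G4),
the lifting statement (T-G5) and the singularity statement (T-S).
-/

set_option autoImplicit false

open scoped NumberField nonZeroDivisors

namespace Fermat.Agent.H75

open Fermat.Agent.H13 Fermat.Agent.H53

/-- **T-F**: final assembly of block T of P-S14. -/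
theorem kummerDatum_of_parts (hG : GaloisKummerStatement) (hG4 : FixedFieldStatement)
    (hG5 : LiftAutStatement) (hS : SingularStatement) :
    Fermat.Agent.H13.KummerDatumStatement := by
  intro p _ h3 V _ _ _ _ C hadm hns K _ _ _ ι ζ hζ
  have hp : p.Prime := Fact.out
  have : NeZero p := ⟨hp.ne_zero⟩
  -- `ι ζ` is a primitive root of unity in `ℚ̄`
  have hιζ : IsPrimitiveRoot (ι ζ) p := hζ.map_of_injective ι.injective
  obtain ⟨A₀, hA₀, hK2, hK3, hK4, hK5, hK6⟩ := hG p h3 V C hadm hns (ι ζ) hιζ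
  -- the Kummer element `α`
  obtain ⟨α, hα⟩ := hG4 p K ι ζ hζ (A₀ ^ p) hK2
  have hα0 : α ≠ 0 := by
    rintro rfl
    rw [map_zero] at hα
    exact hA₀ (pow_eq_zero_iff hp.ne_zero |>.mp hα.symm)
  refine ⟨α, A₀, hα0, hα.symm, ?_, ?_, ?_, hK6⟩
  · -- `α` is not a `p`-th power in `K`
    rintro ⟨β, hβ⟩
    have hβ0 : β ≠ 0 := by
      rintro rfl
      rw [zero_pow hp.ne_zero] at hβ
      exact hα0 hβ.symm
    have hιβ : ι β ≠ 0 := by
      rw [Ne, map_eq_zero]; exact hβ0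
    have hpow : (A₀ / ι β) ^ p = 1 := by
      rw [div_pow, ← hα, ← hβ, map_pow, div_self (pow_ne_zero _ hιβ)]
    obtain ⟨j, -, hj⟩ := hιζ.eq_pow_of_pow_eq_one hpow
    have hA₀' : A₀ = ι (ζ ^ j * β) := by
      rw [map_mul, map_pow, hj, div_mul_cancel₀ _ hιβ]
    obtain ⟨τ, hτζ, hτ⟩ := hK3
    apply hτ
    rw [hA₀', fixes_range_of_fixes_zeta p K ι ζ hζ τ hτζ]
  · -- singular
    exact hS p h3 K ι ζ hζ α A₀ hα0 hα.symm hK5 hK6
  · -- `ω²`-eigenspace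
    intro σ k hσ
    obtain ⟨σ', hσ'⟩ := hG5 K ι σ
    have hσ'ζ : σ' (ι ζ) = ι ζ ^ k := by
      rw [hσ', hσ, map_pow]
    obtain ⟨κ, hκ⟩ := hG4 p K ι ζ hζ (σ' A₀ / A₀ ^ (k ^ 2)) (hK4 σ' k hσ'ζ)
    refine ⟨κ, ι.injective ?_⟩
    have hA₀k : A₀ ^ (k ^ 2) ≠ 0 := pow_ne_zero _ hA₀
    have h1 : σ' A₀ = ι κ * A₀ ^ (k ^ 2) := by
      rw [hκ, div_mul_cancel₀ _ hA₀k]
    calc ι (σ α) = σ' (ι α) := (hσ' α).symm
      _ = (σ' A₀) ^ p := by rw [hα, map_pow]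
      _ = (ι κ * A₀ ^ (k ^ 2)) ^ p := by rw [h1]
      _ = (A₀ ^ p) ^ (k ^ 2) * ι κ ^ p := by ring
      _ = ι (α ^ (k ^ 2) * κ ^ p) := by rw [← hα, map_mul, map_pow, map_pow]

end Fermat.Agent.H75
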