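import Mathlib

set_option autoImplicit false

open UpperHalfPlane ModularForm CongruenceSubgroup SlashInvariantForm
open scoped MatrixGroups ModularForm Manifold

namespace Fermat.Agent.H75

/-- A holomorphic function on `ℍ`, invariant under the weight-`w` slash action of `SL(2, ℤ)` and
bounded at `i∞`, is (the underlying function of) a level-one modular form. -/
theorem exists_levelOne_of_invariant (w : ℤ) (φ : ℍ → ℂ)
    (hinv : ∀ γ : SL(2, ℤ), φ ∣[w] γ = φ) (hdiff : MDiff φ) (hbdd : IsBoundedAtImInfty φ) :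
    ∃ g : ModularForm 𝒮ℒ w, ⇑g = φ := by
  refine ⟨{ toFun := φ
            slash_action_eq' := ?_
            holo' := hdiff
            bdd_at_cusps' := ?_ }, rfl⟩
  · rintro _ ⟨γ, rfl⟩
    exact hinv γ
  · intro c hc
    rw [OnePoint.isBoundedAt_iff_forall_SL2Z hc]
    intro γ _
    show IsBoundedAtImInfty (φ ∣[w] γ)
    rw [hinv γ]
    exact hbdd

section finsetAlgebra

open Finset

variable {ι : Type*} [Fintype ι] [DecidableEq ι]

/-- Reindexing of the elementary-symmetric-type sums under a permutation, with scaling. -/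
theorem esum_perm (π : Equiv.Perm ι) (a : ι → ℂ) (c : ℂ) (q : ι) (n : ℕ) :
    ∑ S ∈ powersetCard n (univ.erase q), ∏ l ∈ S, (-(c * a (π l))) =
      c ^ n * ∑ S ∈ powersetCard n (univ.erase (π q)), ∏ l ∈ S, (-(a l)) := by
  have hmap : (univ.erase q).map π.toEmbedding = univ.erase (π q) := by
    ext x
    simp only [mem_map, mem_erase, mem_univ, and_true, Equiv.coe_toEmbedding]
    constructor
    · rintro ⟨y, hy, rfl⟩
      exact fun h => hy (π.injective h)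
    · intro hx
      exact ⟨π.symm x, fun h => hx (by rw [← h]; simp), by simp⟩
  rw [← hmap, powersetCard_map, sum_map, mul_sum]
  refine sum_congr rfl fun S hS => ?_
  rw [mem_powersetCard] at hS
  simp only [RelEmbedding.coe_toEmbedding, mapEmbedding_apply, prod_map, Equiv.coe_toEmbedding]
  have : ∀ l ∈ S, (-(c * a (π l))) = c * (-(a (π l))) := fun l _ => by ring
  rw [prod_congr rfl this, prod_mul_distrib, prod_const, hS.2]

omit [Fintype ι] in
/-- Expansion of `∏ (x - a l)` by powers of `x`. -/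
theorem prod_sub_expand (A : Finset ι) (a : ι → ℂ) (x : ℂ) :
    ∏ l ∈ A, (x - a l) =
      ∑ m ∈ range (A.card + 1), (∑ S ∈ powersetCard (A.card - m) A, ∏ l ∈ S, (-(a l))) * x ^ m := by
  have h1 : ∏ l ∈ A, (x - a l) = ∏ l ∈ A, ((-(a l)) + x) := by
    refine prod_congr rfl fun l _ => by ring
  rw [h1, prod_add, sum_powerset]
  rw [← sum_flip]
  refine sum_congr rfl fun m hm => ?_
  rw [mem_range] at hm
  rw [sum_mul]
  refine sum_congr rfl fun S hS => ?_
  rw [mem_powersetCard] at hS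
  rw [prod_const, card_sdiff_of_subset hS.1, hS.2]
  congr 2
  omega

end finsetAlgebra

section conj

variable {N : ℕ} {k : ℤ}

/-- The element of `𝒮ℒ` attached to `γ : SL(2, ℤ)`. -/
noncomputable def slElt (γ : SL(2, ℤ)) : 𝒮ℒ := ⟨Matrix.SpecialLinearGroup.mapGL ℝ γ, γ, rfl⟩

local notation "𝒬" =>
  𝒮ℒ ⧸ (Subgroup.subgroupOf ((Gamma0 N : Subgroup SL(2, ℤ)) : Subgroup (GL (Fin 2) ℝ)) 𝒮ℒ)

/-- Transformation of the conjugates under `SL(2, ℤ)`. -/
theorem quotientFunc_smul_apply (f : ModularForm (Gamma0 N) k) (q : 𝒬) (γ : SL(2, ℤ)) (z : ℍ) :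
    quotientFunc f q (γ • z) = denom γ z ^ k * quotientFunc f ((slElt γ)⁻¹ • q) z := by
  have h := congrFun (quotientFunc_smul f (slElt γ).2 q) z
  have h2 : (quotientFunc f q ∣[k] (slElt γ).1) z = (quotientFunc f q ∣[k] γ) z := rfl
  rw [h2, SL_slash_apply] at h
  have hd : denom γ z ≠ 0 := denom_ne_zero γ z
  have h3 : (⟨(slElt γ).1, (slElt γ).2⟩ : 𝒮ℒ) = slElt γ := rfl
  rw [h3] at h
  rw [← h, mul_comm, mul_assoc, ← zpow_add₀ hd]
  simp

theorem mdiff_quotientFunc (f : ModularForm (Gamma0 N) k) (q : 𝒬) : MDiff (quotientFunc f q) := by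
  induction q using Quotient.inductionOn with
  | h r => exact (ModularForm.translate f r.1⁻¹).holo'

theorem isBoundedAtImInfty_quotientFunc [NeZero N] (f : ModularForm (Gamma0 N) k) (q : 𝒬) :
    IsBoundedAtImInfty (quotientFunc f q) := by
  induction q using Quotient.inductionOn with
  | h r =>
    obtain ⟨r, γ, rfl⟩ := r
    have : quotientFunc f (⟦⟨Matrix.SpecialLinearGroup.mapGL ℝ γ, γ, rfl⟩⟧ : 𝒬)
        = (⇑f) ∣[k] γ⁻¹ := by
      rw [quotientFunc_mk]
      rw [SL_slash]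
      congr 1
      exact (map_inv (Matrix.SpecialLinearGroup.mapGL ℝ) γ).symm
    rw [this]
    exact ModularFormClass.bdd_at_infty_slash f γ⁻¹

theorem quotientFunc_one (f : ModularForm (Gamma0 N) k) :
    quotientFunc f ((1 : 𝒮ℒ) : 𝒬) = ⇑f := by
  have : ((1 : 𝒮ℒ) : 𝒬) = ⟦1⟧ := rfl
  rw [this, quotientFunc_mk]
  simp

open Finset in
/-- The interpolation coefficients. -/
noncomputable def interpCoeff [Fintype 𝒬] [DecidableEq 𝒬] (f : ModularForm (Gamma0 N) k)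
    (t : ModularForm (Gamma0 N) 4) (n : ℕ) (z : ℍ) : ℂ :=
  ∑ q : 𝒬, quotientFunc f q z *
    ∑ S ∈ powersetCard n (univ.erase q), ∏ l ∈ S, (-(quotientFunc t l z))

open Finset in
theorem interpCoeff_smul [Fintype 𝒬] [DecidableEq 𝒬] (f : ModularForm (Gamma0 N) k)
    (t : ModularForm (Gamma0 N) 4) (n : ℕ) (γ : SL(2, ℤ)) (z : ℍ) :
    interpCoeff f t n (γ • z) = denom γ z ^ k * (denom γ z ^ (4 : ℤ)) ^ n * interpCoeff f t n z := by
  unfold interpCoeff
  set π : Equiv.Perm 𝒬 := MulAction.toPerm (slElt γ)⁻¹ with hπ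
  have hπ' : ∀ q, π q = (slElt γ)⁻¹ • q := fun q => rfl
  have key : ∀ q : 𝒬, quotientFunc f q (γ • z) *
      ∑ S ∈ powersetCard n (univ.erase q), ∏ l ∈ S, (-(quotientFunc t l (γ • z)))
      = denom γ z ^ k * (denom γ z ^ (4 : ℤ)) ^ n * (quotientFunc f (π q) z *
        ∑ S ∈ powersetCard n (univ.erase (π q)), ∏ l ∈ S, (-(quotientFunc t l z))) := by
    intro q
    rw [quotientFunc_smul_apply f q γ z]
    have : ∀ S ∈ powersetCard n (univ.erase q), ∏ l ∈ S, (-(quotientFunc t l (γ • z)))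
        = ∏ l ∈ S, (-(denom γ z ^ (4 : ℤ) * (fun l => quotientFunc t l z) (π l))) := by
      intro S _
      refine prod_congr rfl fun l _ => ?_
      rw [quotientFunc_smul_apply t l γ z]
      rfl
    rw [sum_congr rfl this, esum_perm π (fun l => quotientFunc t l z) (denom γ z ^ (4 : ℤ)) q n]
    rw [← hπ' q]
    ring
  rw [Finset.sum_congr rfl (fun q _ => key q), ← Finset.mul_sum]
  congr 1
  exact Equiv.sum_comp π (fun q => quotientFunc f q z *
    ∑ S ∈ powersetCard n (univ.erase q), ∏ l ∈ S, (-(quotientFunc t l z)))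

open Finset in
theorem interpCoeff_eq_pi [Fintype 𝒬] [DecidableEq 𝒬] (f : ModularForm (Gamma0 N) k)
    (t : ModularForm (Gamma0 N) 4) (n : ℕ) :
    interpCoeff f t n = ∑ q : 𝒬, quotientFunc f q *
      ∑ S ∈ powersetCard n (univ.erase q), ∏ l ∈ S, (-(quotientFunc t l)) := by
  funext z
  simp only [interpCoeff, Finset.sum_apply, Pi.mul_apply, Finset.prod_apply, Pi.neg_apply]

open Finset in
theorem mdiff_interpCoeff [Fintype 𝒬] [DecidableEq 𝒬] (f : ModularForm (Gamma0 N) k)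
    (t : ModularForm (Gamma0 N) 4) (n : ℕ) : MDiff (interpCoeff f t n) := by
  rw [interpCoeff_eq_pi]
  refine MDifferentiable.sum fun q _ => ?_
  refine MDifferentiable.mul (mdiff_quotientFunc f q) ?_
  refine MDifferentiable.sum fun S _ => ?_
  refine MDifferentiable.prod fun l _ => ?_
  exact (mdiff_quotientFunc t l).neg

open Finset Filter in
theorem isBoundedAtImInfty_interpCoeff [NeZero N] [Fintype 𝒬] [DecidableEq 𝒬]
    (f : ModularForm (Gamma0 N) k)
    (t : ModularForm (Gamma0 N) 4) (n : ℕ) : IsBoundedAtImInfty (interpCoeff f t n) := by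
  rw [interpCoeff_eq_pi]
  have hmem : ∀ {φ : ℍ → ℂ}, IsBoundedAtImInfty φ ↔ φ ∈ boundedFilterSubalgebra ℂ atImInfty :=
    Iff.rfl
  rw [hmem]
  refine Subalgebra.sum_mem _ fun q _ => ?_
  refine Subalgebra.mul_mem _ (hmem.1 (isBoundedAtImInfty_quotientFunc f q)) ?_
  refine Subalgebra.sum_mem _ fun S _ => ?_
  refine Subalgebra.prod_mem _ fun l _ => ?_
  exact Subalgebra.neg_mem _ (hmem.1 (isBoundedAtImInfty_quotientFunc t l))

/-- The interpolation coefficient `interpCoeff f t n` is a level-one modular form of weight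
`k + 4 n`. -/
theorem exists_levelOne_interpCoeff [NeZero N] [Fintype 𝒬] [DecidableEq 𝒬]
    (f : ModularForm (Gamma0 N) k) (t : ModularForm (Gamma0 N) 4) (n : ℕ) (w : ℤ)
    (hw : w = k + 4 * (n : ℤ)) :
    ∃ g : ModularForm 𝒮ℒ w, ⇑g = interpCoeff f t n := by
  refine exists_levelOne_of_invariant w _ ?_ (mdiff_interpCoeff f t n)
    (isBoundedAtImInfty_interpCoeff f t n)
  intro γ
  funext z
  rw [SL_slash_apply, interpCoeff_smul]
  have hd : denom γ z ≠ 0 := denom_ne_zero γ z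
  have h1 : denom γ z ^ k * (denom γ z ^ (4 : ℤ)) ^ n * denom γ z ^ (-w) = 1 := by
    rw [← zpow_natCast (denom γ z ^ (4 : ℤ)) n, ← zpow_mul, ← zpow_add₀ hd, ← zpow_add₀ hd, hw]
    have : k + 4 * (n : ℤ) + -(k + 4 * (n : ℤ)) = 0 := by ring
    rw [this, zpow_zero]
  calc denom γ z ^ k * (denom γ z ^ (4 : ℤ)) ^ n * interpCoeff f t n z * denom γ z ^ (-w)
      = (denom γ z ^ k * (denom γ z ^ (4 : ℤ)) ^ n * denom γ z ^ (-w)) * interpCoeff f t n z := by
        ring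
    _ = interpCoeff f t n z := by rw [h1, one_mul]

open Finset in
/-- The interpolation identity, pointwise. -/
theorem interp_identity [Fintype 𝒬] [DecidableEq 𝒬]
    (f : ModularForm (Gamma0 N) k) (t : ModularForm (Gamma0 N) 4) (z : ℍ) :
    f z * ∏ l ∈ univ.erase (((1 : 𝒮ℒ) : 𝒬)), (t z - quotientFunc t l z) =
      ∑ m ∈ range (Fintype.card 𝒬), interpCoeff f t (Fintype.card 𝒬 - 1 - m) z * t z ^ m := by
  have hcard : ∀ q : 𝒬, (univ.erase q).card = Fintype.card 𝒬 - 1 := fun q => by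
    rw [card_erase_of_mem (mem_univ q), card_univ]
  have hpos : 0 < Fintype.card 𝒬 := Fintype.card_pos_iff.mpr ⟨((1 : 𝒮ℒ) : 𝒬)⟩
  have hexp : ∀ q : 𝒬, ∏ l ∈ univ.erase q, (t z - quotientFunc t l z) =
      ∑ m ∈ range (Fintype.card 𝒬), (∑ S ∈ powersetCard (Fintype.card 𝒬 - 1 - m) (univ.erase q),
        ∏ l ∈ S, (-(quotientFunc t l z))) * t z ^ m := by
    intro q
    rw [prod_sub_expand (univ.erase q) (fun l => quotientFunc t l z) (t z), hcard q,
      Nat.sub_add_cancel hpos]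
  have hsum : ∑ m ∈ range (Fintype.card 𝒬), interpCoeff f t (Fintype.card 𝒬 - 1 - m) z * t z ^ m
      = ∑ q : 𝒬, quotientFunc f q z * ∏ l ∈ univ.erase q, (t z - quotientFunc t l z) := by
    simp only [interpCoeff, hexp, Finset.sum_mul, Finset.mul_sum]
    rw [Finset.sum_comm]
    refine sum_congr rfl fun q _ => sum_congr rfl fun m _ => ?_
    refine sum_congr rfl fun S _ => ?_
    ring
  rw [hsum]
  rw [Finset.sum_eq_single (((1 : 𝒮ℒ) : 𝒬))]
  · rw [quotientFunc_one f]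
  · intro q _ hq
    have hmem : (((1 : 𝒮ℒ) : 𝒬)) ∈ univ.erase q := mem_erase.mpr ⟨fun h => hq h.symm, mem_univ _⟩
    rw [Finset.prod_eq_zero hmem, mul_zero]
    rw [quotientFunc_one t, sub_self]
  · intro h
    exact absurd (mem_univ _) h

open Finset in
/-- The discriminant-like factor is nonzero when `t` separates cosets. -/
theorem interp_denominator_ne_zero [Fintype 𝒬] [DecidableEq 𝒬]
    (t : ModularForm (Gamma0 N) 4)
    (ht : ∀ γ : SL(2, ℤ), (⇑t ∣[(4 : ℤ)] γ = ⇑t) → γ ∈ Gamma0 N) :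
    (fun z : ℍ => ∏ l ∈ univ.erase (((1 : 𝒮ℒ) : 𝒬)), (t z - quotientFunc t l z)) ≠ 0 := by
  have hpi : (fun z : ℍ => ∏ l ∈ univ.erase (((1 : 𝒮ℒ) : 𝒬)), (t z - quotientFunc t l z))
      = ∏ l ∈ univ.erase (((1 : 𝒮ℒ) : 𝒬)), (⇑t - quotientFunc t l) := by
    funext z
    simp only [Finset.prod_apply, Pi.sub_apply]
  rw [hpi]
  intro h0
  rw [UpperHalfPlane.prod_eq_zero_iff
    (fun l _ => (ModularFormClass.holo t).sub (mdiff_quotientFunc t l))] at h0
  obtain ⟨l, hl, hl0⟩ := h0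
  rw [mem_erase] at hl
  apply hl.1
  induction l using Quotient.inductionOn with
  | h r =>
    obtain ⟨r, γ, rfl⟩ := r
    have hq : quotientFunc t (⟦⟨Matrix.SpecialLinearGroup.mapGL ℝ γ, γ, rfl⟩⟧ : 𝒬)
        = (⇑t) ∣[(4 : ℤ)] γ⁻¹ := by
      rw [quotientFunc_mk]
      rw [SL_slash]
      congr 1
      exact (map_inv (Matrix.SpecialLinearGroup.mapGL ℝ) γ).symm
    rw [hq] at hl0
    have hγ : γ⁻¹ ∈ Gamma0 N := ht γ⁻¹ (sub_eq_zero.mp hl0).symm
    symm
    show ((1 : 𝒮ℒ) : 𝒬) = ((⟨Matrix.SpecialLinearGroup.mapGL ℝ γ, γ, rfl⟩ : 𝒮ℒ) : 𝒬)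
    rw [QuotientGroup.eq]
    rw [Subgroup.mem_subgroupOf]
    simp only [inv_one, one_mul]
    exact ⟨γ, inv_mem_iff.mp hγ, rfl⟩

end conj

section main

variable (N : ℕ) [NeZero N]

theorem exists_interpolation (t : ModularForm (Gamma0 N) 4)
    (ht : ∀ γ : SL(2, ℤ), (⇑t ∣[(4 : ℤ)] γ = ⇑t) → γ ∈ Gamma0 N) :
    ∃ (μ : ℕ) (D : ℍ → ℂ), 0 < μ ∧ D ≠ 0 ∧
      ∀ (k : ℤ) (f : ModularForm (Gamma0 N) k),
        ∃ ℓ : ℕ → ℍ → ℂ,
          (∀ m < μ, ∃ g : ModularForm 𝒮ℒ (k + 4 * ((μ : ℤ) - 1 - (m : ℤ))), ⇑g = ℓ m) ∧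
          ⇑f * D = ∑ m ∈ Finset.range μ, ℓ m * (⇑t) ^ m := by
  classical
  let : Fintype (𝒮ℒ ⧸ (Subgroup.subgroupOf
    ((Gamma0 N : Subgroup SL(2, ℤ)) : Subgroup (GL (Fin 2) ℝ)) 𝒮ℒ)) := Fintype.ofFinite _
  refine ⟨Fintype.card (𝒮ℒ ⧸ (Subgroup.subgroupOf
      ((Gamma0 N : Subgroup SL(2, ℤ)) : Subgroup (GL (Fin 2) ℝ)) 𝒮ℒ)),
    fun z : ℍ => ∏ l ∈ Finset.univ.erase (((1 : 𝒮ℒ) : 𝒮ℒ ⧸ (Subgroup.subgroupOf
      ((Gamma0 N : Subgroup SL(2, ℤ)) : Subgroup (GL (Fin 2) ℝ)) 𝒮ℒ))),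
        (t z - quotientFunc t l z),
    Fintype.card_pos_iff.mpr ⟨((1 : 𝒮ℒ) : _)⟩, interp_denominator_ne_zero t ht, ?_⟩
  intro k f
  refine ⟨fun m => interpCoeff f t (Fintype.card (𝒮ℒ ⧸ (Subgroup.subgroupOf
      ((Gamma0 N : Subgroup SL(2, ℤ)) : Subgroup (GL (Fin 2) ℝ)) 𝒮ℒ)) - 1 - m), ?_, ?_⟩
  · intro m hm
    refine exists_levelOne_interpCoeff f t _ _ ?_
    congr 2
    omega
  · funext z
    simp only [Pi.mul_apply, Finset.sum_apply, Pi.pow_apply]
    exact interp_identity f t z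

end main

end Fermat.Agent.H75
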