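import Mathlib

set_option autoImplicit false

namespace Fermat.Agent.H75

open NumberField Polynomial InfinitePlace Nat Real Ideal IsCyclotomicExtension.Rat

/-- For a prime `q` different from the prime `p`, `q ^ f ≡ 1 mod p` where `f` is the inertia
degree of any prime of `ℚ(ζ_p)` above `q`. -/
theorem pow_inertiaDeg_mod_eq_one (p : ℕ) [hp : Fact p.Prime] (K : Type) [Field K] [NumberField K]
    [IsCyclotomicExtension {p} ℚ K] (q : ℕ) [hq : Fact q.Prime] (hqp : q ≠ p)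
    (P : Ideal (𝓞 K)) [P.IsPrime] [P.LiesOver (span {(q : ℤ)})] :
    q ^ (P.inertiaDeg ℤ) % p = 1 := by
  have hndvd : ¬ q ∣ p := fun h => hqp ((Nat.prime_dvd_prime_iff_eq hq.out hp.out).1 h)
  rw [inertiaDeg_eq_of_not_dvd q K P hndvd]
  have h1 : ((q : ZMod p)) ^ orderOf (q : ZMod p) = 1 := pow_orderOf_eq_one _
  have h2 : ((q ^ orderOf (q : ZMod p) : ℕ) : ZMod p) = ((1 : ℕ) : ZMod p) := by
    push_cast
    exact h1
  rw [ZMod.natCast_eq_natCast_iff'] at h2
  rw [h2]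
  exact Nat.mod_eq_of_lt hp.out.one_lt

/-- The Minkowski bound of the `7`-th cyclotomic field is less than `5`. -/
theorem minkowski_seven_lt (K : Type) [Field K] [NumberField K] [IsCyclotomicExtension {7} ℚ K] :
    (4 / π) ^ nrComplexPlaces K *
      ((Module.finrank ℚ K)! / (Module.finrank ℚ K) ^ (Module.finrank ℚ K) * √|discr K|) < 5 := by
  have : Fact (Nat.Prime 7) := ⟨by norm_num⟩
  rw [discr_prime 7 K, IsCyclotomicExtension.finrank (n := 7) K
    (cyclotomic.irreducible_rat (by simp)), nrComplexPlaces_eq_totient_div_two 7,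
    totient_prime (by norm_num : Nat.Prime 7)]
  have h6 : (6 : ℕ)! = 720 := by decide
  simp only [h6]
  norm_num
  have hsq : √(16807 : ℝ) < 130 := by
    rw [Real.sqrt_lt' (by norm_num)]
    norm_num
  have hpi : (4 / π) < 1.2739 := by
    rw [div_lt_iff₀ Real.pi_pos]
    have := Real.pi_gt_d2
    linarith
  have hpi0 : (0 : ℝ) ≤ 4 / π := by positivity
  have h3 : (4 / π) ^ 3 < 1.2739 ^ 3 := by gcongr
  have hsq0 : (0:ℝ) ≤ √(16807 : ℝ) := Real.sqrt_nonneg _
  have hpos : (0:ℝ) < (4 / π) ^ 3 := by positivity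
  calc (4 / π) ^ 3 * (5 / 324 * √16807)
      ≤ (4 / π) ^ 3 * (5 / 324 * 130) := by gcongr
    _ < 1.2739 ^ 3 * (5 / 324 * 130) := by gcongr
    _ < 5 := by norm_num

/-- `ℤ[ζ₇]` is a principal ideal domain. -/
theorem pid_seven (K : Type) [Field K] [NumberField K] [IsCyclotomicExtension {7} ℚ K] :
    IsPrincipalIdealRing (𝓞 K) := by
  have : Fact (Nat.Prime 7) := ⟨by norm_num⟩
  have : IsGalois ℚ K := IsCyclotomicExtension.isGalois {7} ℚ K
  have hM : ⌊(4 / π) ^ nrComplexPlaces K *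
      ((Module.finrank ℚ K)! / (Module.finrank ℚ K) ^ (Module.finrank ℚ K) * √|discr K|)⌋₊ < 5 := by
    rw [Nat.floor_lt (by positivity)]
    exact_mod_cast minkowski_seven_lt K
  apply RingOfIntegers.isPrincipalIdealRing_of_isPrincipal_of_lt_or_isPrincipal_of_mem_primesOver_of_mem_Icc
  intro q hq hqprime
  rw [Finset.mem_Icc] at hq
  have : Fact q.Prime := ⟨hqprime⟩
  obtain ⟨⟨P, hP1, hP2⟩⟩ := (span {(q : ℤ)}).nonempty_primesOver (S := 𝓞 K)
  refine ⟨P, ⟨hP1, hP2⟩, Or.inl ?_⟩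
  have hq5 : q < 5 := lt_of_le_of_lt hq.2 hM
  have hq7 : q ≠ 7 := by omega
  have hmod := pow_inertiaDeg_mod_eq_one 7 K q hq7 P
  have hgt : 1 < q ^ (P.inertiaDeg ℤ) :=
    Nat.one_lt_pow (Ideal.inertiaDeg_pos P ℤ).ne' hqprime.one_lt
  omega

end Fermat.Agent.H75
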