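import Mathlib
import Fermat.Agent.H75.PIDSeven

set_option autoImplicit false

namespace Fermat.Agent.H75

open NumberField Polynomial InfinitePlace Nat Real Ideal IsCyclotomicExtension.Rat

/-- Arithmetic core of the elimination: a prime power `q ^ f ≤ 306` with `f ≥ 1` that is
`≡ 1 mod 13` has `q ∈ {3, 53, 79, 131, 157}`. -/
theorem prime_pow_mod_thirteen (q f : ℕ) (hq : q.Prime) (hf : 0 < f) (hle : q ^ f ≤ 306)
    (hmod : q ^ f % 13 = 1) : q = 3 ∨ q = 53 ∨ q = 79 ∨ q = 131 ∨ q = 157 := by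
  have hq2 : 2 ≤ q := hq.two_le
  have hf8 : f ≤ 8 := by
    by_contra hcon
    have hcon' : 9 ≤ f := by omega
    have h1 : 2 ^ 9 ≤ q ^ f :=
      calc 2 ^ 9 ≤ 2 ^ f := Nat.pow_le_pow_right (by norm_num) hcon'
        _ ≤ q ^ f := Nat.pow_le_pow_left hq2 f
    omega
  have hqle : q ≤ 306 := le_trans (Nat.le_self_pow hf.ne' q) hle
  have hcases : f = 1 ∨ f = 2 ∨ f = 3 ∨ f = 4 ∨ f = 5 ∨ f = 6 ∨ f = 7 ∨ f = 8 := by omega
  rcases hcases with rfl | rfl | rfl | rfl | rfl | rfl | rfl | rfl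
  · -- f = 1
    rw [pow_one] at hle hmod
    have hlist : q = 14 ∨ q = 27 ∨ q = 40 ∨ q = 53 ∨ q = 66 ∨ q = 79 ∨ q = 92 ∨ q = 105 ∨
        q = 118 ∨ q = 131 ∨ q = 144 ∨ q = 157 ∨ q = 170 ∨ q = 183 ∨ q = 196 ∨ q = 209 ∨
        q = 222 ∨ q = 235 ∨ q = 248 ∨ q = 261 ∨ q = 274 ∨ q = 287 ∨ q = 300 := by omega
    rcases hlist with rfl | rfl | rfl | rfl | rfl | rfl | rfl | rfl | rfl | rfl | rfl | rfl |
      rfl | rfl | rfl | rfl | rfl | rfl | rfl | rfl | rfl | rfl | rfl <;>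
      first
      | omega
      | (exfalso; revert hq; norm_num)
  · -- f = 2
    have hq17 : q ≤ 17 := by
      by_contra hcon
      have hcon' : 18 ≤ q := by omega
      have : 18 ^ 2 ≤ q ^ 2 := Nat.pow_le_pow_left hcon' 2
      omega
    interval_cases q <;> first | omega | (exfalso; revert hq; norm_num)
  · -- f = 3
    have hq6 : q ≤ 6 := by
      by_contra hcon
      have hcon' : 7 ≤ q := by omega
      have : 7 ^ 3 ≤ q ^ 3 := Nat.pow_le_pow_left hcon' 3
      omega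
    interval_cases q <;> omega
  · have hq4 : q ≤ 4 := by
      by_contra hcon
      have hcon' : 5 ≤ q := by omega
      have : 5 ^ 4 ≤ q ^ 4 := Nat.pow_le_pow_left hcon' 4
      omega
    interval_cases q <;> omega
  · have hq4 : q ≤ 3 := by
      by_contra hcon
      have hcon' : 4 ≤ q := by omega
      have : 4 ^ 5 ≤ q ^ 5 := Nat.pow_le_pow_left hcon' 5
      omega
    interval_cases q <;> omega
  · have hq4 : q ≤ 2 := by
      by_contra hcon
      have hcon' : 3 ≤ q := by omega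
      have : 3 ^ 6 ≤ q ^ 6 := Nat.pow_le_pow_left hcon' 6
      omega
    interval_cases q <;> omega
  · have hq4 : q ≤ 2 := by
      by_contra hcon
      have hcon' : 3 ≤ q := by omega
      have : 3 ^ 7 ≤ q ^ 7 := Nat.pow_le_pow_left hcon' 7
      omega
    interval_cases q <;> omega
  · have hq4 : q ≤ 2 := by
      by_contra hcon
      have hcon' : 3 ≤ q := by omega
      have : 3 ^ 8 ≤ q ^ 8 := Nat.pow_le_pow_left hcon' 8
      omega
    interval_cases q <;> omega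

/-- The Minkowski bound of the `13`-th cyclotomic field is less than `307`. -/
theorem minkowski_thirteen_lt (K : Type) [Field K] [NumberField K]
    [IsCyclotomicExtension {13} ℚ K] :
    (4 / π) ^ nrComplexPlaces K *
      ((Module.finrank ℚ K)! / (Module.finrank ℚ K) ^ (Module.finrank ℚ K) * √|discr K|) < 307 := by
  have : Fact (Nat.Prime 13) := ⟨by norm_num⟩
  rw [discr_prime 13 K, IsCyclotomicExtension.finrank (n := 13) K
    (cyclotomic.irreducible_rat (by simp)), nrComplexPlaces_eq_totient_div_two 13,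
    totient_prime (by norm_num : Nat.Prime 13)]
  have h12 : (12 : ℕ)! = 479001600 := by decide
  simp only [h12]
  norm_num
  have hsq : √(1792160394037 : ℝ) < 1338716 := by
    rw [Real.sqrt_lt' (by norm_num)]
    norm_num
  have hpi : (4 / π) < 1.2733 := by
    rw [div_lt_iff₀ Real.pi_pos]
    have := Real.pi_gt_d4
    linarith
  have hpi0 : (0 : ℝ) ≤ 4 / π := by positivity
  have h3 : (4 / π) ^ 6 < 1.2733 ^ 6 := by gcongr
  have hsq0 : (0:ℝ) ≤ √(1792160394037 : ℝ) := Real.sqrt_nonneg _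
  have hpos : (0:ℝ) < (4 / π) ^ 6 := by positivity
  calc (4 / π) ^ 6 * (1925 / 35831808 * √1792160394037)
      ≤ (4 / π) ^ 6 * (1925 / 35831808 * 1338716) := by gcongr
    _ < 1.2733 ^ 6 * (1925 / 35831808 * 1338716) := by gcongr
    _ < 307 := by norm_num

/-- Reduction: `ℤ[ζ₁₃]` is a PID as soon as there is a principal prime above each of
`3, 53, 79, 131, 157`. -/
theorem pid_thirteen_of (K : Type) [Field K] [NumberField K] [IsCyclotomicExtension {13} ℚ K]
    (h : ∀ q : ℕ, (q = 3 ∨ q = 53 ∨ q = 79 ∨ q = 131 ∨ q = 157) →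
      ∃ P ∈ primesOver (span {(q : ℤ)}) (𝓞 K), Submodule.IsPrincipal P) :
    IsPrincipalIdealRing (𝓞 K) := by
  have : Fact (Nat.Prime 13) := ⟨by norm_num⟩
  have : IsGalois ℚ K := IsCyclotomicExtension.isGalois {13} ℚ K
  have hM : ⌊(4 / π) ^ nrComplexPlaces K *
      ((Module.finrank ℚ K)! / (Module.finrank ℚ K) ^ (Module.finrank ℚ K) * √|discr K|)⌋₊
        < 307 := by
    rw [Nat.floor_lt (by positivity)]
    exact_mod_cast minkowski_thirteen_lt K
  apply RingOfIntegers.isPrincipalIdealRing_of_isPrincipal_of_lt_or_isPrincipal_of_mem_primesOver_of_mem_Icc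
  intro q hq hqprime
  rw [Finset.mem_Icc] at hq
  have : Fact q.Prime := ⟨hqprime⟩
  by_cases hq13 : q = 13
  · subst hq13
    have hζ := IsCyclotomicExtension.zeta_spec 13 ℚ K
    obtain ⟨⟨P, hP1, hP2⟩⟩ := (span {((13 : ℕ) : ℤ)}).nonempty_primesOver (S := 𝓞 K)
    refine ⟨P, ⟨hP1, hP2⟩, Or.inr ?_⟩
    rw [eq_span_zeta_sub_one_of_liesOver' 13 K hζ P]
    exact ⟨⟨hζ.toInteger - 1, rfl⟩⟩
  by_cases hsp : q = 3 ∨ q = 53 ∨ q = 79 ∨ q = 131 ∨ q = 157
  · obtain ⟨P, hP, hprinc⟩ := h q hsp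
    exact ⟨P, hP, Or.inr hprinc⟩
  · obtain ⟨⟨P, hP1, hP2⟩⟩ := (span {(q : ℤ)}).nonempty_primesOver (S := 𝓞 K)
    refine ⟨P, ⟨hP1, hP2⟩, Or.inl ?_⟩
    have hmod := pow_inertiaDeg_mod_eq_one 13 K q hq13 P
    have hpos : 0 < P.inertiaDeg ℤ := Ideal.inertiaDeg_pos P ℤ
    by_contra hcon
    have hle : q ^ P.inertiaDeg ℤ ≤ 306 := by omega
    exact hsp (prime_pow_mod_thirteen q _ hqprime hpos hle hmod)

end Fermat.Agent.H75
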