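import Mathlib

namespace Fermat.Agent.H75.Coh2

open CategoryTheory groupCohomology Rep

section retraction

variable {G : Type*} [Group G] (H : Subgroup G)

/-- A left-`H`-equivariant retraction `G → H`. -/
noncomputable def retr (g : G) : G := g * (Quotient.out (QuotientGroup.mk g⁻¹ : G ⧸ H))

lemma retr_mem (g : G) : retr H g ∈ H := by
  have h := QuotientGroup.out_eq' (QuotientGroup.mk g⁻¹ : G ⧸ H)
  rw [QuotientGroup.eq] at h
  have := H.inv_mem h
  simpa [retr, mul_inv_rev] using this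

lemma retr_mul (h : G) (hh : h ∈ H) (g : G) : retr H (h * g) = h * retr H g := by
  have : (QuotientGroup.mk (h * g)⁻¹ : G ⧸ H) = QuotientGroup.mk g⁻¹ := by
    rw [QuotientGroup.eq]
    simpa using hh
  simp only [retr, this, mul_assoc]

/-- Reindexing a sum over coset representatives. -/
lemma sum_out_mul [Fintype (G ⧸ H)] {V : Type*} [AddCommMonoid V] (T : G → V)
    (hT : ∀ g : G, ∀ h ∈ H, T (g * h) = T g) (x : G) :
    ∑ q : G ⧸ H, T (x * Quotient.out q) = ∑ q : G ⧸ H, T (Quotient.out q) := by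
  have key : ∀ q : G ⧸ H, T (x * Quotient.out q) = T (Quotient.out (x • q)) := by
    intro q
    have h1 : (QuotientGroup.mk (Quotient.out (x • q)) : G ⧸ H) =
        QuotientGroup.mk (x * Quotient.out q) := by
      rw [QuotientGroup.out_eq']
      conv_lhs => rw [← QuotientGroup.out_eq' q]
      rfl
    rw [QuotientGroup.eq] at h1
    have := hT (Quotient.out (x • q)) _ h1
    rw [← this]
    congr 1
    group
  simp only [key]
  exact Fintype.sum_equiv (MulAction.toPerm x) _ _ (fun q => rfl)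

end retraction

section core

variable {k : Type*} {G : Type*} {V : Type*} [CommRing k] [Group G] [AddCommGroup V] [Module k V]
  (ρ : Representation k G V)

/-- The homogeneous 2-cochain attached to an inhomogeneous 2-cochain. -/
def hom3 (c : G × G → V) (g0 g1 g2 : G) : V := ρ g0 (c (g0⁻¹ * g1, g1⁻¹ * g2))

/-- The homogeneous 1-cochain attached to an inhomogeneous 1-cochain. -/
def hom2 (b : G → V) (g0 g1 : G) : V := ρ g0 (b (g0⁻¹ * g1))

lemma hom3_smul (c : G × G → V) (x g0 g1 g2 : G) :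
    hom3 ρ c (x * g0) (x * g1) (x * g2) = ρ x (hom3 ρ c g0 g1 g2) := by
  simp only [hom3, mul_inv_rev, map_mul, Module.End.mul_apply]
  congr 3
  all_goals group

lemma hom2_smul (b : G → V) (x g0 g1 : G) :
    hom2 ρ b (x * g0) (x * g1) = ρ x (hom2 ρ b g0 g1) := by
  simp only [hom2, mul_inv_rev, map_mul, Module.End.mul_apply]
  congr 2; group

lemma hom3_cocycle (c : G × G → V)
    (hc : ∀ g h j : G, c (g * h, j) + c (g, h) = ρ g (c (h, j)) + c (g, h * j))
    (g0 g1 g2 g3 : G) :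
    hom3 ρ c g1 g2 g3 + hom3 ρ c g0 g1 g3 = hom3 ρ c g0 g2 g3 + hom3 ρ c g0 g1 g2 := by
  have h := congrArg (ρ g0) (hc (g0⁻¹ * g1) (g1⁻¹ * g2) (g2⁻¹ * g3))
  simp only [map_add, ← Module.End.mul_apply, ← map_mul] at h
  simp only [hom3]
  have e1 : g0⁻¹ * g1 * (g1⁻¹ * g2) = g0⁻¹ * g2 := by group
  have e2 : g1⁻¹ * g2 * (g2⁻¹ * g3) = g1⁻¹ * g3 := by group
  have e3 : g0 * (g0⁻¹ * g1) = g1 := by group
  rw [e1, e2, e3] at h
  rw [← h]

lemma hom3_one (c : G × G → V) (g h : G) : hom3 ρ c 1 g (g * h) = c (g, h) := by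
  simp [hom3]

lemma hom2_one (b : G → V) (g : G) : hom2 ρ b 1 g = b g := by
  simp [hom2]

/-- If `c` restricted to `H` is the coboundary of `b`, then the homogeneous versions satisfy
the homogeneous coboundary relation on `H`. -/
lemma hom2_cobound (H : Subgroup G) (c : G × G → V) (b : G → V)
    (hb : ∀ h ∈ H, ∀ j ∈ H, c (h, j) = ρ h (b j) - b (h * j) + b h)
    (h0 h1 h2 : G) (m0 : h0 ∈ H) (m1 : h1 ∈ H) (m2 : h2 ∈ H) :
    hom3 ρ c h0 h1 h2 = hom2 ρ b h1 h2 - hom2 ρ b h0 h2 + hom2 ρ b h0 h1 := by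
  have h := congrArg (ρ h0) (hb (h0⁻¹ * h1) (H.mul_mem (H.inv_mem m0) m1) (h1⁻¹ * h2)
    (H.mul_mem (H.inv_mem m1) m2))
  simp only [map_add, map_sub, ← Module.End.mul_apply, ← map_mul] at h
  have e1 : h0⁻¹ * h1 * (h1⁻¹ * h2) = h0⁻¹ * h2 := by group
  have e3 : h0 * (h0⁻¹ * h1) = h1 := by group
  rw [e1, e3] at h
  simpa only [hom3, hom2] using h

/-- **Transfer argument on cochains**: if the restriction of a 2-cocycle `c` to a subgroup `H`
of finite index is a coboundary, then `[G : H] • c` is a coboundary. -/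
theorem exists_cobound_card_smul (H : Subgroup G) [Fintype (G ⧸ H)] (c : G × G → V)
    (hc : ∀ g h j : G, c (g * h, j) + c (g, h) = ρ g (c (h, j)) + c (g, h * j))
    (b : G → V) (hb : ∀ h ∈ H, ∀ j ∈ H, c (h, j) = ρ h (b j) - b (h * j) + b h) :
    ∃ a : G → V, ∀ g h : G,
      ρ g (a h) - a (g * h) + a g = Fintype.card (G ⧸ H) • c (g, h) := by
  classical
  have rmem : ∀ g, retr H g ∈ H := retr_mem H
  have rmul : ∀ h ∈ H, ∀ g, retr H (h * g) = h * retr H g := fun h hh g => retr_mul H h hh g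
  have Fco := hom3_cocycle ρ c hc
  have Fsm := hom3_smul ρ c
  have Bsm := hom2_smul ρ b
  have Bco := hom2_cobound ρ H c b hb
  let β : G → G → V := fun g0 g1 => hom2 ρ b (retr H g0) (retr H g1)
    - hom3 ρ c g0 (retr H g0) (retr H g1) + hom3 ρ c g0 g1 (retr H g1)
  have hβ_equiv : ∀ h ∈ H, ∀ g0 g1, β (h * g0) (h * g1) = ρ h (β g0 g1) := by
    intro h hh g0 g1
    simp only [β, rmul h hh, Fsm, Bsm, map_add, map_sub]
  have hβ_d : ∀ g0 g1 g2, β g1 g2 - β g0 g2 + β g0 g1 = hom3 ρ c g0 g1 g2 := by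
    intro g0 g1 g2
    have c1 := Fco g0 (retr H g0) (retr H g1) (retr H g2)
    have c2 := Fco g0 g1 (retr H g1) (retr H g2)
    have c3 := Fco g0 g1 g2 (retr H g2)
    have c4 := Bco (retr H g0) (retr H g1) (retr H g2) (rmem _) (rmem _) (rmem _)
    simp only [β]
    have e3 : hom3 ρ c g0 g1 g2 = hom3 ρ c g1 g2 (retr H g2) + hom3 ρ c g0 g1 (retr H g2)
        - hom3 ρ c g0 g2 (retr H g2) := by
      rw [c3]; abel
    rw [e3]
    have e2 : hom3 ρ c g0 g1 (retr H g2) = hom3 ρ c g0 (retr H g1) (retr H g2)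
        + hom3 ρ c g0 g1 (retr H g1) - hom3 ρ c g1 (retr H g1) (retr H g2) := by
      rw [← c2]; abel
    rw [e2]
    have e1 : hom3 ρ c g0 (retr H g1) (retr H g2) = hom3 ρ c (retr H g0) (retr H g1) (retr H g2)
        + hom3 ρ c g0 (retr H g0) (retr H g2) - hom3 ρ c g0 (retr H g0) (retr H g1) := by
      rw [c1]; abel
    rw [e1, c4]
    abel
  let T : G → G → G → V := fun g0 g1 t => ρ t (β (t⁻¹ * g0) (t⁻¹ * g1))
  have hT : ∀ g0 g1 t, ∀ h ∈ H, T g0 g1 (t * h) = T g0 g1 t := by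
    intro g0 g1 t h hh
    simp only [T, mul_inv_rev, mul_assoc, map_mul, Module.End.mul_apply]
    rw [hβ_equiv h⁻¹ (H.inv_mem hh), ← Module.End.mul_apply (ρ h), ← map_mul, mul_inv_cancel,
      map_one, Module.End.one_apply]
  refine ⟨fun g => ∑ q : G ⧸ H, T 1 g (Quotient.out q), fun g h => ?_⟩
  have h1 : ρ g (∑ q : G ⧸ H, T 1 h (Quotient.out q)) =
      ∑ q : G ⧸ H, T g (g * h) (Quotient.out q) := by
    rw [map_sum, ← sum_out_mul H (T g (g * h)) (hT g (g * h)) g]
    refine Finset.sum_congr rfl fun q _ => ?_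
    simp only [T, mul_inv_rev, mul_assoc, map_mul, Module.End.mul_apply, inv_mul_cancel_left,
      mul_one, inv_mul_cancel]
  rw [h1, ← Finset.sum_sub_distrib, ← Finset.sum_add_distrib]
  have h2 : ∀ q : G ⧸ H, T g (g * h) (Quotient.out q) - T 1 (g * h) (Quotient.out q)
      + T 1 g (Quotient.out q) = c (g, h) := by
    intro q
    simp only [T]
    rw [← map_sub, ← map_add, hβ_d, ← Fsm, mul_one, mul_inv_cancel, mul_inv_cancel_left,
      mul_inv_cancel_left, hom3_one]
  simp only [h2, Finset.sum_const, Finset.card_univ]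

end core

end Fermat.Agent.H75.Coh2
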