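/-
helper75 — P-H1 row 760 (H1-DIM3).

`orbitDimThree : Fermat.Agent.H63.H1.OrbitDimThreeStatement`:
for a self-map `σ` of a finite set `Q` with `σ³ = id` and any field `k`,
`3 * dim ekerThree k σ + 2 * #Fix σ = 2 * #Q`.

Route: `Q` is parametrised by `Fix σ ⊕ (R × Fin 3)` where `R` is the set of orbit minima of the
free orbits (w.r.t. an arbitrary numbering of `Q`); under this parametrisation `ekerThree` is the
kernel of the surjective model map `g ↦ (g|_Fix, b ↦ g(b,0) + g(b,1) + g(b,2))`.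
-/
import Mathlib
import Fermat.Agent.H63.H1.Interfaces

set_option autoImplicit false

namespace Fermat.Agent.H75.H1Dim

open Module

section model

variable (k : Type) [Field k] (A B : Type) [Fintype A] [Fintype B]

/-- The model map: restriction to the fixed points and sums over the free orbits. -/
def modelMap : (A ⊕ (B × Fin 3) → k) →ₗ[k] (A → k) × (B → k) where
  toFun g := (fun a => g (Sum.inl a),
    fun b => g (Sum.inr (b, 0)) + g (Sum.inr (b, 1)) + g (Sum.inr (b, 2)))
  map_add' g g' := by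
    ext x
    · simp
    · simp only [Pi.add_apply, Prod.mk_add_mk]
      ring
  map_smul' c g := by
    ext x
    · simp
    · simp only [Pi.smul_apply, smul_eq_mul, RingHom.id_apply, Prod.smul_mk]
      ring

omit [Fintype A] [Fintype B] in
lemma modelMap_surjective : Function.Surjective (modelMap k A B) := by
  rintro ⟨u, v⟩
  refine ⟨Sum.elim u (fun p => if p.2 = 0 then v p.1 else 0), ?_⟩
  ext x <;> simp [modelMap]

lemma finrank_ker_modelMap :
    finrank k (LinearMap.ker (modelMap k A B)) = 2 * Fintype.card B := by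
  have h := LinearMap.finrank_range_add_finrank_ker (modelMap k A B)
  rw [LinearMap.range_eq_top.2 (modelMap_surjective k A B), finrank_top] at h
  simp only [Module.finrank_prod, Module.finrank_fintype_fun_eq_card, Fintype.card_sum,
    Fintype.card_prod, Fintype.card_fin] at h
  omega

end model

section comb

variable {Q : Type} [Fintype Q] (σ : Q → Q)

/-- An injective numbering of a finite type. -/
noncomputable def num (q : Q) : ℕ := (Fintype.equivFin Q q : ℕ)

lemma num_injective : Function.Injective (num : Q → ℕ) :=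
  fun _ _ h => (Fintype.equivFin Q).injective (Fin.ext h)

/-- `q` is the minimum of its (non-trivial) orbit. -/
def IsMin (q : Q) : Prop := num q < num (σ q) ∧ num q < num (σ (σ q))

variable {σ}

omit [Fintype Q] in
lemma sigma_injective (hσ : ∀ q, σ (σ (σ q)) = q) : Function.Injective σ := fun a b h => by
  have := congrArg (fun x => σ (σ x)) h
  simpa [hσ] using this

lemma not_isMin_of_fixed {q : Q} (h : σ q = q) : ¬ IsMin σ q := fun hm => by
  rw [IsMin, h] at hm
  exact lt_irrefl _ hm.1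

omit [Fintype Q] in
lemma ne_of_not_fixed (hσ : ∀ q, σ (σ (σ q)) = q) {q : Q} (h : σ q ≠ q) :
    σ (σ q) ≠ q ∧ σ (σ q) ≠ σ q :=
  ⟨fun h2 => h (by have := congrArg σ h2; rw [hσ] at this; exact this.symm),
    fun h2 => h (sigma_injective hσ h2)⟩

lemma trichotomy (hσ : ∀ q, σ (σ (σ q)) = q) {q : Q} (h : σ q ≠ q) :
    (IsMin σ q ∧ ¬ IsMin σ (σ q) ∧ ¬ IsMin σ (σ (σ q))) ∨
    (¬ IsMin σ q ∧ IsMin σ (σ q) ∧ ¬ IsMin σ (σ (σ q))) ∨
    (¬ IsMin σ q ∧ ¬ IsMin σ (σ q) ∧ IsMin σ (σ (σ q))) := by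
  obtain ⟨h2, h3⟩ := ne_of_not_fixed hσ h
  have a1 : num (σ q) ≠ num q := fun e => h (num_injective e)
  have a2 : num (σ (σ q)) ≠ num q := fun e => h2 (num_injective e)
  have a3 : num (σ (σ q)) ≠ num (σ q) := fun e => h3 (num_injective e)
  simp only [IsMin, hσ]
  omega

variable (σ)

/-- The parametrisation of `Q` by fixed points and orbits of minimal elements. -/
def emb : {q : Q // σ q = q} ⊕ ({q : Q // IsMin σ q} × Fin 3) → Q :=
  Sum.elim (fun a => a.1) (fun p => ![p.1.1, σ p.1.1, σ (σ p.1.1)] p.2)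

variable {σ}

lemma emb_surjective (hσ : ∀ q, σ (σ (σ q)) = q) : Function.Surjective (emb σ) := by
  intro q
  by_cases h : σ q = q
  · exact ⟨Sum.inl ⟨q, h⟩, rfl⟩
  · rcases trichotomy hσ h with ⟨hm, -, -⟩ | ⟨-, hm, -⟩ | ⟨-, -, hm⟩
    · exact ⟨Sum.inr (⟨q, hm⟩, 0), rfl⟩
    · exact ⟨Sum.inr (⟨σ q, hm⟩, 2), by simp [emb, hσ]⟩
    · exact ⟨Sum.inr (⟨σ (σ q), hm⟩, 1), by simp [emb, hσ]⟩

lemma emb_injective (hσ : ∀ q, σ (σ (σ q)) = q) : Function.Injective (emb σ) := by
  have hinj := sigma_injective hσ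
  rintro (a | ⟨r, i⟩) (b | ⟨r', j⟩) h
  · exact congrArg Sum.inl (Subtype.ext h)
  · exfalso
    have hr' : σ r'.1 ≠ r'.1 := fun e => not_isMin_of_fixed e r'.2
    have ha := a.2
    simp only [emb, Sum.elim_inl, Sum.elim_inr] at h
    rw [h] at ha
    fin_cases j
    · exact hr' ha
    · exact hr' (hinj ha)
    · exact hr' (hinj (hinj ha))
  · exfalso
    have hr : σ r.1 ≠ r.1 := fun e => not_isMin_of_fixed e r.2
    have hb := b.2
    simp only [emb, Sum.elim_inl, Sum.elim_inr] at h
    rw [← h] at hb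
    fin_cases i
    · exact hr hb
    · exact hr (hinj hb)
    · exact hr (hinj (hinj hb))
  · have hr := r.2
    have hr' := r'.2
    simp only [emb, Sum.elim_inr] at h
    have key : r.1 = r'.1 ∧ i = j := by
      simp only [IsMin] at hr hr'
      fin_cases i <;> fin_cases j <;> simp only [Fin.zero_eta, Fin.mk_one, Fin.reduceFinMk,
        Matrix.cons_val_zero, Matrix.cons_val_one, Matrix.cons_val_two, Matrix.tail_cons,
        Matrix.head_cons] at h
      · exact ⟨h, rfl⟩
      · exfalso; rw [h] at hr; simp only [hσ] at hr; omega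
      · exfalso; rw [h] at hr; simp only [hσ] at hr; omega
      · exfalso; rw [← h] at hr'; simp only [hσ] at hr'; omega
      · exact ⟨hinj h, rfl⟩
      · exfalso
        have h' : r.1 = σ r'.1 := hinj h
        rw [h'] at hr; simp only [hσ] at hr; omega
      · exfalso; rw [← h] at hr'; simp only [hσ] at hr'; omega
      · exfalso
        have h' : σ r.1 = r'.1 := hinj h
        rw [← h'] at hr'; simp only [hσ] at hr'; omega
      · exact ⟨hinj (hinj h), rfl⟩
    obtain ⟨h1, h2⟩ := key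
    have : r = r' := Subtype.ext h1
    rw [this, h2]

/-- The parametrisation as an equivalence. -/
noncomputable def embEquiv (hσ : ∀ q, σ (σ (σ q)) = q) :
    {q : Q // σ q = q} ⊕ ({q : Q // IsMin σ q} × Fin 3) ≃ Q :=
  Equiv.ofBijective (emb σ) ⟨emb_injective hσ, emb_surjective hσ⟩

lemma embEquiv_inl (hσ : ∀ q, σ (σ (σ q)) = q) (a : {q : Q // σ q = q}) :
    embEquiv hσ (Sum.inl a) = a.1 := rfl

lemma embEquiv_inr0 (hσ : ∀ q, σ (σ (σ q)) = q) (b : {q : Q // IsMin σ q}) :
    embEquiv hσ (Sum.inr (b, 0)) = b.1 := rfl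

lemma embEquiv_inr1 (hσ : ∀ q, σ (σ (σ q)) = q) (b : {q : Q // IsMin σ q}) :
    embEquiv hσ (Sum.inr (b, 1)) = σ b.1 := rfl

lemma embEquiv_inr2 (hσ : ∀ q, σ (σ (σ q)) = q) (b : {q : Q // IsMin σ q}) :
    embEquiv hσ (Sum.inr (b, 2)) = σ (σ b.1) := rfl

end comb

section main

open Fermat.Agent.H63.H1

variable (k : Type) [Field k] {Q : Type} [Fintype Q] {σ : Q → Q}

open Classical in
lemma ekerThree_eq_comap (hσ : ∀ q, σ (σ (σ q)) = q) :
    ekerThree k σ = (LinearMap.ker (modelMap k {q : Q // σ q = q} {q : Q // IsMin σ q})).comap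
      ((LinearEquiv.funCongrLeft k k (embEquiv hσ)) : (Q → k) →ₗ[k] _) := by
  ext f
  simp only [Submodule.mem_comap, LinearMap.mem_ker, mem_ekerThree]
  have hmodel : ∀ g : ({q : Q // σ q = q} ⊕ ({q : Q // IsMin σ q} × Fin 3) → k),
      modelMap k {q : Q // σ q = q} {q : Q // IsMin σ q} g = 0 ↔
        (∀ a, g (Sum.inl a) = 0) ∧
          ∀ b, g (Sum.inr (b, 0)) + g (Sum.inr (b, 1)) + g (Sum.inr (b, 2)) = 0 := by
    intro g
    rw [Prod.ext_iff]
    simp only [modelMap, LinearMap.coe_mk, AddHom.coe_mk, Prod.fst_zero, Prod.snd_zero,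
      funext_iff, Pi.zero_apply]
  rw [hmodel]
  simp only [LinearEquiv.coe_coe, LinearEquiv.funCongrLeft_apply, LinearMap.funLeft_apply,
    embEquiv_inl, embEquiv_inr0, embEquiv_inr1, embEquiv_inr2]
  constructor
  · intro h
    exact ⟨fun a => (h a.1).2 a.2, fun b => (h b.1).1⟩
  · rintro ⟨hA, hB⟩ q
    by_cases hq : σ q = q
    · have h0 : f q = 0 := hA ⟨q, hq⟩
      refine ⟨?_, fun _ => h0⟩
      rw [hq, hq, h0]
      simp
    · refine ⟨?_, fun h => absurd h hq⟩
      rcases trichotomy hσ hq with ⟨hm, -, -⟩ | ⟨-, hm, -⟩ | ⟨-, -, hm⟩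
      · exact hB ⟨q, hm⟩
      · have := hB ⟨σ q, hm⟩
        simp only [hσ] at this
        linear_combination this
      · have := hB ⟨σ (σ q), hm⟩
        simp only [hσ] at this
        linear_combination this

open Classical in
lemma finrank_ekerThree (hσ : ∀ q, σ (σ (σ q)) = q) :
    finrank k (ekerThree k σ) = 2 * Fintype.card {q : Q // IsMin σ q} := by
  rw [ekerThree_eq_comap k hσ, ← finrank_ker_modelMap k {q : Q // σ q = q} {q : Q // IsMin σ q}]
  exact (LinearEquiv.ofSubmodule' (LinearEquiv.funCongrLeft k k (embEquiv hσ))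
    (LinearMap.ker (modelMap k {q : Q // σ q = q} {q : Q // IsMin σ q}))).finrank_eq

open Classical in
lemma card_eq (hσ : ∀ q, σ (σ (σ q)) = q) :
    Fintype.card Q =
      Fintype.card {q : Q // σ q = q} + 3 * Fintype.card {q : Q // IsMin σ q} := by
  rw [← Fintype.card_congr (embEquiv hσ), Fintype.card_sum, Fintype.card_prod, Fintype.card_fin,
    mul_comm]

end main

/-- **H1-DIM (three)** (row 760). -/
theorem orbitDimThree : Fermat.Agent.H63.H1.OrbitDimThreeStatement := by
  intro k _ Q _ _ σ hσ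
  have h1 := finrank_ekerThree k hσ
  have h2 := card_eq hσ
  simp only [Fintype.card_eq_nat_card] at h1 h2 ⊢
  rw [h1, h2]
  ring

end Fermat.Agent.H75.H1Dim
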