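/-
helper75 — P-SS2 row 1021 (SS2-J7' KUM-PULL): the torsion–character relation intertwines the
pull-back of divisor classes along `F_N ⊆ F_{N'}` (`N ∣ N'`) with the restriction of characters.

* `levelIncl_finiteAlong`, `levelIncl_isIntegral`, `levelIncl_hasPrincipalDivisors`,
  `levelIncl_fundamentalIdentity` : inputs of the pull-back along `levelIncl L h`
  (any `N ∣ N'`);
* `torsionCharRel_levelPull` : the relation is transported;
* `kummerPull : Fermat.Agent.H63.SS2.KummerPullStatement`.
-/
import Fermat.Agent.H75.SS2LevelPull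
import Fermat.Agent.H54.EsC.DegFinite
import Fermat.Agent.H93.EsC.PD

set_option autoImplicit false
set_option synthInstance.maxHeartbeats 400000
set_option linter.style.haveILetI false
set_option linter.unusedSectionVars false
set_option linter.unusedVariables false

noncomputable section

namespace Fermat.Agent.H75.SS2

open AlgebraicCurve ModularCurve CongruenceSubgroup IntermediateField
open Fermat.Agent.H63.SS2 Fermat.Agent.H23.EsA Fermat.Agent.H29

section Characters

theorem gamma0_le_of_dvd {N N' : ℕ} (h : N ∣ N') : Gamma0 N' ≤ Gamma0 N := by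
  intro γ hγ
  rw [Gamma0_mem] at hγ ⊢
  have h1 : ((N' : ℕ) : ℤ) ∣ (γ : Matrix (Fin 2) (Fin 2) ℤ) 1 0 :=
    (ZMod.intCast_zmod_eq_zero_iff_dvd _ _).mp hγ
  exact (ZMod.intCast_zmod_eq_zero_iff_dvd _ _).mpr
    (dvd_trans (Int.natCast_dvd_natCast.mpr h) h1)

theorem toAdditive_symm_resHom_apply {N N' : ℕ} (h : N ∣ N') (χ : ↥(Gamma0 N) →* ℂˣ)
    (γ : ↥(Gamma0 N')) :
    MonoidHom.toAdditive.symm (resHom h (Additive ℂˣ) (MonoidHom.toAdditive χ)) γ
      = χ (Subgroup.inclusion (gamma0_le_of_dvd h) γ) :=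
  rfl

/-- A function transforming by `χ` under `Γ₀(N)` transforms by the restriction of `χ` under
`Γ₀(N')`, `N ∣ N'`. -/
theorem hasCharacter_resHom {N N' : ℕ} (h : N ∣ N') (G : UpperHalfPlane → ℂ)
    (χ : ↥(Gamma0 N) →* ℂˣ) (hchar : HasCharacter N G χ) :
    HasCharacter N' G
      (MonoidHom.toAdditive.symm (resHom h (Additive ℂˣ) (MonoidHom.toAdditive χ))) := by
  intro γ z
  rw [toAdditive_symm_resHom_apply]
  exact hchar (Subgroup.inclusion (gamma0_le_of_dvd h) γ) z

end Characters

section KummerPull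

variable {N N' : ℕ} [NeZero N] [NeZero N'] (h : N ∣ N')

theorem levelIncl_finiteAlong (L : Type) [Field L] [Algebra ℚ L] :
    FiniteAlong L (levelIncl L h) :=
  Fermat.Agent.H54.finite_along_of_transcendental (levelIncl L h)
    (Fermat.Agent.H54.transcendental_jElt L N)
    (Fermat.Agent.H54.finiteDimensional_adjoin_jElt L N')

theorem levelIncl_isIntegral (L : Type) [Field L] [Algebra ℚ L] :
    (levelIncl L h).toRingHom.IsIntegral :=
  Fermat.Agent.H9.ESD.lc_isIntegral_of_finiteAlong _ (levelIncl_finiteAlong h L)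

theorem levelIncl_hasPrincipalDivisors (L : Type) [Field L] [Algebra ℚ L] [IsAlgClosed L]
    [CharZero L] (M : ℕ) [NeZero M] :
    HasPrincipalDivisors L ↥(laurentBaseChange L (modularFunctionFieldFull M)) :=
  Fermat.Agent.H93.esc_pd_of_isFunctionField L (Fermat.Agent.H54.isFunctionField L) M

theorem levelIncl_fundamentalIdentity (L : Type) [Field L] [Algebra ℚ L] [IsAlgClosed L]
    [CharZero L]
    [HasPrincipalDivisors L ↥(laurentBaseChange L (modularFunctionFieldFull N'))] :
    FundamentalIdentityAlong L (levelIncl L h) (levelIncl_isIntegral h L) :=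
  Fermat.Agent.H9.ESD.lc_fundamentalIdentityAlong_of
    Fermat.Agent.H49.relFundamentalIdentityStatement _ (levelIncl_finiteAlong h L)
    (levelIncl_isIntegral h L) (Fermat.Agent.H54.isFunctionField L N)

/-- The torsion–character relation is transported by the level pull-back. -/
theorem torsionCharRel_levelPull
    [HasPrincipalDivisors ℂ ↥(laurentBaseChange ℂ (modularFunctionFieldFull N'))]
    (hφ : (levelIncl ℂ h).toRingHom.IsIntegral)
    (hFI : FundamentalIdentityAlong ℂ (levelIncl ℂ h) hφ)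
    (m : ℕ) (x : Pic0 ℂ ↥(laurentBaseChange ℂ (modularFunctionFieldFull N)))
    (χ : ↥(Gamma0 N) →* ℂˣ) (hx : TorsionCharRel N m x χ) :
    TorsionCharRel N' m (Fermat.Agent.H71.SS.pic0PullbackAlong (levelIncl ℂ h) hφ hFI x)
      (MonoidHom.toAdditive.symm (resHom h (Additive ℂˣ) (MonoidHom.toAdditive χ))) := by
  obtain ⟨D, f, G, rfl, hf, hord, hG, hrep, hchar⟩ := hx
  refine ⟨Fermat.Agent.H71.SS.degZeroPullbackAlong (levelIncl ℂ h) hφ hFI D,
    levelIncl ℂ h f, G, ?_, ?_, ?_, hG, ?_, ?_⟩
  · rw [Fermat.Agent.H71.SS.pic0PullbackAlong_mk]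
  · intro h0
    exact hf ((levelIncl ℂ h).injective (h0.trans (map_zero _).symm))
  · intro w
    rw [Fermat.Agent.H71.SS.coe_degZeroPullbackAlong, Divisor.pullbackAlong_apply,
      Place.ord_restrictAlong (levelIncl ℂ h) hφ w f, hord]
    ring
  · show Fermat.Agent.H44.LaurentRel (G ^ m) ((levelIncl ℂ h f : _) : LaurentSeries ℂ)
    rw [coe_levelIncl]
    exact hrep
  · exact hasCharacter_resHom h G χ hchar

end KummerPull

/-- **J7' (KUM-PULL).** -/
theorem kummerPull : Fermat.Agent.H63.SS2.KummerPullStatement := by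
  intro N N' _ _ h
  haveI hP : HasPrincipalDivisors ℂ ↥(laurentBaseChange ℂ (modularFunctionFieldFull N')) :=
    levelIncl_hasPrincipalDivisors ℂ N'
  refine ⟨Fermat.Agent.H71.SS.pic0PullbackAlong (levelIncl ℂ h) (levelIncl_isIntegral h ℂ)
    (levelIncl_fundamentalIdentity h ℂ), ⟨levelIncl_isIntegral h ℂ, hP,
      levelIncl_fundamentalIdentity h ℂ, rfl⟩, ?_⟩
  intro m _ x χ hx
  exact torsionCharRel_levelPull h _ _ m x χ hx

end Fermat.Agent.H75.SS2

end
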