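import Fermat.Agent.H75.Coh2InfRes

namespace Fermat.Agent.H75.Coh2

open CategoryTheory groupCohomology Rep

/-- Cardinality bound in a left exact sequence `0 → X → Y → Z` of abelian groups. -/
theorem finite_and_card_dvd_of_exact {X Y Z : Type*} [AddCommGroup X] [AddCommGroup Y]
    [AddCommGroup Z] (f : X →+ Y) (g : Y →+ Z) (hf : Function.Injective f)
    (hfg : ∀ y, g y = 0 → ∃ x, f x = y) [Finite X] [Finite Z] :
    Finite Y ∧ Nat.card Y ∣ Nat.card X * Nat.card Z := by
  have hker : g.ker ≤ f.range := fun y hy => hfg y hy
  have hfin : Finite Y := by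
    have : Fintype X := Fintype.ofFinite X
    have : Fintype Z := Fintype.ofFinite Z
    exact (AddGroup.fintypeOfKerLeRange f g hker).finite
  refine ⟨hfin, ?_⟩
  have h1 : Nat.card g.ker * g.ker.index = Nat.card Y := AddSubgroup.card_mul_index _
  have h2 : g.ker.index = Nat.card g.range := AddSubgroup.index_ker g
  have h3 : Nat.card g.range ∣ Nat.card Z := AddSubgroup.card_addSubgroup_dvd_card _
  have h4 : Nat.card g.ker ∣ Nat.card X := by
    have h5 : Nat.card g.ker ∣ Nat.card f.range := AddSubgroup.card_dvd_of_le hker
    rwa [← Nat.card_congr (AddMonoidHom.ofInjective hf).toEquiv] at h5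
  rw [← h1, h2]
  exact Nat.mul_dvd_mul h4 h3


universe u
variable {k G : Type u} [CommRing k] [Group G] (A : Rep k G) (S : Subgroup G) [S.Normal]

/-- **Order bound from inflation–restriction**: if `H¹(S, A) = 0` and `H²(G ⧸ S, A^S)`,
`H²(S, A)` are finite, then `H²(G, A)` is finite and its order divides the product of their
orders. -/
theorem finite_H2_and_card_dvd (hH1 : H1Vanishes A S)
    [Finite (groupCohomology (A.quotientToInvariants S) 2)]
    [Finite (groupCohomology (Rep.res S.subtype A) 2)] :
    Finite (groupCohomology A 2) ∧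
      Nat.card (groupCohomology A 2) ∣
        Nat.card (groupCohomology (A.quotientToInvariants S) 2) *
          Nat.card (groupCohomology (Rep.res S.subtype A) 2) :=
  finite_and_card_dvd_of_exact (inf2 A S).hom.toAddMonoidHom (res2 A S).hom.toAddMonoidHom
    (inf2_injective A S hH1) (fun x hx => exists_inf2_eq_of_res2_eq_zero A S hH1 x hx)

end Fermat.Agent.H75.Coh2
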