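import Fermat.Agent.H75.Coh2InfResCore

namespace Fermat.Agent.H75.Coh2

open CategoryTheory groupCohomology Rep

universe u
variable {k G : Type u} [CommRing k] [Group G] (A : Rep k G) (S : Subgroup G) [S.Normal]

/-- The inflation map `H²(G ⧸ S, A^S) ⟶ H²(G, A)`. -/
noncomputable abbrev inf2 :
    groupCohomology (A.quotientToInvariants S) 2 ⟶ groupCohomology A 2 :=
  groupCohomology.map (QuotientGroup.mk' S) (Rep.ofHom <| A.ρ.quotientToInvariants_lift S) 2

/-- The restriction map `H²(G, A) ⟶ H²(S, A)`. -/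
noncomputable abbrev res2 :
    groupCohomology A 2 ⟶ groupCohomology (Rep.res S.subtype A) 2 :=
  groupCohomology.map S.subtype (𝟙 _) 2

/-- The vanishing of `H¹(S, A)` in cochain form: every 1-cocycle `S → A` is a coboundary. -/
def H1Vanishes {k G : Type u} [CommRing k] [Group G] (A : Rep k G) (S : Subgroup G) : Prop :=
  ∀ f : S → A.V, (∀ s t : S, f (s * t) = A.ρ s (f t) + f s) →
    ∃ z : A.V, ∀ s : S, f s = A.ρ s z - z

omit [S.Normal] in
lemma h1Vanishes_of_subsingleton
    (hH1 : Subsingleton (groupCohomology.H1 (Rep.res S.subtype A))) : H1Vanishes A S := by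
  intro f hf
  have hmem : f ∈ cocycles₁ (Rep.res S.subtype A) :=
    (mem_cocycles₁_iff (A := Rep.res S.subtype A) f).2 hf
  have h0 : H1π (Rep.res S.subtype A) ⟨f, hmem⟩ = 0 := Subsingleton.elim _ _
  rw [H1π_eq_zero_iff] at h0
  obtain ⟨z, hz⟩ := h0
  exact ⟨z, fun s => (congrFun hz s).symm⟩

omit [S.Normal] in
lemma h1Vanishes_of_isZero
    (hH1 : Limits.IsZero (groupCohomology (Rep.res S.subtype A) 1)) : H1Vanishes A S :=
  h1Vanishes_of_subsingleton A S (ModuleCat.subsingleton_of_isZero hH1)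

omit [S.Normal] in
lemma subsingleton_H1_of_h1Vanishes (h : H1Vanishes A S) :
    Subsingleton (groupCohomology.H1 (Rep.res S.subtype A)) := by
  refine ⟨fun x y => ?_⟩
  have key : ∀ x : groupCohomology.H1 (Rep.res S.subtype A), x = 0 := by
    intro x
    induction x using H1_induction_on with | @h f =>
    rw [H1π_eq_zero_iff]
    obtain ⟨z, hz⟩ := h f ((mem_cocycles₁_iff (A := Rep.res S.subtype A) f).1 f.2)
    exact ⟨z, funext fun s => (hz s).symm⟩
  rw [key x, key y]

lemma coe_inf_cocycle (c : cocycles₂ (A.quotientToInvariants S)) (g h : G) :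
    (mapCocycles₂ (QuotientGroup.mk' S) (Rep.ofHom <| A.ρ.quotientToInvariants_lift S) c) (g, h)
      = ((c ((g : G ⧸ S), (h : G ⧸ S))).1 : A.V) := rfl

theorem inf2_injective (hH1 : H1Vanishes A S) :
    Function.Injective (inf2 A S) := by
  rw [injective_iff_map_eq_zero]
  intro x hx
  induction x using H2_induction_on with | @h c =>
  rw [H2π_comp_map_apply, H2π_eq_zero_iff] at hx
  obtain ⟨a, ha⟩ := hx
  have hcq := (mem_cocycles₂_iff (A := A.quotientToInvariants S) c).1 c.2
  obtain ⟨a', ha'1, ha'2, ha'3⟩ := inf_core_inj A.ρ S hH1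
    (fun p => ((c ((p.1 : G ⧸ S), (p.2 : G ⧸ S))).1 : A.V))
    (by
      intro g h j
      have := congrArg Subtype.val (hcq (g : G ⧸ S) (h : G ⧸ S) (j : G ⧸ S))
      simpa using this)
    (by
      intro g h s hs
      have : ((g * s : G) : G ⧸ S) = (g : G ⧸ S) := by
        rw [QuotientGroup.eq]; simpa using S.inv_mem hs
      simp only [this])
    (by
      intro g h s hs
      have : ((h * s : G) : G ⧸ S) = (h : G ⧸ S) := by
        rw [QuotientGroup.eq]; simpa using S.inv_mem hs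
      simp only [this])
    (by
      intro g h s hs
      exact (c ((g : G ⧸ S), (h : G ⧸ S))).2 ⟨s, hs⟩)
    a (by
      intro g h
      have := congrFun ha (g, h)
      rw [coe_inf_cocycle] at this
      rw [← this]
      rfl)
  rw [H2π_eq_zero_iff]
  refine ⟨fun q => Quotient.liftOn' q (fun g => ⟨a' g, fun s => ha'3 g s.1 s.2⟩) ?_, ?_⟩
  · intro g h hgh
    rw [QuotientGroup.leftRel_apply] at hgh
    apply Subtype.ext
    have := ha'2 g _ hgh
    simpa using this.symm
  · funext ⟨x, y⟩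
    induction x using QuotientGroup.induction_on with | H g =>
    induction y using QuotientGroup.induction_on with | H h =>
    apply Subtype.ext
    have := ha'1 g h
    simp only at this
    rw [this]
    rfl


/-- Restriction after inflation vanishes on `H²`. -/
theorem res2_inf2 (y : groupCohomology (A.quotientToInvariants S) 2) :
    res2 A S (inf2 A S y) = 0 := by
  induction y using H2_induction_on with | @h c =>
  rw [H2π_comp_map_apply, H2π_comp_map_apply, H2π_eq_zero_iff]
  refine ⟨fun _ => ((c ((1 : G ⧸ S), (1 : G ⧸ S))).1 : A.V), ?_⟩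
  funext ⟨s, t⟩
  have h1 : A.ρ s ((c ((1 : G ⧸ S), (1 : G ⧸ S))).1 : A.V) = (c ((1 : G ⧸ S), (1 : G ⧸ S))).1 :=
    (c ((1 : G ⧸ S), (1 : G ⧸ S))).2 s
  have hs : ((s : G) : G ⧸ S) = 1 := (QuotientGroup.eq_one_iff _).2 s.2
  have ht : ((t : G) : G ⧸ S) = 1 := (QuotientGroup.eq_one_iff _).2 t.2
  have h2 : (mapCocycles₂ S.subtype (𝟙 (Rep.res S.subtype A))
      (mapCocycles₂ (QuotientGroup.mk' S) (Rep.ofHom <| A.ρ.quotientToInvariants_lift S) c)) (s, t)
      = ((c (((s : G) : G ⧸ S), ((t : G) : G ⧸ S))).1 : A.V) := rfl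
  rw [h2, hs, ht, d₁₂_hom_apply]
  change A.ρ s _ - _ + _ = _
  rw [h1]; abel

theorem exists_inf2_eq_of_res2_eq_zero (hH1 : H1Vanishes A S)
    (x : groupCohomology A 2) (hx : res2 A S x = 0) :
    ∃ y : groupCohomology (A.quotientToInvariants S) 2, inf2 A S y = x := by
  classical
  induction x using H2_induction_on with | @h c =>
  rw [H2π_comp_map_apply, H2π_eq_zero_iff] at hx
  obtain ⟨b, hb⟩ := hx
  have hc := (mem_cocycles₂_iff (A := A) c).1 c.2
  obtain ⟨a, c', hc'a, hc'c, i1, i2, i3⟩ := inf_core_exact A.ρ S hH1 (⇑c) hc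
    (fun g => if hg : g ∈ S then b ⟨g, hg⟩ else 0) (by
      intro s hs t ht
      have := congrFun hb (⟨s, hs⟩, ⟨t, ht⟩)
      simp only [dif_pos hs, dif_pos ht, dif_pos (S.mul_mem hs ht)]
      rw [coe_mapCocycles₂] at this
      simpa using this.symm)
  -- the descended cocycle
  have hleft : ∀ g h, ∀ s ∈ S, c' (s * g, h) = c' (g, h) := by
    intro g h s hs
    have e : s * g = g * (g⁻¹ * s * g) := by group
    rw [e, i1 g h _ (Subgroup.Normal.conj_mem' ‹_› s hs g)]
  let cbar : (G ⧸ S) × (G ⧸ S) → (A.quotientToInvariants S).V := fun p =>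
    Quotient.liftOn₂' p.1 p.2 (fun g h => (⟨c' (g, h), fun s => i3 g h s.1 s.2⟩ :
      Representation.invariants (A.ρ.comp S.subtype))) (by
      intro g₁ h₁ g₂ h₂ hg hh
      rw [QuotientGroup.leftRel_apply] at hg hh
      apply Subtype.ext
      have e1 : g₂ = g₁ * (g₁⁻¹ * g₂) := by group
      have e2 : h₂ = h₁ * (h₁⁻¹ * h₂) := by group
      change c' (g₁, h₁) = c' (g₂, h₂)
      rw [e1, e2, i1 _ _ _ hg, i2 _ _ _ hh])
  have hcbar : ∀ g h : G, ((cbar ((g : G ⧸ S), (h : G ⧸ S))).1 : A.V) = c' (g, h) :=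
    fun g h => rfl
  have hcbar_mem : cbar ∈ cocycles₂ (A.quotientToInvariants S) := by
    rw [mem_cocycles₂_iff]
    intro x y z
    induction x using QuotientGroup.induction_on with | H g =>
    induction y using QuotientGroup.induction_on with | H h =>
    induction z using QuotientGroup.induction_on with | H j =>
    apply Subtype.ext
    exact hc'c g h j
  refine ⟨H2π _ ⟨cbar, hcbar_mem⟩, ?_⟩
  rw [H2π_comp_map_apply, H2π_eq_iff]
  refine ⟨a, ?_⟩
  funext ⟨g, h⟩
  rw [d₁₂_hom_apply]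
  change _ = c' (g, h) - c (g, h)
  rw [hc'a g h]
  simp


/-- **Inflation–restriction in degree 2**: if `H¹(S, A) = 0`, a class in `H²(G, A)` restricts
to zero on `S` iff it is inflated from `H²(G ⧸ S, A^S)`. -/
theorem res2_eq_zero_iff (hH1 : H1Vanishes A S) (x : groupCohomology A 2) :
    res2 A S x = 0 ↔ ∃ y : groupCohomology (A.quotientToInvariants S) 2, inf2 A S y = x :=
  ⟨exists_inf2_eq_of_res2_eq_zero A S hH1 x, fun ⟨y, hy⟩ => hy ▸ res2_inf2 A S y⟩

/-- The short complex `H²(G ⧸ S, A^S) ⟶ H²(G, A) ⟶ H²(S, A)`. -/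
@[simps X₁ X₂ X₃ f g]
noncomputable def H2InfRes : ShortComplex (ModuleCat k) where
  X₁ := groupCohomology (A.quotientToInvariants S) 2
  X₂ := groupCohomology A 2
  X₃ := groupCohomology (Rep.res S.subtype A) 2
  f := inf2 A S
  g := res2 A S
  zero := by
    ext y
    exact res2_inf2 A S y

/-- If `H¹(S, A) = 0`, the inflation map `H²(G ⧸ S, A^S) ⟶ H²(G, A)` is a monomorphism. -/
theorem H2InfRes_mono (hH1 : H1Vanishes A S) : Mono (H2InfRes A S).f :=
  (ModuleCat.mono_iff_injective _).2 (inf2_injective A S hH1)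

/-- If `H¹(S, A) = 0`, the short complex `H²(G ⧸ S, A^S) ⟶ H²(G, A) ⟶ H²(S, A)` is exact. -/
theorem H2InfRes_exact (hH1 : H1Vanishes A S) : (H2InfRes A S).Exact := by
  rw [ShortComplex.moduleCat_exact_iff_ker_sub_range]
  intro x hx
  obtain ⟨y, hy⟩ := exists_inf2_eq_of_res2_eq_zero A S hH1 x (LinearMap.mem_ker.1 hx)
  exact ⟨y, hy⟩

end Fermat.Agent.H75.Coh2
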