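import Mathlib
import Fermat.Prelude.Thm_ModularForm_sturm_bound_of_isArithmetic
import Fermat.Agent.H20.DS.Interfaces2

set_option autoImplicit false

open UpperHalfPlane ModularForm CongruenceSubgroup
open scoped MatrixGroups ModularForm Manifold

namespace Fermat.Agent.H75

theorem one_mem_strictPeriods_Gamma1' (N : ℕ) :
    (1 : ℝ) ∈ ((Gamma1 N : Subgroup SL(2, ℤ)) : Subgroup (GL (Fin 2) ℝ)).strictPeriods := by
  rw [CongruenceSubgroup.strictPeriods_Gamma1]
  simp

/-- `S_k(Γ₁(N))` is finite-dimensional (Sturm bound of the prelude for arithmetic groups). -/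
theorem finDimGamma1 : Fermat.Agent.H20.DS.FinDimGamma1Statement := by
  intro N _ k
  classical
  have h1 := one_mem_strictPeriods_Gamma1' N
  set B : ℕ :=
    (k * ((Gamma1 N : Subgroup SL(2, ℤ)) : Subgroup (GL (Fin 2) ℝ)).relIndex 𝒮ℒ).toNat / 12 with hB
  let T : CuspForm (Gamma1 N) k →ₗ[ℂ] (Fin (B + 1) → ℂ) :=
    { toFun := fun f i => PowerSeries.coeff (i : ℕ) (qExpansion 1 f)
      map_add' := fun f g => by
        funext i
        have h : (⇑(f + g) : ℍ → ℂ) = ⇑f + ⇑g := rfl
        rw [h, ModularForm.qExpansion_add one_pos h1 f g]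
        simp
      map_smul' := fun c f => by
        funext i
        have h : (⇑(c • f) : ℍ → ℂ) = c • ⇑f := rfl
        rw [h, ModularForm.qExpansion_smul one_pos h1 c f]
        simp }
  refine FiniteDimensional.of_injective T ?_
  rw [injective_iff_map_eq_zero]
  intro f hf
  have hmf : (ModularFormClass.modularForm f : ModularForm (Gamma1 N) k) = 0 := by
    refine ModularForm.sturm_bound_of_isArithmetic h1 ?_
    refine lt_of_lt_of_le (by exact_mod_cast Nat.lt_succ_self _)
      (PowerSeries.nat_le_order _ _ fun n hn => ?_)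
    have := congrFun hf ⟨n, hn⟩
    simpa [T] using this
  have hcoe : (⇑f : ℍ → ℂ) = 0 := by
    have := congrArg (fun F : ModularForm (Gamma1 N) k => (⇑F : ℍ → ℂ)) hmf
    simpa using this
  exact DFunLike.coe_injective hcoe

end Fermat.Agent.H75
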