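import Mathlib
import Fermat.Agent.H20.DS.Interfaces2
import Fermat.Agent.H75.Interpolation

set_option autoImplicit false

open UpperHalfPlane ModularForm CongruenceSubgroup SlashInvariantForm
open scoped MatrixGroups ModularForm Manifold

namespace Fermat.Agent.H75.RelInterp

section generic

open Finset

variable {ι : Type} [Fintype ι] [DecidableEq ι]

/-- The Lagrange-type expression `∑_q F_q · e_n(-T_l : l ≠ q)`. -/
noncomputable def lagr (n : ℕ) (F T : ι → ℍ → ℂ) (z : ℍ) : ℂ :=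
  ∑ q : ι, F q z * ∑ S ∈ powersetCard n (univ.erase q), ∏ l ∈ S, (-(T l z))

theorem lagr_perm (π : Equiv.Perm ι) (n : ℕ) (F T : ι → ℍ → ℂ) :
    lagr n (fun q => F (π q)) (fun q => T (π q)) = lagr n F T := by
  funext z
  unfold lagr
  have key : ∀ q : ι, F (π q) z * ∑ S ∈ powersetCard n (univ.erase q), ∏ l ∈ S, (-(T (π l) z))
      = F (π q) z * ∑ S ∈ powersetCard n (univ.erase (π q)), ∏ l ∈ S, (-(T l z)) := by
    intro q
    have := Fermat.Agent.H75.esum_perm π (fun l => T l z) 1 q n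
    simp only [one_mul, one_pow] at this
    rw [this]
  rw [Finset.sum_congr rfl (fun q _ => key q)]
  exact Equiv.sum_comp π (fun q => F q z *
    ∑ S ∈ powersetCard n (univ.erase q), ∏ l ∈ S, (-(T l z)))

theorem lagr_slash (n : ℕ) (F T : ι → ℍ → ℂ) (k w κ : ℤ) (hκ : κ = k + w * n) (γ : SL(2, ℤ)) :
    (lagr n F T) ∣[κ] γ = lagr n (fun q => F q ∣[k] γ) (fun l => T l ∣[w] γ) := by
  funext z
  rw [SL_slash_apply]
  unfold lagr
  have hd : denom γ z ≠ 0 := denom_ne_zero γ z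
  have hF : ∀ q, F q (γ • z) = (F q ∣[k] γ) z * denom γ z ^ k := by
    intro q
    rw [SL_slash_apply, mul_assoc, ← zpow_add₀ hd]
    simp
  have hT : ∀ l, T l (γ • z) = (T l ∣[w] γ) z * denom γ z ^ w := by
    intro q
    rw [SL_slash_apply, mul_assoc, ← zpow_add₀ hd]
    simp
  rw [Finset.sum_mul]
  refine Finset.sum_congr rfl fun q _ => ?_
  rw [hF q]
  have hS : ∀ S ∈ powersetCard n (univ.erase q), ∏ l ∈ S, (-(T l (γ • z)))
      = (denom γ z ^ w) ^ n * ∏ l ∈ S, (-((T l ∣[w] γ) z)) := by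
    intro S hS
    rw [mem_powersetCard] at hS
    have : ∀ l ∈ S, (-(T l (γ • z))) = denom γ z ^ w * (-((T l ∣[w] γ) z)) := by
      intro l _
      rw [hT l]; ring
    rw [prod_congr rfl this, prod_mul_distrib, prod_const, hS.2]
  rw [Finset.sum_congr rfl hS, ← Finset.mul_sum]
  have h1 : denom γ z ^ k * (denom γ z ^ w) ^ n * denom γ z ^ (-κ) = 1 := by
    rw [← zpow_natCast (denom γ z ^ w) n, ← zpow_mul, ← zpow_add₀ hd, ← zpow_add₀ hd, hκ]
    have : k + w * (n : ℤ) + -(k + w * (n : ℤ)) = 0 := by ring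
    rw [this, zpow_zero]
  calc (F q ∣[k] γ) z * denom γ z ^ k * ((denom γ z ^ w) ^ n *
        ∑ S ∈ powersetCard n (univ.erase q), ∏ l ∈ S, (-((T l ∣[w] γ) z))) * denom γ z ^ (-κ)
      = (denom γ z ^ k * (denom γ z ^ w) ^ n * denom γ z ^ (-κ)) * ((F q ∣[k] γ) z *
        ∑ S ∈ powersetCard n (univ.erase q), ∏ l ∈ S, (-((T l ∣[w] γ) z))) := by ring
    _ = _ := by rw [h1, one_mul]

theorem lagr_eq_pi (n : ℕ) (F T : ι → ℍ → ℂ) :
    lagr n F T = ∑ q : ι, F q * ∑ S ∈ powersetCard n (univ.erase q), ∏ l ∈ S, (-(T l)) := by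
  funext z
  simp only [lagr, Finset.sum_apply, Pi.mul_apply, Finset.prod_apply, Pi.neg_apply]

theorem mdiff_lagr (n : ℕ) (F T : ι → ℍ → ℂ) (hF : ∀ q, MDiff (F q)) (hT : ∀ q, MDiff (T q)) :
    MDiff (lagr n F T) := by
  rw [lagr_eq_pi]
  refine MDifferentiable.sum fun q _ => ?_
  refine MDifferentiable.mul (hF q) ?_
  refine MDifferentiable.sum fun S _ => ?_
  refine MDifferentiable.prod fun l _ => ?_
  exact (hT l).neg

open Filter in
theorem isBoundedAtImInfty_lagr (n : ℕ) (F T : ι → ℍ → ℂ) (hF : ∀ q, IsBoundedAtImInfty (F q))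
    (hT : ∀ q, IsBoundedAtImInfty (T q)) : IsBoundedAtImInfty (lagr n F T) := by
  rw [lagr_eq_pi]
  have hmem : ∀ {φ : ℍ → ℂ}, IsBoundedAtImInfty φ ↔ φ ∈ boundedFilterSubalgebra ℂ atImInfty :=
    Iff.rfl
  rw [hmem]
  refine Subalgebra.sum_mem _ fun q _ => ?_
  refine Subalgebra.mul_mem _ (hmem.1 (hF q)) ?_
  refine Subalgebra.sum_mem _ fun S _ => ?_
  refine Subalgebra.prod_mem _ fun l _ => ?_
  exact Subalgebra.neg_mem _ (hmem.1 (hT l))

/-- The interpolation identity, pointwise. -/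
theorem lagr_identity (F T : ι → ℍ → ℂ) (q₀ : ι) (z : ℍ) :
    F q₀ z * ∏ l ∈ univ.erase q₀, (T q₀ z - T l z) =
      ∑ m ∈ range (Fintype.card ι), lagr (Fintype.card ι - 1 - m) F T z * T q₀ z ^ m := by
  have hcard : ∀ q : ι, (univ.erase q).card = Fintype.card ι - 1 := fun q => by
    rw [card_erase_of_mem (mem_univ q), card_univ]
  have hpos : 0 < Fintype.card ι := Fintype.card_pos_iff.mpr ⟨q₀⟩
  have hexp : ∀ q : ι, ∏ l ∈ univ.erase q, (T q₀ z - T l z) =
      ∑ m ∈ range (Fintype.card ι), (∑ S ∈ powersetCard (Fintype.card ι - 1 - m) (univ.erase q),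
        ∏ l ∈ S, (-(T l z))) * T q₀ z ^ m := by
    intro q
    rw [Fermat.Agent.H75.prod_sub_expand (univ.erase q) (fun l => T l z) (T q₀ z), hcard q,
      Nat.sub_add_cancel hpos]
  have hsum : ∑ m ∈ range (Fintype.card ι), lagr (Fintype.card ι - 1 - m) F T z * T q₀ z ^ m
      = ∑ q : ι, F q z * ∏ l ∈ univ.erase q, (T q₀ z - T l z) := by
    simp only [lagr, hexp, Finset.sum_mul, Finset.mul_sum]
    rw [Finset.sum_comm]
    refine sum_congr rfl fun q _ => sum_congr rfl fun m _ => ?_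
    refine sum_congr rfl fun S _ => ?_
    ring
  rw [hsum]
  rw [Finset.sum_eq_single q₀]
  · intro q _ hq
    have hmem : q₀ ∈ univ.erase q := mem_erase.mpr ⟨fun h => hq h.symm, mem_univ _⟩
    rw [Finset.prod_eq_zero hmem, mul_zero]
    rw [sub_self]
  · intro h
    exact absurd (mem_univ _) h

end generic

end Fermat.Agent.H75.RelInterp
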