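import Mathlib
import Fermat.Agent.H20.DS.Interfaces2
import Fermat.Agent.H75.DSRelInterpCore

set_option autoImplicit false

open UpperHalfPlane ModularForm CongruenceSubgroup SlashInvariantForm
open scoped MatrixGroups ModularForm Manifold

namespace Fermat.Agent.H75.RelInterp

section conj

variable {N : ℕ} {k : ℤ}

local notation "𝒢₁" => ((Gamma1 N : Subgroup SL(2, ℤ)) : Subgroup (GL (Fin 2) ℝ))
local notation "ℋ₀" => ((Gamma0 N : Subgroup SL(2, ℤ)) : Subgroup (GL (Fin 2) ℝ))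
local notation "𝒬" => ℋ₀ ⧸ (Subgroup.subgroupOf 𝒢₁ ℋ₀)

/-- The element of the image of `Γ₀(N)` in `GL(2, ℝ)` attached to `γ ∈ Γ₀(N)`. -/
noncomputable def g0Elt (γ : SL(2, ℤ)) (hγ : γ ∈ Gamma0 N) : ℋ₀ :=
  ⟨Matrix.SpecialLinearGroup.mapGL ℝ γ, γ, hγ, rfl⟩

theorem quotientFunc_slash (f : ModularForm (Gamma1 N) k) (q : 𝒬) (γ : SL(2, ℤ))
    (hγ : γ ∈ Gamma0 N) :
    quotientFunc f q ∣[k] γ = quotientFunc f ((g0Elt γ hγ)⁻¹ • q) :=
  quotientFunc_smul f (g0Elt γ hγ).2 q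

theorem mdiff_quotientFunc (f : ModularForm (Gamma1 N) k) (q : 𝒬) :
    MDiff (quotientFunc f q) := by
  induction q using Quotient.inductionOn with
  | h r => exact (ModularForm.translate f r.1⁻¹).holo'

theorem isBoundedAtImInfty_quotientFunc_slash [NeZero N] (f : ModularForm (Gamma1 N) k) (q : 𝒬)
    (γ' : SL(2, ℤ)) : IsBoundedAtImInfty (quotientFunc f q ∣[k] γ') := by
  induction q using Quotient.inductionOn with
  | h r =>
    obtain ⟨r, γ, hγ, rfl⟩ := r
    have : quotientFunc f (⟦⟨Matrix.SpecialLinearGroup.mapGL ℝ γ, γ, hγ, rfl⟩⟧ : 𝒬)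
        = (⇑f) ∣[k] γ⁻¹ := by
      rw [quotientFunc_mk]
      rw [SL_slash]
      congr 1
      exact (map_inv (Matrix.SpecialLinearGroup.mapGL ℝ) γ).symm
    rw [this, ← SlashAction.slash_mul]
    exact ModularFormClass.bdd_at_infty_slash f (γ⁻¹ * γ')

theorem quotientFunc_one (f : ModularForm (Gamma1 N) k) :
    quotientFunc f ((1 : ℋ₀) : 𝒬) = ⇑f := by
  have : ((1 : ℋ₀) : 𝒬) = ⟦1⟧ := rfl
  rw [this, quotientFunc_mk]
  simp

/-- The interpolation coefficients are invariant under `Γ₀(N)`. -/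
theorem lagr_quotientFunc_slash [Fintype 𝒬] [DecidableEq 𝒬] (f : ModularForm (Gamma1 N) k) {w : ℤ}
    (t : ModularForm (Gamma1 N) w) (n : ℕ) (κ : ℤ) (hκ : κ = k + w * n) (γ : SL(2, ℤ))
    (hγ : γ ∈ Gamma0 N) :
    lagr n (fun q : 𝒬 => quotientFunc f q) (fun q : 𝒬 => quotientFunc t q) ∣[κ] γ =
      lagr n (fun q : 𝒬 => quotientFunc f q) (fun q : 𝒬 => quotientFunc t q) := by
  rw [lagr_slash n _ _ k w κ hκ γ]
  have h1 : (fun q : 𝒬 => quotientFunc f q ∣[k] γ) =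
      fun q => quotientFunc f (MulAction.toPerm (g0Elt γ hγ)⁻¹ q) := by
    funext q
    exact quotientFunc_slash f q γ hγ
  have h2 : (fun q : 𝒬 => quotientFunc t q ∣[w] γ) =
      fun q => quotientFunc t (MulAction.toPerm (g0Elt γ hγ)⁻¹ q) := by
    funext q
    exact quotientFunc_slash t q γ hγ
  rw [h1, h2]
  exact lagr_perm (MulAction.toPerm (g0Elt γ hγ)⁻¹) n (fun q : 𝒬 => quotientFunc f q)
    (fun q : 𝒬 => quotientFunc t q)

theorem isBoundedAtImInfty_lagr_quotientFunc_slash [NeZero N] [Fintype 𝒬] [DecidableEq 𝒬]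
    (f : ModularForm (Gamma1 N) k)
    {w : ℤ} (t : ModularForm (Gamma1 N) w) (n : ℕ) (κ : ℤ) (hκ : κ = k + w * n)
    (γ' : SL(2, ℤ)) :
    IsBoundedAtImInfty (lagr n (fun q : 𝒬 => quotientFunc f q) (fun q : 𝒬 => quotientFunc t q) ∣[κ] γ') := by
  rw [lagr_slash n _ _ k w κ hκ γ']
  exact isBoundedAtImInfty_lagr n _ _ (fun q => isBoundedAtImInfty_quotientFunc_slash f q γ')
    (fun q => isBoundedAtImInfty_quotientFunc_slash t q γ')

open Finset in
/-- The discriminant-like factor is nonzero when `t` separates the cosets of `Γ₁(N)` in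
`Γ₀(N)`. -/
theorem denominator_ne_zero [Fintype 𝒬] [DecidableEq 𝒬] {w : ℤ}
    (t : ModularForm (Gamma1 N) w)
    (ht : ∀ γ : SL(2, ℤ), γ ∈ Gamma0 N → (⇑t ∣[w] γ = ⇑t) → γ ∈ Gamma1 N) :
    (fun z : ℍ => ∏ l ∈ univ.erase (((1 : ℋ₀) : 𝒬)), (t z - quotientFunc t l z)) ≠ 0 := by
  have hpi : (fun z : ℍ => ∏ l ∈ univ.erase (((1 : ℋ₀) : 𝒬)), (t z - quotientFunc t l z))
      = ∏ l ∈ univ.erase (((1 : ℋ₀) : 𝒬)), (⇑t - quotientFunc t l) := by
    funext z
    simp only [Finset.prod_apply, Pi.sub_apply]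
  rw [hpi]
  intro h0
  rw [UpperHalfPlane.prod_eq_zero_iff
    (fun l _ => (ModularFormClass.holo t).sub (mdiff_quotientFunc t l))] at h0
  obtain ⟨l, hl, hl0⟩ := h0
  rw [mem_erase] at hl
  apply hl.1
  induction l using Quotient.inductionOn with
  | h r =>
    obtain ⟨r, γ, hγ, rfl⟩ := r
    have hq : quotientFunc t (⟦⟨Matrix.SpecialLinearGroup.mapGL ℝ γ, γ, hγ, rfl⟩⟧ : 𝒬)
        = (⇑t) ∣[w] γ⁻¹ := by
      rw [quotientFunc_mk]
      rw [SL_slash]
      congr 1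
      exact (map_inv (Matrix.SpecialLinearGroup.mapGL ℝ) γ).symm
    rw [hq] at hl0
    have hγ' : γ⁻¹ ∈ Gamma1 N := ht γ⁻¹ (inv_mem hγ) (sub_eq_zero.mp hl0).symm
    symm
    show ((1 : ℋ₀) : 𝒬) = ((⟨Matrix.SpecialLinearGroup.mapGL ℝ γ, γ, hγ, rfl⟩ : ℋ₀) : 𝒬)
    rw [QuotientGroup.eq]
    rw [Subgroup.mem_subgroupOf]
    simp only [inv_one, one_mul]
    exact ⟨γ, inv_mem_iff.mp hγ', rfl⟩

end conj

section cusp

/-- A holomorphic `Γ₀(N)`-invariant function all of whose `SL(2, ℤ)`-translates are bounded at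
`i∞`, multiplied by the discriminant, is a cusp form on `Γ₀(N)`. -/
theorem exists_cuspForm_mul_discriminant (N : ℕ) [NeZero N] (κ κ' : ℤ) (hκ : κ' = κ + 12)
    (φ : ℍ → ℂ)
    (hinv : ∀ γ : SL(2, ℤ), γ ∈ Gamma0 N → φ ∣[κ] γ = φ) (hdiff : MDiff φ)
    (hbdd : ∀ γ : SL(2, ℤ), IsBoundedAtImInfty (φ ∣[κ] γ)) :
    ∃ g : CuspForm (Gamma0 N) κ', ⇑g = φ * ModularForm.discriminant := by
  subst hκ
  have hΔ : ∀ γ : SL(2, ℤ),
      ModularForm.discriminant ∣[(12 : ℤ)] γ = ModularForm.discriminant := fun γ =>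
    slash_action_generators_SL2Z discriminant_S_invariant discriminant_T_invariant γ
  have hslash : ∀ γ : SL(2, ℤ), (φ * ModularForm.discriminant) ∣[κ + 12] γ =
      (φ ∣[κ] γ) * ModularForm.discriminant := by
    intro γ
    rw [ModularForm.mul_slash_SL2, hΔ]
  refine ⟨{ toFun := φ * ModularForm.discriminant
            slash_action_eq' := ?_
            holo' := hdiff.mul CuspForm.discriminant.holo'
            zero_at_cusps' := ?_ }, rfl⟩
  · rintro _ ⟨γ, hγ, rfl⟩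
    show (φ * ModularForm.discriminant) ∣[κ + 12] γ = _
    rw [hslash, hinv γ hγ]
  · intro c hc
    rw [Subgroup.IsArithmetic.isCusp_iff_isCusp_SL2Z] at hc
    rw [OnePoint.isZeroAt_iff_forall_SL2Z hc]
    intro γ _
    show IsZeroAtImInfty ((φ * ModularForm.discriminant) ∣[κ + 12] γ)
    rw [hslash]
    exact (hbdd γ).mul_zeroAtFilter discriminant_isZeroAtImInfty

end cusp

section main

open Finset

/-- **B1-INTERP.** Relative Lagrange interpolation for `Γ₁(N) ⊆ Γ₀(N)`. -/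
theorem relInterp : Fermat.Agent.H20.DS.RelInterpStatement := by
  intro N _ w t ht
  classical
  have hle : ((Gamma0 N : Subgroup SL(2, ℤ)) : Subgroup (GL (Fin 2) ℝ)) ≤ 𝒮ℒ := by
    rintro _ ⟨γ, -, rfl⟩
    exact ⟨γ, rfl⟩
  have : ((Gamma1 N : Subgroup SL(2, ℤ)) : Subgroup (GL (Fin 2) ℝ)).IsFiniteRelIndex 𝒮ℒ :=
    inferInstance
  have : ((Gamma1 N : Subgroup SL(2, ℤ)) : Subgroup (GL (Fin 2) ℝ)).IsFiniteRelIndex
      ((Gamma0 N : Subgroup SL(2, ℤ)) : Subgroup (GL (Fin 2) ℝ)) :=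
    Subgroup.isFiniteRelIndex_of_le_right
      (H := ((Gamma1 N : Subgroup SL(2, ℤ)) : Subgroup (GL (Fin 2) ℝ))) hle
  let Q := ((Gamma0 N : Subgroup SL(2, ℤ)) : Subgroup (GL (Fin 2) ℝ)) ⧸
    (Subgroup.subgroupOf ((Gamma1 N : Subgroup SL(2, ℤ)) : Subgroup (GL (Fin 2) ℝ))
      ((Gamma0 N : Subgroup SL(2, ℤ)) : Subgroup (GL (Fin 2) ℝ)))
  let _ : Fintype Q := Fintype.ofFinite _
  have hP := denominator_ne_zero t ht
  refine ⟨Fintype.card Q,
    fun z : ℍ => (∏ l ∈ Finset.univ.erase (((1 : ((Gamma0 N : Subgroup SL(2, ℤ)) :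
      Subgroup (GL (Fin 2) ℝ))) : Q)), (t z - quotientFunc t l z)) * ModularForm.discriminant z,
    Fintype.card_pos_iff.mpr ⟨((1 : ((Gamma0 N : Subgroup SL(2, ℤ)) :
      Subgroup (GL (Fin 2) ℝ))) : Q)⟩, ?_, ?_⟩
  · intro h0
    apply hP
    funext z
    have := congrFun h0 z
    simp only [Pi.zero_apply, mul_eq_zero] at this
    rcases this with h | h
    · exact h
    · exact absurd h (ModularForm.discriminant_ne_zero z)
  · intro k f
    refine ⟨fun m => lagr (Fintype.card Q - 1 - m) (fun q : Q => quotientFunc f q)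
      (fun q : Q => quotientFunc t q) * ModularForm.discriminant, ?_, ?_⟩
    · intro m hm
      have hκ : k + w * ((Fintype.card Q : ℤ) - 1 - (m : ℤ)) =
          k + w * ((Fintype.card Q - 1 - m : ℕ) : ℤ) := by
        congr 2
        omega
      refine exists_cuspForm_mul_discriminant N (k + w * ((Fintype.card Q - 1 - m : ℕ) : ℤ)) _
        (by linear_combination hκ) _ ?_ ?_ ?_
      · intro γ hγ
        exact lagr_quotientFunc_slash f t _ _ rfl γ hγ
      · exact mdiff_lagr _ _ _ (fun q => mdiff_quotientFunc f q)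
          (fun q => mdiff_quotientFunc t q)
      · intro γ
        exact isBoundedAtImInfty_lagr_quotientFunc_slash f t _ _ rfl γ
    · funext z
      have h := lagr_identity (fun q : Q => quotientFunc f q) (fun q : Q => quotientFunc t q)
        ((1 : ((Gamma0 N : Subgroup SL(2, ℤ)) : Subgroup (GL (Fin 2) ℝ))) : Q) z
      simp only [quotientFunc_one] at h
      simp only [Pi.mul_apply, Finset.sum_apply, Pi.pow_apply]
      rw [← mul_assoc, h, Finset.sum_mul]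
      refine Finset.sum_congr rfl fun m _ => ?_
      ring

end main

end Fermat.Agent.H75.RelInterp
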