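/-
helper75 — P-CFT row 836 (H3-FIN), part 1: BRIDGE between explicit multiplicative 3-cocycles
`G × G × G → M` and Mathlib's `groupCohomology (Rep.ofMulDistribMulAction G M) 3`.

* `coch₃`, `fun₂`, `d₃_coch₃_apply`, `d₂_apply` : the differentials `d 3`, `d 2` of the
  inhomogeneous complex in multiplicative notation;
* `exists_cobound₃` : if `H³(G, M)` has no `p`-torsion, every multiplicative 3-cocycle with
  `c ^ p = 1` is the multiplicative coboundary of a 2-cochain.
-/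
import Mathlib
import Fermat.Agent.H19.Cft.HomologyApi

set_option autoImplicit false

open CategoryTheory groupCohomology

namespace Fermat.Agent.H75.H3Fin

open Fermat.Agent.H13.Cft Fermat.Agent.H19

section bridge

variable {G M : Type} [Group G] [CommGroup M] [MulDistribMulAction G M]

/-- The inhomogeneous 3-cochain of a multiplicative function on `G × G × G`. -/
def coch₃ (c : G × G × G → M) : (Fin 3 → G) → Rep.ofMulDistribMulAction G M :=
  fun x => Additive.ofMul (c (x 0, x 1, x 2))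

/-- The multiplicative function on `G × G` of an inhomogeneous 2-cochain. -/
def fun₂ (y : (Fin 2 → G) → Rep.ofMulDistribMulAction G M) : G × G → M :=
  fun x => Additive.toMul (y ![x.1, x.2])

lemma add5 {N : Type} [AddCommGroup N] [Module ℤ N] (a b c d e : N) :
    a + ((-1 : ℤ) • b + (1 : ℤ) • c + (-1 : ℤ) • d + (1 : ℤ) • e) = a + -b + c + -d + e := by
  simp only [one_smul]
  abel

lemma add4 {N : Type} [AddCommGroup N] [Module ℤ N] (a b c d : N) :
    a + ((-1 : ℤ) • b + (1 : ℤ) • c + (-1 : ℤ) • d) = a + -b + c + -d := by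
  simp only [one_smul]
  abel

lemma d₃_coch₃_apply (c : G × G × G → M) (g : Fin 4 → G) :
    (inhomogeneousCochains.d (Rep.ofMulDistribMulAction G M) 3).hom (coch₃ c) g =
      Additive.ofMul (g 0 • c (g 1, g 2, g 3) * (c (g 0 * g 1, g 2, g 3))⁻¹ *
        c (g 0, g 1 * g 2, g 3) * (c (g 0, g 1, g 2 * g 3))⁻¹ * c (g 0, g 1, g 2)) := by
  rw [inhomogeneousCochains.d_hom_apply, Fin.sum_univ_four]
  have e0 : coch₃ c (Fin.contractNth 0 (· * ·) g) = Additive.ofMul (c (g 0 * g 1, g 2, g 3)) :=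
    rfl
  have e1 : coch₃ c (Fin.contractNth 1 (· * ·) g) = Additive.ofMul (c (g 0, g 1 * g 2, g 3)) :=
    rfl
  have e2 : coch₃ c (Fin.contractNth 2 (· * ·) g) = Additive.ofMul (c (g 0, g 1, g 2 * g 3)) :=
    rfl
  have e3 : coch₃ c (Fin.contractNth 3 (· * ·) g) = Additive.ofMul (c (g 0, g 1, g 2)) :=
    rfl
  have es : coch₃ c (fun i => g i.succ) = Additive.ofMul (c (g 1, g 2, g 3)) := rfl
  have s0 : ((-1 : ℤ) ^ (((0 : Fin 4) : ℕ) + 1)) = -1 := rfl
  have s1 : ((-1 : ℤ) ^ (((1 : Fin 4) : ℕ) + 1)) = 1 := rfl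
  have s2 : ((-1 : ℤ) ^ (((2 : Fin 4) : ℕ) + 1)) = -1 := rfl
  have s3 : ((-1 : ℤ) ^ (((3 : Fin 4) : ℕ) + 1)) = 1 := rfl
  rw [e0, e1, e2, e3, es, s0, s1, s2, s3, Rep.ofMulDistribMulAction_ρ_apply_apply]
  simp only [ofMul_mul, ofMul_inv, toMul_ofMul]
  exact add5 _ _ _ _ _

lemma d₂_apply (y : (Fin 2 → G) → Rep.ofMulDistribMulAction G M) (g : Fin 3 → G) :
    (inhomogeneousCochains.d (Rep.ofMulDistribMulAction G M) 2).hom y g =
      Additive.ofMul (g 0 • fun₂ y (g 1, g 2) * (fun₂ y (g 0 * g 1, g 2))⁻¹ *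
        fun₂ y (g 0, g 1 * g 2) * (fun₂ y (g 0, g 1))⁻¹) := by
  rw [inhomogeneousCochains.d_hom_apply, Fin.sum_univ_three]
  have e0 : y (Fin.contractNth 0 (· * ·) g) = Additive.ofMul (fun₂ y (g 0 * g 1, g 2)) := by
    simp only [fun₂]
    congr 1
    funext i
    fin_cases i <;> rfl
  have e1 : y (Fin.contractNth 1 (· * ·) g) = Additive.ofMul (fun₂ y (g 0, g 1 * g 2)) := by
    simp only [fun₂]
    congr 1
    funext i
    fin_cases i <;> rfl
  have e2 : y (Fin.contractNth 2 (· * ·) g) = Additive.ofMul (fun₂ y (g 0, g 1)) := by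
    simp only [fun₂]
    congr 1
    funext i
    fin_cases i <;> rfl
  have es : y (fun i => g i.succ) = Additive.ofMul (fun₂ y (g 1, g 2)) := by
    simp only [fun₂]
    congr 1
    funext i
    fin_cases i <;> rfl
  have s0 : ((-1 : ℤ) ^ (((0 : Fin 3) : ℕ) + 1)) = -1 := rfl
  have s1 : ((-1 : ℤ) ^ (((1 : Fin 3) : ℕ) + 1)) = 1 := rfl
  have s2 : ((-1 : ℤ) ^ (((2 : Fin 3) : ℕ) + 1)) = -1 := rfl
  rw [e0, e1, e2, es, s0, s1, s2, Rep.ofMulDistribMulAction_ρ_apply_apply]
  simp only [ofMul_mul, ofMul_inv, toMul_ofMul]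
  exact add4 _ _ _ _

lemma comm5 {N : Type} [CommGroup N] (a b c d e : N) (h : a * b * c = d * e) :
    a * d⁻¹ * b * e⁻¹ * c = 1 := by
  have h1 : a * d⁻¹ * b * e⁻¹ * c = (a * b * c) * (d * e)⁻¹ := by
    rw [mul_inv]
    ac_rfl
  rw [h1, h, mul_inv_cancel]

lemma comm4 {N : Type} [CommGroup N] (a b x y : N) :
    a * x⁻¹ * b * y⁻¹ = a * b / (x * y) := by
  rw [div_eq_mul_inv, mul_inv]
  ac_rfl

/-- **Bridge in degree 3**: if `H³(G, M)` has no `p`-torsion, every multiplicative 3-cocycle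
with `c ^ p = 1` is a multiplicative coboundary. -/
theorem exists_cobound₃ (p : ℕ)
    (htors : ∀ x : groupCohomology (Rep.ofMulDistribMulAction G M) 3, p • x = 0 → x = 0)
    (c : G × G × G → M)
    (hcoc : ∀ g h j k : G,
      g • c (h, j, k) * c (g, h * j, k) * c (g, h, j) = c (g * h, j, k) * c (g, h, j * k))
    (hp : ∀ x, c x ^ p = 1) :
    ∃ b : G × G → M, ∀ g h j : G,
      g • b (h, j) * b (g, h * j) / (b (g * h, j) * b (g, h)) = c (g, h, j) := by
  let A := Rep.ofMulDistribMulAction G M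
  have hd : ((inhomogeneousCochains A).d 3 4).hom (coch₃ c) = 0 := by
    rw [inhomogeneousCochains.d_def]
    funext g
    rw [d₃_coch₃_apply]
    exact congrArg Additive.ofMul (comm5 _ _ _ _ _ (hcoc (g 0) (g 1) (g 2) (g 3)))
  have hx : p • hMk (inhomogeneousCochains A) 3 (coch₃ c) hd = 0 := by
    have hcx : ((inhomogeneousCochains A).d 3 4).hom
        ((p : ℤ) • (coch₃ c : ↑((inhomogeneousCochains A).X 3))) = 0 := by
      rw [map_smul, hd, smul_zero]
    have hpc : (p : ℤ) • (coch₃ c : ↑((inhomogeneousCochains A).X 3)) = 0 := by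
      funext g
      show (p : ℤ) • Additive.ofMul (c (g 0, g 1, g 2)) = 0
      rw [natCast_zsmul, ← ofMul_pow, hp]
      rfl
    rw [← Nat.cast_smul_eq_nsmul ℤ,
      ← hapi_hMk_smul (inhomogeneousCochains A) 3 (p : ℤ) (coch₃ c) hd hcx]
    exact (hapi_hMk_congr (inhomogeneousCochains A) 3 hpc hcx (by rw [map_zero])).trans
      (hapi_hMk_zero (inhomogeneousCochains A) 3 _)
  have h0 : hMk (inhomogeneousCochains A) 3 (coch₃ c) hd = 0 := htors _ hx
  obtain ⟨y, hy⟩ := (hapi_hMk_succ_eq_zero_iff (inhomogeneousCochains A) 2 (coch₃ c) hd).1 h0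
  refine ⟨fun₂ y, fun g h j => ?_⟩
  rw [inhomogeneousCochains.d_def] at hy
  have h1 := congrFun hy ![g, h, j]
  rw [d₂_apply] at h1
  have h2 := congrArg Additive.toMul h1
  rw [toMul_ofMul, comm4] at h2
  exact h2

end bridge

end Fermat.Agent.H75.H3Fin
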