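/-
helper75 — P-CFT row 836 (H3-FIN), part 2.

* `lvl3Finite` : every level 3-cocycle of `G_E` with values in `ℚ̄ˣ` is inflated from a finite
  Galois extension `F / E` (3-variable version of `H75.Inf2.lvl2Finite`);
* `h3FinToLvl : H3FinToLvlStatement` (= `H3TorsionStatement → H3GmStatement`).
-/
import Fermat.Agent.H78.CFT.LocalInvRows
import Fermat.Agent.H75.Inf2Tower
import Fermat.Agent.H75.H3FinBridge

set_option autoImplicit false
set_option synthInstance.maxHeartbeats 400000

namespace Fermat.Agent.H75.H3Fin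

open Fermat.Agent.H13.Cft Fermat.Agent.H78.CFT groupCohomology Fermat.Agent.H75.Inf2

attribute [local instance] isGalois_rat_Qb

/-- A function on `G × G × G` right-invariant under `N × N × N`, `N` of finite index, has
finite range. -/
lemma finite_range_of_invariant₃ {G : Type} [Group G] {M : Type} (N : Subgroup G)
    [N.FiniteIndex] (c : G × G × G → M)
    (hinv : ∀ g h j, ∀ n ∈ N, ∀ m ∈ N, ∀ l ∈ N, c (g * n, h * m, j * l) = c (g, h, j)) :
    (Set.range c).Finite := by
  have : Finite (G ⧸ N) := Subgroup.finite_quotient_of_finiteIndex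
  have hsub : Set.range c ⊆
      Set.range (fun q : (G ⧸ N) × (G ⧸ N) × (G ⧸ N) =>
        c (Quotient.out q.1, Quotient.out q.2.1, Quotient.out q.2.2)) := by
    rintro _ ⟨⟨g, h, j⟩, rfl⟩
    refine ⟨(QuotientGroup.mk g, QuotientGroup.mk h, QuotientGroup.mk j), ?_⟩
    have hg : g⁻¹ * Quotient.out (QuotientGroup.mk g : G ⧸ N) ∈ N := by
      rw [← QuotientGroup.eq]
      exact (QuotientGroup.out_eq' _).symm
    have hh : h⁻¹ * Quotient.out (QuotientGroup.mk h : G ⧸ N) ∈ N := by
      rw [← QuotientGroup.eq]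
      exact (QuotientGroup.out_eq' _).symm
    have hj : j⁻¹ * Quotient.out (QuotientGroup.mk j : G ⧸ N) ∈ N := by
      rw [← QuotientGroup.eq]
      exact (QuotientGroup.out_eq' _).symm
    have := hinv g h j _ hg _ hh _ hj
    simp only [mul_inv_cancel_left] at this
    exact this
  exact (Set.finite_range _).subset hsub

set_option maxHeartbeats 1000000 in
/-- **Finite level in degree 3**: every level 3-cocycle of `G_E` with values in `ℚ̄ˣ` is
inflated from a finite Galois extension `F / E`. -/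
theorem lvl3Finite (E : IntermediateField ℚ Qb)
    (c : E.fixingSubgroup × E.fixingSubgroup × E.fixingSubgroup → Qbˣ)
    (hlvl : IsLvlFun₃ (lvlE E) c) (hcoc : IsMulCocycle₃E E c) :
    ∃ (F : IntermediateField E Qb) (_ : FiniteDimensional E F) (_ : IsGalois E F)
      (c' : (F ≃ₐ[E] F) × (F ≃ₐ[E] F) × (F ≃ₐ[E] F) → Fˣ),
      (∀ σ τ υ ω : F ≃ₐ[E] F, σ • c' (τ, υ, ω) * c' (σ, τ * υ, ω) * c' (σ, τ, υ) =
        c' (σ * τ, υ, ω) * c' (σ, τ, υ * ω)) ∧
      ∀ g h j : E.fixingSubgroup,
        Units.map (algebraMap F Qb : F →* Qb) (c' (resEF E F g, resEF E F h, resEF E F j)) =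
          c (g, h, j) := by
  classical
  obtain ⟨N, ⟨hNn, hNf, F0, hF0, hF0N⟩, hinv⟩ := hlvl
  have hfin : (Set.range c).Finite := finite_range_of_invariant₃ N c hinv
  -- a finite generating set
  let b := Module.finBasis ℚ F0
  let T : Set Qb := (fun u : Qbˣ => (u : Qb)) '' Set.range c ∪ Set.range (fun i => (b i : Qb))
  have hT : T.Finite := (hfin.image _).union (Set.finite_range _)
  have : Finite T := hT
  let K0 : IntermediateField E Qb := IntermediateField.adjoin E T
  have hK0 : FiniteDimensional E K0 :=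
    IntermediateField.finiteDimensional_adjoin (fun x _ => Algebra.IsIntegral.isIntegral x)
  let F : IntermediateField E Qb := IntermediateField.normalClosure E K0 Qb
  have hFn : Normal E F := inferInstance
  have hFf : FiniteDimensional E F := inferInstance
  have hFg : IsGalois E F := ⟨⟩
  have hTF : ∀ x ∈ T, x ∈ F := fun x hx =>
    (IntermediateField.le_normalClosure K0) (IntermediateField.subset_adjoin E T hx)
  -- the kernel of restriction is contained in `N`
  have hker : ∀ g : E.fixingSubgroup, resEF E F g = 1 → g ∈ N := by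
    intro g hg
    apply hF0N
    rw [Subgroup.mem_comap, IntermediateField.mem_fixingSubgroup_iff]
    intro x hx
    have hb : ∀ i, (g : Qb ≃ₐ[ℚ] Qb) (b i : Qb) = b i := by
      intro i
      have := (resEF_eq_one_iff E F g).1 hg ⟨(b i : Qb), hTF _ (Or.inr ⟨i, rfl⟩)⟩
      exact this
    have hx' : (⟨x, hx⟩ : F0) = ∑ i, (b.repr ⟨x, hx⟩ i) • b i := (b.sum_repr _).symm
    have hx'' : x = ∑ i, (b.repr ⟨x, hx⟩ i) • (b i : Qb) := by
      have := congrArg (fun y : F0 => (y : Qb)) hx'
      simp only [IntermediateField.coe_sum, IntermediateField.coe_smul] at this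
      exact this
    rw [hx'']
    simp only [Subgroup.coe_subtype, map_sum, map_rat_smul, hb]
  -- lifts
  have hsurj := resEF_surjective E F
  let lift : (F ≃ₐ[E] F) → E.fixingSubgroup := Function.surjInv hsurj
  have hlift : ∀ σ, resEF E F (lift σ) = σ := Function.surjInv_eq hsurj
  have hval : ∀ p : E.fixingSubgroup × E.fixingSubgroup × E.fixingSubgroup,
      ((c p : Qbˣ) : Qb) ∈ F :=
    fun p => hTF _ (Or.inl ⟨c p, ⟨p, rfl⟩, rfl⟩)
  let c' : (F ≃ₐ[E] F) × (F ≃ₐ[E] F) × (F ≃ₐ[E] F) → Fˣ := fun p =>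
    unitOfMem F (c (lift p.1, lift p.2.1, lift p.2.2)) (hval _)
  have hcongr : ∀ g g' h h' j j' : E.fixingSubgroup, resEF E F g = resEF E F g' →
      resEF E F h = resEF E F h' → resEF E F j = resEF E F j' →
      c (g', h', j') = c (g, h, j) := by
    intro g g' h h' j j' hg hh hj
    have h1 : g⁻¹ * g' ∈ N := hker _ (by rw [map_mul, map_inv, hg, inv_mul_cancel])
    have h2 : h⁻¹ * h' ∈ N := hker _ (by rw [map_mul, map_inv, hh, inv_mul_cancel])
    have h3 : j⁻¹ * j' ∈ N := hker _ (by rw [map_mul, map_inv, hj, inv_mul_cancel])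
    have := hinv g h j _ h1 _ h2 _ h3
    simpa using this
  have hinfl : ∀ g h j : E.fixingSubgroup,
      Units.map (algebraMap F Qb : F →* Qb) (c' (resEF E F g, resEF E F h, resEF E F j)) =
        c (g, h, j) := by
    intro g h j
    simp only [c', map_unitOfMem]
    exact hcongr g _ h _ j _ (hlift _).symm (hlift _).symm (hlift _).symm
  refine ⟨F, hFf, hFg, c', ?_, hinfl⟩
  intro σ τ υ ω
  have hinj : Function.Injective (Units.map (algebraMap F Qb : F →* Qb)) :=
    Units.map_injective (algebraMap F Qb).injective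
  apply hinj
  have e1 : resEF E F (lift σ * lift τ) = σ * τ := by rw [map_mul, hlift, hlift]
  have e2 : resEF E F (lift τ * lift υ) = τ * υ := by rw [map_mul, hlift, hlift]
  have e3 : resEF E F (lift υ * lift ω) = υ * ω := by rw [map_mul, hlift, hlift]
  have a1 := hinfl (lift τ) (lift υ) (lift ω)
  have a2 := hinfl (lift σ) (lift τ * lift υ) (lift ω)
  have a3 := hinfl (lift σ) (lift τ) (lift υ)
  have a4 := hinfl (lift σ * lift τ) (lift υ) (lift ω)
  have a5 := hinfl (lift σ) (lift τ) (lift υ * lift ω)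
  rw [hlift, hlift, hlift] at a1 a3
  rw [hlift, e2, hlift] at a2
  rw [e1, hlift, hlift] at a4
  rw [hlift, hlift, e3] at a5
  have a6 : Units.map (algebraMap F Qb : F →* Qb) (σ • c' (τ, υ, ω)) =
      actU (lift σ : Qb ≃ₐ[ℚ] Qb) (c (lift τ, lift υ, lift ω)) := by
    rw [← a1]
    apply Units.ext
    show ((σ (c' (τ, υ, ω) : F) : F) : Qb) = (lift σ : Qb ≃ₐ[ℚ] Qb) ((c' (τ, υ, ω) : F) : Qb)
    rw [← resEF_apply, hlift]
  rw [map_mul, map_mul, map_mul, a6, a2, a3, a4, a5]
  exact hcoc (lift σ) (lift τ) (lift υ) (lift ω)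

set_option maxHeartbeats 1000000 in
/-- **[H3-FIN]** (row 836). -/
theorem h3FinToLvl : H3FinToLvlStatement := by
  intro htors p _ q _ E hE c hlvl hcoc hpow
  obtain ⟨F, hFf, hFg, c', hcoc', hinfl⟩ := lvl3Finite E c hlvl hcoc
  have hinj : Function.Injective (Units.map (algebraMap F Qb : F →* Qb)) :=
    Units.map_injective (algebraMap F Qb).injective
  have hsurj := resEF_surjective E F
  have hpow' : ∀ x, c' x ^ p = 1 := by
    rintro ⟨σ, τ, υ⟩
    obtain ⟨g, rfl⟩ := hsurj σ
    obtain ⟨h, rfl⟩ := hsurj τ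
    obtain ⟨j, rfl⟩ := hsurj υ
    apply hinj
    rw [map_pow, hinfl, hpow, map_one]
  obtain ⟨b', hb'⟩ := exists_cobound₃ p (htors p q E hE F) c' hcoc' hpow'
  refine ⟨inflE E F b', ⟨(resEF E F).ker, ker_resEF_mem_lvl E F, ?_⟩, ?_⟩
  · intro g h n hn m hm
    simp only [inflE, map_mul, MonoidHom.mem_ker.1 hn, MonoidHom.mem_ker.1 hm, mul_one]
  · rintro ⟨g, h, j⟩
    rw [← hinfl, ← hb' (resEF E F g) (resEF E F h) (resEF E F j)]
    have a6 : actU (g : Qb ≃ₐ[ℚ] Qb) (inflE E F b' (h, j)) =
        Units.map (algebraMap F Qb : F →* Qb) (resEF E F g • b' (resEF E F h, resEF E F j)) := by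
      apply Units.ext
      show (g : Qb ≃ₐ[ℚ] Qb) ((b' (resEF E F h, resEF E F j) : F) : Qb) =
        ((resEF E F g (b' (resEF E F h, resEF E F j) : F) : F) : Qb)
      rw [resEF_apply]
    simp only [mulD₂E, map_div, map_mul]
    rw [a6]
    simp only [inflE, map_mul]

end Fermat.Agent.H75.H3Fin
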