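/-
helper75 — P-CFT rows 835 + 836 combined: `H3GmStatement` from Tate's theorem for `p`-group
extensions of local fields.
-/
import Fermat.Agent.H75.H3Fin
import Fermat.Agent.H75.H3Sylow

set_option autoImplicit false

namespace Fermat.Agent.H75.H3Fin

open Fermat.Agent.H78.CFT

/-- `H³_lvl(G_E, ℚ̄ˣ)[p] = 0` from `H³(Gal(F/K), Fˣ) = 0` for `p`-group extensions. -/
theorem h3Gm_of_tate (hT : TateLocalAbsStatement) : H3GmStatement :=
  h3FinToLvl (Fermat.Agent.H75.H3Syl.h3Torsion hT)

end Fermat.Agent.H75.H3Fin
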