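import Mathlib

/-!
# The trace form of a finite-dimensional commutative algebra kills the nilradical

For a finite-dimensional commutative algebra `A` over a field `κ` with basis `b`, the Gram matrix
`Algebra.traceMatrix κ b` of the trace form has rank at most `dim A - dim nilradical A`.  If `κ`
is algebraically closed this is the number of maximal ideals of `A`.
(Used for local discriminant bounds: Riemann-Hurwitz via discriminants.)
-/

set_option autoImplicit false

namespace Fermat.Agent.H75

open Matrix Module

variable {κ A : Type*} [Field κ] [CommRing A] [Algebra κ A]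
variable {ι : Type*} [Fintype ι] [DecidableEq ι]

/-- `Tr (x * y) = 0` for nilpotent `x` (over a field, or any reduced base ring). -/
theorem tracerank_trace_mul_eq_zero {x : A} (hx : IsNilpotent x) (y : A) :
    Algebra.trace κ A (x * y) = 0 :=
  (Algebra.isNilpotent_trace_of_isNilpotent (R := κ)
    ((Commute.all x y).isNilpotent_mul_right hx)).eq_zero

/-- The coordinates of a nilpotent element lie in the kernel of the trace matrix. -/
theorem tracerank_mulVec_eq_zero (b : Basis ι κ A) {x : A} (hx : IsNilpotent x) :
    Algebra.traceMatrix κ b *ᵥ b.equivFun x = 0 := by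
  rw [Algebra.traceMatrix_of_basis_mulVec]
  funext i
  exact tracerank_trace_mul_eq_zero hx (b i)

/-- **Rank bound**: `rank (Tr (b i * b j)) + dim (nilradical A) ≤ dim A`. -/
theorem traceMatrix_rank_add_finrank_nilradical_le (b : Basis ι κ A) :
    (Algebra.traceMatrix κ b).rank + finrank κ ((nilradical A).restrictScalars κ)
      ≤ Fintype.card ι := by
  classical
  set G := Algebra.traceMatrix κ b
  have hrn : finrank κ (LinearMap.range G.mulVecLin) + finrank κ (LinearMap.ker G.mulVecLin)
      = Fintype.card ι := by
    rw [LinearMap.finrank_range_add_finrank_ker, finrank_pi]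
  -- the nilradical embeds in the kernel
  let Φ : ((nilradical A).restrictScalars κ) →ₗ[κ] LinearMap.ker G.mulVecLin :=
    LinearMap.codRestrict _ ((b.equivFun : A →ₗ[κ] (ι → κ)).comp
      (Submodule.subtype ((nilradical A).restrictScalars κ))) (by
        rintro ⟨x, hx⟩
        rw [LinearMap.mem_ker, Matrix.mulVecLin_apply]
        exact tracerank_mulVec_eq_zero b (mem_nilradical.mp hx))
  have hΦ : Function.Injective Φ := by
    intro x y hxy
    have := congrArg Subtype.val hxy
    simp only [Φ, LinearMap.codRestrict_apply, LinearMap.comp_apply, Submodule.subtype_apply,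
      LinearEquiv.coe_coe] at this
    exact Subtype.ext (b.equivFun.injective this)
  have hle := LinearMap.finrank_le_finrank_of_injective hΦ
  have : G.rank = finrank κ (LinearMap.range G.mulVecLin) := rfl
  omega

/-- Over an algebraically closed field, `dim (A / nilradical A)` is the number of maximal
ideals. -/
theorem finrank_quot_nilradical_eq_card [IsAlgClosed κ] [FiniteDimensional κ A] :
    finrank κ (A ⧸ nilradical A) = Nat.card (MaximalSpectrum A) := by
  classical
  haveI : IsArtinianRing A := IsArtinianRing.of_finite κ A
  haveI : Fintype (MaximalSpectrum A) := Fintype.ofFinite _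
  let e := (IsArtinianRing.quotNilradicalEquivPi A).restrictScalars κ
  rw [LinearEquiv.finrank_eq e.toLinearEquiv, finrank_pi_fintype, Nat.card_eq_fintype_card]
  have h1 : ∀ I : MaximalSpectrum A, finrank κ (A ⧸ I.asIdeal) = 1 := by
    intro I
    letI : Field (A ⧸ I.asIdeal) := Ideal.Quotient.field I.asIdeal
    haveI : FiniteDimensional κ (A ⧸ I.asIdeal) :=
      Module.Finite.of_surjective (Ideal.Quotient.mkₐ κ I.asIdeal).toLinearMap
        (Ideal.Quotient.mkₐ_surjective κ I.asIdeal)
    have hb : Function.Bijective (algebraMap κ (A ⧸ I.asIdeal)) :=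
      IsAlgClosed.algebraMap_bijective_of_isIntegral
    have : (⊥ : Subalgebra κ (A ⧸ I.asIdeal)) = ⊤ := by
      rw [eq_top_iff]
      intro x _
      obtain ⟨c, hc⟩ := hb.2 x
      exact Algebra.mem_bot.mpr ⟨c, hc⟩
    exact Subalgebra.bot_eq_top_iff_finrank_eq_one.mp this
  simp [h1]

/-- **Trace rank ≤ number of maximal ideals** (algebraically closed base field). -/
theorem traceMatrix_rank_le_card_maximalSpectrum [IsAlgClosed κ] (b : Basis ι κ A) :
    (Algebra.traceMatrix κ b).rank ≤ Nat.card (MaximalSpectrum A) := by
  haveI : FiniteDimensional κ A := Module.Finite.of_basis b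
  have h1 := traceMatrix_rank_add_finrank_nilradical_le b
  have h2 : finrank κ (A ⧸ nilradical A) + finrank κ ((nilradical A).restrictScalars κ)
      = finrank κ A :=
    Submodule.finrank_quotient_add_finrank ((nilradical A).restrictScalars κ)
  have h3 : finrank κ A = Fintype.card ι := Module.finrank_eq_card_basis b
  rw [finrank_quot_nilradical_eq_card] at h2
  omega

end Fermat.Agent.H75
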