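import Fermat.Agent.H75.DetRank
import Fermat.Agent.H75.TraceRank

/-!
# Local discriminant bound (abstract form)

`A → B` free of finite rank with basis `u`, `φ : A → κ` a surjection onto an algebraically
closed field with `ker φ = t A`, `ψ : B → C` a surjection onto a `κ`-algebra with kernel `t B`,
semilinear over `φ`.  Then `t ^ (n - s) ∣ discr A u`, where `s` is the number of maximal ideals
of `C = B / t B`.
-/

set_option autoImplicit false

namespace Fermat.Agent.H75

open Matrix Module

variable {A B κ C : Type*} [CommRing A] [CommRing B] [Algebra A B] [Field κ]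
  [CommRing C] [Algebra κ C]
variable {ι : Type*} [Fintype ι] [DecidableEq ι]

/-- The reduction of a basis is a basis of the reduction. -/
noncomputable def localdiscrBasis (u : Basis ι A B) (φ : A →+* κ) (hφ : Function.Surjective φ)
    (t : A) (hker : ∀ x, φ x = 0 → t ∣ x) (ht : φ t = 0)
    (ψ : B →+* C) (hψ : Function.Surjective ψ) (hcompat : ∀ (a : A) (b : B), ψ (a • b) = φ a • ψ b)
    (hkerψ : ∀ b, ψ b = 0 → ∃ b', b = t • b') : Basis ι κ C :=
  Basis.mk (v := fun i => ψ (u i))
    (by
      rw [Fintype.linearIndependent_iff]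
      intro c hc i
      choose a ha using fun i => hφ (c i)
      have h1 : ψ (∑ i, a i • u i) = 0 := by
        rw [map_sum, ← hc]
        refine Finset.sum_congr rfl fun i _ => ?_
        rw [hcompat, ha]
      obtain ⟨b', hb'⟩ := hkerψ _ h1
      have h2 : a i = t * u.repr b' i := by
        have := congrArg (fun x => u.repr x i) hb'
        simp only [map_sum, map_smul, Finsupp.coe_finset_sum, Finsupp.coe_smul, Finset.sum_apply,
          Pi.smul_apply, Basis.repr_self, smul_eq_mul, Finsupp.single_apply, mul_ite, mul_one,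
          mul_zero, Finset.sum_ite_eq', Finset.mem_univ, if_true] at this
        exact this
      rw [← ha i, h2, map_mul, ht, zero_mul])
    (by
      rintro x -
      obtain ⟨b, rfl⟩ := hψ x
      rw [← u.sum_repr b, map_sum]
      refine Submodule.sum_mem _ fun i _ => ?_
      rw [hcompat]
      exact Submodule.smul_mem _ _ (Submodule.subset_span ⟨i, rfl⟩))

theorem localdiscrBasis_apply (u : Basis ι A B) (φ : A →+* κ) (hφ : Function.Surjective φ)
    (t : A) (hker : ∀ x, φ x = 0 → t ∣ x) (ht : φ t = 0)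
    (ψ : B →+* C) (hψ : Function.Surjective ψ) (hcompat : ∀ (a : A) (b : B), ψ (a • b) = φ a • ψ b)
    (hkerψ : ∀ b, ψ b = 0 → ∃ b', b = t • b') (i : ι) :
    localdiscrBasis u φ hφ t hker ht ψ hψ hcompat hkerψ i = ψ (u i) := by
  simp [localdiscrBasis]

theorem localdiscrBasis_repr (u : Basis ι A B) (φ : A →+* κ) (hφ : Function.Surjective φ)
    (t : A) (hker : ∀ x, φ x = 0 → t ∣ x) (ht : φ t = 0)
    (ψ : B →+* C) (hψ : Function.Surjective ψ) (hcompat : ∀ (a : A) (b : B), ψ (a • b) = φ a • ψ b)
    (hkerψ : ∀ b, ψ b = 0 → ∃ b', b = t • b') (x : B) (i : ι) :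
    (localdiscrBasis u φ hφ t hker ht ψ hψ hcompat hkerψ).repr (ψ x) i = φ (u.repr x i) := by
  set ū := localdiscrBasis u φ hφ t hker ht ψ hψ hcompat hkerψ
  have hx : ψ x = ∑ j, φ (u.repr x j) • ū j := by
    conv_lhs => rw [← u.sum_repr x]
    rw [map_sum]
    refine Finset.sum_congr rfl fun j _ => ?_
    rw [hcompat, localdiscrBasis_apply]
  rw [hx]
  simp [Finsupp.single_apply]

/-- The trace matrix of the reduced basis is the reduction of the trace matrix. -/
theorem localdiscr_traceMatrix (u : Basis ι A B) (φ : A →+* κ) (hφ : Function.Surjective φ)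
    (t : A) (hker : ∀ x, φ x = 0 → t ∣ x) (ht : φ t = 0)
    (ψ : B →+* C) (hψ : Function.Surjective ψ) (hcompat : ∀ (a : A) (b : B), ψ (a • b) = φ a • ψ b)
    (hkerψ : ∀ b, ψ b = 0 → ∃ b', b = t • b') :
    Algebra.traceMatrix κ (localdiscrBasis u φ hφ t hker ht ψ hψ hcompat hkerψ)
      = (Algebra.traceMatrix A u).map φ := by
  set ū := localdiscrBasis u φ hφ t hker ht ψ hψ hcompat hkerψ
  have htr : ∀ x : B, Algebra.trace κ C (ψ x) = φ (Algebra.trace A B x) := by
    intro x
    rw [Algebra.trace_eq_matrix_trace ū, Algebra.trace_eq_matrix_trace u, Matrix.trace,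
      Matrix.trace, map_sum]
    refine Finset.sum_congr rfl fun i _ => ?_
    simp only [Matrix.diag_apply, Algebra.leftMulMatrix_apply, LinearMap.toMatrix_apply,
      Algebra.coe_lmul_eq_mul, LinearMap.mul_apply']
    rw [show ū i = ψ (u i) from localdiscrBasis_apply _ _ _ _ _ _ _ _ _ _ _, ← map_mul]
    exact localdiscrBasis_repr _ _ _ _ _ _ _ _ _ _ _ _
  ext i j
  simp only [Algebra.traceMatrix_apply, Algebra.traceForm_apply, Matrix.map_apply]
  rw [show ū i = ψ (u i) from localdiscrBasis_apply _ _ _ _ _ _ _ _ _ _ _,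
    show ū j = ψ (u j) from localdiscrBasis_apply _ _ _ _ _ _ _ _ _ _ _, ← map_mul, htr]

/-- **Local discriminant bound, abstract form.** -/
theorem pow_dvd_discr_of_reduction [IsAlgClosed κ] (u : Basis ι A B) (φ : A →+* κ)
    (hφ : Function.Surjective φ)
    (t : A) (hker : ∀ x, φ x = 0 → t ∣ x) (ht : φ t = 0)
    (ψ : B →+* C) (hψ : Function.Surjective ψ) (hcompat : ∀ (a : A) (b : B), ψ (a • b) = φ a • ψ b)
    (hkerψ : ∀ b, ψ b = 0 → ∃ b', b = t • b') :
    t ^ (Fintype.card ι - Nat.card (MaximalSpectrum C)) ∣ Algebra.discr A u := by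
  have h1 := traceMatrix_rank_le_card_maximalSpectrum
    (localdiscrBasis u φ hφ t hker ht ψ hψ hcompat hkerψ)
  rw [localdiscr_traceMatrix] at h1
  exact pow_dvd_det_of_rank_map_le φ hφ t hker _ _ h1

end Fermat.Agent.H75
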