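import Fermat.Agent.H75.RHLocalDiscrBasic
import Fermat.Agent.H75.RHCorankTrace
import Fermat.Agent.H47.RH.LocalDiscrCore

/-!
# ES-D-A4 (Hurwitz), block (LD): the local discriminant statement

`localDiscr : Fermat.Agent.H56.RH.LocalDiscrStatement`, assembled from
`Fermat.Agent.H75.localDiscrBasic` (conjuncts 1-3) and the tame core
`Fermat.Agent.H47.RH.not_pow_succ_dvd_det_traceMatrix` of helper47.
-/

set_option autoImplicit false

namespace Fermat.Agent.H75

open IsDedekindDomain Module Fermat.Agent.H56.RH

attribute [local instance] Ideal.Quotient.field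
attribute [local instance] FractionRing.liftAlgebra FractionRing.isScalarTower_liftAlgebra

section Sep

variable (A E F B : Type) [CommRing A] [IsDomain A] [Field E] [Algebra A E] [IsFractionRing A E]
    [Field F] [Algebra E F] [Algebra A F] [IsScalarTower A E F] [FiniteDimensional E F]
    [Algebra.IsSeparable E F] [CommRing B] [IsDomain B] [Algebra A B]
    [Algebra B F] [IsScalarTower A B F] [IsIntegralClosure B A F]
    [Module.IsTorsionFree A B]

include E F in
/-- Separability transported to the canonical fraction rings. -/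
theorem rhld_isSeparable_fractionRing :
    Algebra.IsSeparable (FractionRing A) (FractionRing B) := by
  haveI : IsFractionRing B F := IsIntegralClosure.isFractionRing_of_finite_extension A E F B
  let e₁ : E ≃+* FractionRing A := (FractionRing.algEquiv A E).symm.toRingEquiv
  let e₂ : F ≃+* FractionRing B := (FractionRing.algEquiv B F).symm.toRingEquiv
  refine Algebra.IsSeparable.of_equiv_equiv e₁ e₂ ?_
  apply IsLocalization.ringHom_ext (nonZeroDivisors A)
  ext a
  simp only [RingHom.comp_apply]
  have h1 : (e₁ : E →+* FractionRing A) (algebraMap A E a) = algebraMap A (FractionRing A) a :=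
    (FractionRing.algEquiv A E).symm.commutes a
  have h2 : algebraMap E F (algebraMap A E a) = algebraMap B F (algebraMap A B a) := by
    rw [← IsScalarTower.algebraMap_apply A E F, ← IsScalarTower.algebraMap_apply A B F]
  have h3 : (e₂ : F →+* FractionRing B) (algebraMap B F (algebraMap A B a))
      = algebraMap B (FractionRing B) (algebraMap A B a) :=
    (FractionRing.algEquiv B F).symm.commutes _
  rw [h1, h2, h3, ← IsScalarTower.algebraMap_apply A (FractionRing A) (FractionRing B),
    ← IsScalarTower.algebraMap_apply A B (FractionRing B)]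

end Sep

section Surj

variable (K A B : Type) [Field K] [IsAlgClosed K] [CommRing A] [IsDomain A]
    [IsPrincipalIdealRing A] [Algebra K A] [CommRing B] [IsDedekindDomain B] [Algebra A B]

/-- `A → B / q` is surjective for every prime `q` over `(t)` (residue degree one). -/
theorem rhld_surjective_quotient (t : A) (ht : Prime t)
    (hK : Function.Bijective (fun c : K => Ideal.Quotient.mk (Ideal.span {t}) (algebraMap K A c)))
    (hinj : Function.Injective (algebraMap A B))
    {n : ℕ} (u : Basis (Fin n) A B)
    (q : Ideal B) [q.IsPrime] [q.LiesOver (Ideal.span {t})] :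
    Function.Surjective (algebraMap A (B ⧸ q)) := by
  have hp0 : (Ideal.span {t} : Ideal A) ≠ ⊥ := by
    rw [Ne, Ideal.span_singleton_eq_bot]; exact ht.ne_zero
  haveI hpm : (Ideal.span {t} : Ideal A).IsMaximal :=
    PrincipalIdealRing.isMaximal_of_irreducible ht.irreducible
  haveI : Module.Finite A B := Module.Finite.of_basis u
  haveI : FaithfulSMul A B := (faithfulSMul_iff_algebraMap_injective A B).mpr hinj
  have hq0 : q ≠ ⊥ := Ideal.ne_bot_of_liesOver_of_ne_bot hp0 q
  haveI : q.IsMaximal := Ideal.IsPrime.isMaximal inferInstance hq0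
  letI : Field (B ⧸ q) := Ideal.Quotient.field _
  let e : K ≃+* (A ⧸ Ideal.span {t}) :=
    RingEquiv.ofBijective ((Ideal.Quotient.mk (Ideal.span {t})).comp (algebraMap K A)) hK
  haveI : IsAlgClosed (A ⧸ Ideal.span {t}) := IsAlgClosed.of_ringEquiv K _ e
  haveI : Module.Finite (A ⧸ Ideal.span {t}) (B ⧸ q) := inferInstance
  have hb : Function.Bijective (algebraMap (A ⧸ Ideal.span {t}) (B ⧸ q)) :=
    IsAlgClosed.algebraMap_bijective_of_isIntegral
  intro x
  obtain ⟨c, hc⟩ := hb.2 x
  obtain ⟨a, rfl⟩ := Ideal.Quotient.mk_surjective c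
  exact ⟨a, by rw [← hc]; rfl⟩

end Surj


section Final

/-- `expAt` is the (old style) ramification index. -/
theorem rhld_ramificationIdx'_eq {A B : Type} [CommRing A] [IsDomain A]
    [IsPrincipalIdealRing A] [CommRing B] [IsDedekindDomain B] [Algebra A B]
    [Module.IsTorsionFree A B]
    (t : A) (ht : Prime t) (hinj : Function.Injective (algebraMap A B))
    (P : HeightOneSpectrum B) (hP : algebraMap A B t ∈ P.asIdeal) :
    (Ideal.span {t} : Ideal A).ramificationIdx' P.asIdeal = expAt t P := by
  have hp0 : (Ideal.span {t} : Ideal A) ≠ ⊥ := by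
    rw [Ne, Ideal.span_singleton_eq_bot]; exact ht.ne_zero
  haveI := rhld_liesOver_of_mem A B t ht P hP
  haveI := P.isPrime
  rw [Ideal.ramificationIdx'_eq_ramificationIdx (Ideal.span {t}) P.asIdeal hp0]
  exact rhld_ramificationIdx_eq A B t ht hinj P

/-- **(LD) local discriminant statement.** -/
theorem localDiscr : LocalDiscrStatement := by
  classical
  intro K A E F B _ _ _ _ _ _ _ _ _ _ _ _ _ _ _ _ _ _ _ _ _ _ t ht hK n u
  obtain ⟨h1, h2, h3⟩ := localDiscrBasic K A E F B t ht hK n u
  refine ⟨h1, h2, h3, fun htame => le_antisymm h3 ?_⟩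
  have hinj : Function.Injective (algebraMap A B) := rhld_algebraMap_injective A E F B
  have ht0 : algebraMap A B t ≠ 0 := by
    rw [Ne, map_eq_zero_iff _ hinj]; exact ht.ne_zero
  have hp0 : (Ideal.span {t} : Ideal A) ≠ ⊥ := by
    rw [Ne, Ideal.span_singleton_eq_bot]; exact ht.ne_zero
  haveI hpm : (Ideal.span {t} : Ideal A).IsMaximal :=
    PrincipalIdealRing.isMaximal_of_irreducible ht.irreducible
  haveI : Module.Finite A B := Module.Finite.of_basis u
  haveI : Module.Free A B := Module.Free.of_basis u
  haveI : FaithfulSMul A B := (faithfulSMul_iff_algebraMap_injective A B).mpr hinj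
  haveI : Module.IsTorsionFree A B := inferInstance
  haveI : Algebra.IsSeparable (FractionRing A) (FractionRing B) :=
    rhld_isSeparable_fractionRing A E F B
  have hsurj : ∀ P ∈ IsDedekindDomain.primesOverFinset (Ideal.span {t} : Ideal A) B,
      Function.Surjective (algebraMap A (B ⧸ P)) := by
    intro P hP
    obtain ⟨hPmax, hPover⟩ :=
      Fermat.Agent.H47.RH.isMaximal_of_mem_primesOverFinset (Ideal.span {t}) hp0 hP
    haveI := hPmax.isPrime
    haveI := hPover
    exact rhld_surjective_quotient K A B t ht hK hinj u P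
  have hCD : ∀ (c : ℕ) (M : Matrix (Fin n) (Fin n) A),
      (M.map (Ideal.Quotient.mk (Ideal.span {t}))).rank + c ≤ n → t ^ c ∣ M.det := by
    intro c M h
    exact corankDet (A ⧸ (Ideal.span {t} : Ideal A)) A (Ideal.Quotient.mk (Ideal.span {t})) t
      Ideal.Quotient.mk_surjective
      (fun a => by rw [Ideal.Quotient.eq_zero_iff_mem, Ideal.mem_span_singleton]) n c M h
  -- the bijection between primes over `t` and height one primes containing `t`
  have hmemP : ∀ P : HeightOneSpectrum B, algebraMap A B t ∈ P.asIdeal →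
      P.asIdeal ∈ IsDedekindDomain.primesOverFinset (Ideal.span {t} : Ideal A) B := by
    intro P hP
    rw [IsDedekindDomain.mem_primesOverFinset_iff hp0 B]
    exact ⟨P.isPrime, rhld_liesOver_of_mem A B t ht P hP⟩
  have hmemQ : ∀ Q ∈ IsDedekindDomain.primesOverFinset (Ideal.span {t} : Ideal A) B,
      ∃ P : HeightOneSpectrum B, P.asIdeal = Q ∧ algebraMap A B t ∈ P.asIdeal := by
    intro Q hQ
    obtain ⟨hQmax, hQover⟩ :=
      Fermat.Agent.H47.RH.isMaximal_of_mem_primesOverFinset (Ideal.span {t}) hp0 hQ
    have htQ : algebraMap A B t ∈ Q := by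
      have h1 : t ∈ Q.under A := by
        rw [← hQover.over]; exact Ideal.mem_span_singleton_self t
      exact h1
    refine ⟨⟨Q, hQmax.isPrime, ?_⟩, rfl, htQ⟩
    rintro rfl
    exact ht0 ((Ideal.mem_bot).mp htQ)
  have htame' : ∀ P ∈ IsDedekindDomain.primesOverFinset (Ideal.span {t} : Ideal A) B,
      (((Ideal.span {t} : Ideal A).ramificationIdx' P : ℕ) : A ⧸ (Ideal.span {t} : Ideal A)) ≠ 0 := by
    intro Q hQ
    obtain ⟨P, rfl, hP⟩ := hmemQ Q hQ
    rw [rhld_ramificationIdx'_eq t ht hinj P hP]
    have hpos : 0 < expAt t P := (rhld_expAt_pos_iff t ht0 P).mpr hP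
    have h := htame P hpos
    intro h0
    apply h
    have hmap : ((Ideal.Quotient.mk (Ideal.span {t})).comp (algebraMap K A))
        ((expAt t P : ℕ) : K) = 0 := by
      rw [map_natCast]; exact h0
    exact (map_eq_zero_iff _ hK.1).mp hmap
  have hnot := Fermat.Agent.H47.RH.not_pow_succ_dvd_det_traceMatrix (Ideal.span {t}) t rfl hp0
    hsurj u hCD htame'
  have hdisc : Algebra.discr A u ≠ 0 := rhld_discr_ne_zero A E F B u
  have hfm : FiniteMultiplicity t (Algebra.discr A u) :=
    FiniteMultiplicity.of_not_isUnit ht.not_isUnit hdisc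
  have hmul : multiplicity t (Algebra.discr A u)
      ≤ n - (IsDedekindDomain.primesOverFinset (Ideal.span {t} : Ideal A) B).card := by
    rw [← Algebra.discr_def] at hnot
    have := hfm.multiplicity_lt_iff_not_dvd.mpr hnot
    omega
  refine le_trans hmul (le_of_eq ?_)
  rw [← Fermat.Agent.H47.RH.sum_ramificationIdx_sub_one_eq (Ideal.span {t}) hp0 hsurj u]
  rw [finsum_eq_sum_of_support_subset (s := h1.toFinset) _ (by
    intro P hP
    rw [Function.mem_support] at hP
    rw [Set.Finite.coe_toFinset]
    show 0 < expAt t P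
    omega)]
  symm
  refine Finset.sum_bij (fun P _ => P.asIdeal) ?_ ?_ ?_ ?_
  · intro P hP
    rw [Set.Finite.mem_toFinset] at hP
    have hP' : 0 < expAt t P := hP
    exact hmemP P ((rhld_expAt_pos_iff t ht0 P).mp hP')
  · intro P₁ _ P₂ _ h
    exact HeightOneSpectrum.ext h
  · intro Q hQ
    obtain ⟨P, rfl, hP⟩ := hmemQ Q hQ
    refine ⟨P, ?_, rfl⟩
    rw [Set.Finite.mem_toFinset]
    exact (rhld_expAt_pos_iff t ht0 P).mpr hP
  · intro P hP
    rw [Set.Finite.mem_toFinset] at hP
    have hP' : 0 < expAt t P := hP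
    rw [rhld_ramificationIdx'_eq t ht hinj P ((rhld_expAt_pos_iff t ht0 P).mp hP')]

end Final

end Fermat.Agent.H75
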