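import Fermat.Agent.H75.RHLocalDiscrBridge

/-!
# ES-D-A4 (Hurwitz), block (LD), basic half

The first three conjuncts of `Fermat.Agent.H56.RH.LocalDiscrStatement`:
finiteness of the primes over `t`, `∑ e_P = n`, and `∑ (e_P - 1) ≤ v_t (disc u)`.
-/

set_option autoImplicit false

namespace Fermat.Agent.H75

open IsDedekindDomain Module Fermat.Agent.H56.RH

section Card

variable {B : Type} [CommRing B] [IsDedekindDomain B]

/-- Maximal ideals of `B / (τ)` correspond to the height one primes containing `τ`. -/
theorem rhld_card_maximalSpectrum (τ : B) (hτ : τ ≠ 0) :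
    Nat.card (MaximalSpectrum (B ⧸ Ideal.span {τ}))
      = Nat.card {P : HeightOneSpectrum B // τ ∈ P.asIdeal} := by
  set I : Ideal B := Ideal.span {τ} with hI
  have hsurj : Function.Surjective (Ideal.Quotient.mk I) := Ideal.Quotient.mk_surjective
  have hmemI : τ ∈ I := Ideal.mem_span_singleton_self τ
  let f : MaximalSpectrum (B ⧸ I) → {P : HeightOneSpectrum B // τ ∈ P.asIdeal} := fun m =>
    ⟨⟨m.asIdeal.comap (Ideal.Quotient.mk I),
        (Ideal.comap_isMaximal_of_surjective _ hsurj (H := m.isMaximal)).isPrime, by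
          intro h0
          have h1 : τ ∈ m.asIdeal.comap (Ideal.Quotient.mk I) := by
            rw [Ideal.mem_comap, Ideal.Quotient.eq_zero_iff_mem.mpr hmemI]
            exact Ideal.zero_mem _
          rw [h0, Ideal.mem_bot] at h1
          exact hτ h1⟩, by
      show τ ∈ m.asIdeal.comap (Ideal.Quotient.mk I)
      rw [Ideal.mem_comap, Ideal.Quotient.eq_zero_iff_mem.mpr hmemI]
      exact Ideal.zero_mem _⟩
  have hf : Function.Bijective f := by
    constructor
    · intro m₁ m₂ h
      have h1 : m₁.asIdeal.comap (Ideal.Quotient.mk I) = m₂.asIdeal.comap (Ideal.Quotient.mk I) :=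
        congrArg (fun P => P.1.asIdeal) h
      exact MaximalSpectrum.ext (Ideal.comap_injective_of_surjective _ hsurj h1)
    · rintro ⟨P, hP⟩
      have hIP : I ≤ P.asIdeal := by
        rw [hI, Ideal.span_singleton_le_iff_mem]; exact hP
      have hPmax : P.asIdeal.IsMaximal := P.isMaximal
      have hker : RingHom.ker (Ideal.Quotient.mk I) ≤ P.asIdeal := by
        rw [Ideal.mk_ker]; exact hIP
      have hcm : (P.asIdeal.map (Ideal.Quotient.mk I)).comap (Ideal.Quotient.mk I) = P.asIdeal :=
        Ideal.comap_map_mk hIP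
      have hmax : (P.asIdeal.map (Ideal.Quotient.mk I)).IsMaximal := by
        rcases Ideal.map_eq_top_or_isMaximal_of_surjective _ hsurj hPmax with h | h
        · exfalso
          rw [h, Ideal.comap_top] at hcm
          exact hPmax.ne_top hcm.symm
        · exact h
      refine ⟨⟨_, hmax⟩, ?_⟩
      apply Subtype.ext
      apply HeightOneSpectrum.ext
      exact hcm
  exact Nat.card_congr (Equiv.ofBijective f hf)

end Card


section Main

variable (K A E F B : Type) [Field K] [IsAlgClosed K] [CommRing A] [IsDomain A]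
    [IsPrincipalIdealRing A] [Algebra K A] [Field E] [Algebra A E] [IsFractionRing A E]
    [Field F] [Algebra E F] [Algebra A F] [IsScalarTower A E F] [FiniteDimensional E F]
    [Algebra.IsSeparable E F] [CommRing B] [IsDomain B] [IsDedekindDomain B] [Algebra A B]
    [Algebra B F] [IsScalarTower A B F] [IsIntegralClosure B A F]

/-- `t ^ (n - s) ∣ disc u`, where `s` is the number of primes of `B` containing `t`. -/
theorem rhld_pow_dvd_discr (t : A) (ht : Prime t)
    (hK : Function.Bijective (fun c : K => Ideal.Quotient.mk (Ideal.span {t}) (algebraMap K A c)))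
    (hinj : Function.Injective (algebraMap A B))
    {n : ℕ} (u : Basis (Fin n) A B) :
    t ^ (n - Nat.card {P : HeightOneSpectrum B // algebraMap A B t ∈ P.asIdeal})
      ∣ Algebra.discr A u := by
  have ht0 : algebraMap A B t ≠ 0 := by
    rw [Ne, map_eq_zero_iff _ hinj]; exact ht.ne_zero
  letI : Algebra K B := ((algebraMap A B).comp (algebraMap K A)).toAlgebra
  set τ : B := algebraMap A B t with hτ
  have hcompat : ∀ (a : A) (b : B), Ideal.Quotient.mk (Ideal.span {τ}) (a • b)
      = rhldPhi t hK a • Ideal.Quotient.mk (Ideal.span {τ}) b := by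
    intro a b
    rw [Algebra.smul_def, Algebra.smul_def]
    have h1 : algebraMap K (B ⧸ Ideal.span {τ}) (rhldPhi t hK a)
        = Ideal.Quotient.mk (Ideal.span {τ}) (algebraMap A B (algebraMap K A (rhldPhi t hK a))) :=
      rfl
    rw [h1, ← map_mul, ← sub_eq_zero, ← map_sub, ← sub_mul, ← map_sub,
      Ideal.Quotient.eq_zero_iff_mem]
    obtain ⟨a', ha'⟩ := rhldPhi_sub_mem t hK a
    rw [ha', map_mul, mul_assoc]
    exact Ideal.mul_mem_right _ _ (Ideal.mem_span_singleton_self τ)
  have hkerψ : ∀ b : B, Ideal.Quotient.mk (Ideal.span {τ}) b = 0 → ∃ b', b = t • b' := by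
    intro b hb
    rw [Ideal.Quotient.eq_zero_iff_mem, Ideal.mem_span_singleton'] at hb
    obtain ⟨b', hb'⟩ := hb
    exact ⟨b', by rw [Algebra.smul_def, ← hb', mul_comm]⟩
  have h := pow_dvd_discr_of_reduction u (rhldPhi t hK) (rhldPhi_surjective t hK) t
    (fun x hx => (rhldPhi_eq_zero_iff t hK x).mp hx)
    ((rhldPhi_eq_zero_iff t hK t).mpr dvd_rfl)
    (Ideal.Quotient.mk (Ideal.span {τ})) Ideal.Quotient.mk_surjective hcompat hkerψ
  rw [Fintype.card_fin, rhld_card_maximalSpectrum τ ht0] at h
  exact h

include E F in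
/-- **(LD), basic half**: finiteness, `∑ e_P = n`, and the discriminant inequality. -/
theorem localDiscrBasic (t : A) (ht : Prime t)
    (hK : Function.Bijective (fun c : K => Ideal.Quotient.mk (Ideal.span {t}) (algebraMap K A c)))
    (n : ℕ) (u : Basis (Fin n) A B) :
    {P : HeightOneSpectrum B | 0 < expAt t P}.Finite ∧
      (∑ᶠ P : HeightOneSpectrum B, expAt t P) = n ∧
      (∑ᶠ P : HeightOneSpectrum B, (expAt t P - 1)) ≤ multiplicity t (Algebra.discr A u) := by
  classical
  have hinj : Function.Injective (algebraMap A B) := rhld_algebraMap_injective A E F B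
  have ht0 : algebraMap A B t ≠ 0 := by
    rw [Ne, map_eq_zero_iff _ hinj]; exact ht.ne_zero
  have hfin := rhld_finite A B t ht0
  have hsum := rhld_sum_expAt A B K t ht hK hinj u
  refine ⟨hfin, hsum, ?_⟩
  have hdvd := rhld_pow_dvd_discr K A B t ht hK hinj u
  have hdisc : Algebra.discr A u ≠ 0 := rhld_discr_ne_zero A E F B u
  have hfm : FiniteMultiplicity t (Algebra.discr A u) :=
    FiniteMultiplicity.of_not_isUnit ht.not_isUnit hdisc
  have hle := hfm.le_multiplicity_of_pow_dvd hdvd
  refine le_trans (le_of_eq ?_) hle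
  -- the counting identity
  have hcard : Nat.card {P : HeightOneSpectrum B // algebraMap A B t ∈ P.asIdeal}
      = hfin.toFinset.card := by
    rw [← Set.ncard_eq_toFinset_card _ hfin, ← Nat.card_coe_set_eq]
    apply Nat.card_congr
    exact Equiv.subtypeEquivRight fun P => (rhld_expAt_pos_iff t ht0 P).symm
  have hs1 : (∑ᶠ P : HeightOneSpectrum B, expAt t P) = ∑ P ∈ hfin.toFinset, expAt t P :=
    finsum_eq_sum_of_support_subset _ (by
      intro P hP
      rw [Function.mem_support] at hP
      rw [Set.Finite.coe_toFinset]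
      show 0 < expAt t P
      omega)
  have hs2 : (∑ᶠ P : HeightOneSpectrum B, (expAt t P - 1))
      = ∑ P ∈ hfin.toFinset, (expAt t P - 1) :=
    finsum_eq_sum_of_support_subset _ (by
      intro P hP
      rw [Function.mem_support] at hP
      rw [Set.Finite.coe_toFinset]
      show 0 < expAt t P
      omega)
  have hs3 : ∑ P ∈ hfin.toFinset, (expAt t P - 1) + hfin.toFinset.card
      = ∑ P ∈ hfin.toFinset, expAt t P := by
    rw [Finset.card_eq_sum_ones, ← Finset.sum_add_distrib]
    refine Finset.sum_congr rfl fun P hP => ?_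
    rw [Set.Finite.mem_toFinset] at hP
    have : 0 < expAt t P := hP
    omega
  rw [hs2, hcard]
  rw [hs1] at hsum
  omega

end Main

end Fermat.Agent.H75
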