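import Fermat.Agent.H56.RH.Interfaces
import Fermat.Agent.H75.LocalDiscr

/-!
# ES-D-A4 (Hurwitz), block (LD), basic half

Bridge lemmas for the first three conjuncts of `Fermat.Agent.H56.RH.LocalDiscrStatement`:
finiteness of the primes over `t`, `∑ e_P = n`, and `∑ (e_P - 1) ≤ v_t (disc u)`.
-/

set_option autoImplicit false

namespace Fermat.Agent.H75

open IsDedekindDomain Module Fermat.Agent.H56.RH

section Bridge

variable {A B : Type} [CommRing A] [CommRing B] [IsDedekindDomain B] [Algebra A B]

/-- `expAt t P` is the multiplicity of `P` in the ideal `(t)` of `B`. -/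
theorem rhld_expAt_eq_multiplicity (t : A) (ht0 : algebraMap A B t ≠ 0)
    (P : HeightOneSpectrum B) :
    expAt t P = multiplicity P.asIdeal (Ideal.span {algebraMap A B t}) := by
  unfold expAt
  rw [P.intValuation_eq_exp_neg_multiplicity ht0, WithZero.log_exp, neg_neg, Int.toNat_natCast]

theorem rhld_expAt_pos_iff (t : A) (ht0 : algebraMap A B t ≠ 0) (P : HeightOneSpectrum B) :
    0 < expAt t P ↔ algebraMap A B t ∈ P.asIdeal := by
  rw [rhld_expAt_eq_multiplicity t ht0, ← P.intValuation_lt_one_iff_mem,
    P.intValuation_eq_exp_neg_multiplicity ht0, ← WithZero.exp_zero, WithZero.exp_lt_exp]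
  omega

end Bridge


section Phi

variable {K A : Type} [Field K] [CommRing A] [Algebra K A]

/-- The residue map `A → K` attached to the bijection `K ≃ A / t`. -/
noncomputable def rhldPhi (t : A)
    (hK : Function.Bijective
      (fun c : K => Ideal.Quotient.mk (Ideal.span {t}) (algebraMap K A c))) : A →+* K :=
  ((RingEquiv.ofBijective ((Ideal.Quotient.mk (Ideal.span {t})).comp (algebraMap K A)) hK).symm
    : A ⧸ Ideal.span {t} →+* K).comp (Ideal.Quotient.mk (Ideal.span {t}))

theorem rhldPhi_algebraMap (t : A)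
    (hK : Function.Bijective
      (fun c : K => Ideal.Quotient.mk (Ideal.span {t}) (algebraMap K A c))) (c : K) :
    rhldPhi t hK (algebraMap K A c) = c := by
  unfold rhldPhi
  rw [RingHom.comp_apply]
  exact (RingEquiv.ofBijective ((Ideal.Quotient.mk (Ideal.span {t})).comp (algebraMap K A))
    hK).symm_apply_apply c

theorem rhldPhi_eq_zero_iff (t : A)
    (hK : Function.Bijective
      (fun c : K => Ideal.Quotient.mk (Ideal.span {t}) (algebraMap K A c))) (a : A) :
    rhldPhi t hK a = 0 ↔ t ∣ a := by
  unfold rhldPhi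
  rw [RingHom.comp_apply]
  rw [← Ideal.mem_span_singleton, ← Ideal.Quotient.eq_zero_iff_mem]
  exact (RingEquiv.ofBijective ((Ideal.Quotient.mk (Ideal.span {t})).comp (algebraMap K A))
    hK).symm.map_eq_zero_iff

theorem rhldPhi_surjective (t : A)
    (hK : Function.Bijective
      (fun c : K => Ideal.Quotient.mk (Ideal.span {t}) (algebraMap K A c))) :
    Function.Surjective (rhldPhi t hK) :=
  fun c => ⟨algebraMap K A c, rhldPhi_algebraMap t hK c⟩

theorem rhldPhi_sub_mem (t : A)
    (hK : Function.Bijective
      (fun c : K => Ideal.Quotient.mk (Ideal.span {t}) (algebraMap K A c))) (a : A) :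
    t ∣ a - algebraMap K A (rhldPhi t hK a) := by
  rw [← rhldPhi_eq_zero_iff t hK, map_sub, rhldPhi_algebraMap, sub_self]

end Phi

section Inj

variable (A E F B : Type) [CommRing A] [Field E] [Algebra A E] [IsFractionRing A E]
    [Field F] [Algebra E F] [Algebra A F] [IsScalarTower A E F]
    [CommRing B] [Algebra A B] [Algebra B F] [IsScalarTower A B F]

include E F in
theorem rhld_algebraMap_injective : Function.Injective (algebraMap A B) := by
  have h1 : Function.Injective (algebraMap A F) := by
    rw [IsScalarTower.algebraMap_eq A E F]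
    exact (algebraMap E F).injective.comp (IsFractionRing.injective A E)
  rw [IsScalarTower.algebraMap_eq A B F] at h1
  exact Function.Injective.of_comp h1

end Inj


section Discr

variable (A E F B : Type) [CommRing A] [IsDomain A] [Field E] [Algebra A E] [IsFractionRing A E]
    [Field F] [Algebra E F] [Algebra A F] [IsScalarTower A E F] [FiniteDimensional E F]
    [Algebra.IsSeparable E F] [CommRing B] [Algebra A B]
    [Algebra B F] [IsScalarTower A B F] [IsIntegralClosure B A F]

include E F in
/-- The discriminant of an integral basis is nonzero. -/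
theorem rhld_discr_ne_zero {ι : Type*} [Fintype ι] [DecidableEq ι] (u : Basis ι A B) :
    Algebra.discr A u ≠ 0 := by
  haveI : IsLocalization (Algebra.algebraMapSubmonoid B (nonZeroDivisors A)) F :=
    IsIntegralClosure.isLocalization_of_isSeparable A E F B
  have h1 := Algebra.discr_localizationLocalization (R := A) (Rₘ := E) (nonZeroDivisors A) F u
  have h2 : Algebra.discr E (u.localizationLocalization E (nonZeroDivisors A) F) ≠ 0 :=
    Algebra.discr_not_zero_of_basis E _
  intro h0
  rw [h0, map_zero] at h1
  exact h2 h1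

end Discr


section Primes

variable (A B : Type) [CommRing A] [IsDomain A]
    [IsPrincipalIdealRing A] [CommRing B] [IsDedekindDomain B] [Algebra A B]

theorem rhld_finite (t : A) (ht0 : algebraMap A B t ≠ 0) :
    {P : HeightOneSpectrum B | 0 < expAt t P}.Finite := by
  have h := Ideal.finite_factors (I := Ideal.span {algebraMap A B t})
    (by rw [Ne, Ideal.zero_eq_bot, Ideal.span_singleton_eq_bot]; exact ht0)
  refine h.subset ?_
  intro P hP
  have hP' : 0 < expAt t P := hP
  rw [rhld_expAt_pos_iff t ht0] at hP'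
  show P.asIdeal ∣ Ideal.span {algebraMap A B t}
  rw [Ideal.dvd_span_singleton]
  exact hP'

/-- ramification index = `expAt` -/
theorem rhld_ramificationIdx_eq (t : A) (ht : Prime t)
    (hinj : Function.Injective (algebraMap A B))
    (P : HeightOneSpectrum B) [P.asIdeal.LiesOver (Ideal.span {t})] :
    P.asIdeal.ramificationIdx A = expAt t P := by
  have ht0 : algebraMap A B t ≠ 0 := by
    rw [Ne, map_eq_zero_iff _ hinj]; exact ht.ne_zero
  have hmap : (Ideal.span {t} : Ideal A).map (algebraMap A B) = Ideal.span {algebraMap A B t} := by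
    rw [Ideal.map_span, Set.image_singleton]
  have hne : (Ideal.span {t} : Ideal A).map (algebraMap A B) ≠ ⊥ := by
    rw [hmap, Ne, Ideal.span_singleton_eq_bot]; exact ht0
  haveI := P.isPrime
  rw [Ideal.IsDedekindDomain.ramificationIdx_eq_multiplicity (Ideal.span {t}) P.asIdeal hne, hmap,
    rhld_expAt_eq_multiplicity t ht0]

/-- a prime containing `t` lies over `(t)` -/
theorem rhld_liesOver_of_mem (t : A) (ht : Prime t) (P : HeightOneSpectrum B)
    (hP : algebraMap A B t ∈ P.asIdeal) :
    P.asIdeal.LiesOver (Ideal.span {t}) := by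
  haveI hpm : (Ideal.span {t} : Ideal A).IsMaximal :=
    PrincipalIdealRing.isMaximal_of_irreducible ht.irreducible
  constructor
  have h1 : Ideal.span {t} ≤ P.asIdeal.under A := by
    rw [Ideal.span_singleton_le_iff_mem]
    exact hP
  have h2 : P.asIdeal.under A ≠ ⊤ := by
    haveI := P.isPrime
    exact (Ideal.IsPrime.under A P.asIdeal).ne_top
  exact hpm.eq_of_le h2 h1

variable (K : Type) [Field K] [IsAlgClosed K] [Algebra K A]

/-- inertia degree one over an algebraically closed residue field -/
theorem rhld_inertiaDeg_eq_one (t : A) (ht : Prime t)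
    (hK : Function.Bijective (fun c : K => Ideal.Quotient.mk (Ideal.span {t}) (algebraMap K A c)))
    (hinj : Function.Injective (algebraMap A B))
    {n : ℕ} (u : Basis (Fin n) A B)
    (q : Ideal B) [q.IsPrime] [q.LiesOver (Ideal.span {t})] :
    q.inertiaDeg A = 1 := by
  have hp0 : (Ideal.span {t} : Ideal A) ≠ ⊥ := by
    rw [Ne, Ideal.span_singleton_eq_bot]; exact ht.ne_zero
  haveI hpm : (Ideal.span {t} : Ideal A).IsMaximal :=
    PrincipalIdealRing.isMaximal_of_irreducible ht.irreducible
  haveI : Module.Finite A B := Module.Finite.of_basis u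
  haveI : FaithfulSMul A B := (faithfulSMul_iff_algebraMap_injective A B).mpr hinj
  have hq0 : q ≠ ⊥ := Ideal.ne_bot_of_liesOver_of_ne_bot hp0 q
  haveI : q.IsMaximal := Ideal.IsPrime.isMaximal inferInstance hq0
  rw [Ideal.inertiaDeg_eq_of_isMaximal (Ideal.span {t}) q]
  letI : Field (A ⧸ Ideal.span {t}) := Ideal.Quotient.field _
  letI : Field (B ⧸ q) := Ideal.Quotient.field _
  let e : K ≃+* (A ⧸ Ideal.span {t}) :=
    RingEquiv.ofBijective ((Ideal.Quotient.mk (Ideal.span {t})).comp (algebraMap K A)) hK
  haveI : IsAlgClosed (A ⧸ Ideal.span {t}) := IsAlgClosed.of_ringEquiv K _ e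
  haveI : Module.Finite (A ⧸ Ideal.span {t}) (B ⧸ q) := inferInstance
  have hb : Function.Bijective (algebraMap (A ⧸ Ideal.span {t}) (B ⧸ q)) :=
    IsAlgClosed.algebraMap_bijective_of_isIntegral
  have : (⊥ : Subalgebra (A ⧸ Ideal.span {t}) (B ⧸ q)) = ⊤ := by
    rw [eq_top_iff]
    intro x _
    obtain ⟨c, hc⟩ := hb.2 x
    exact Algebra.mem_bot.mpr ⟨c, hc⟩
  exact Subalgebra.bot_eq_top_iff_finrank_eq_one.mp this

/-- **Fundamental identity** `∑ e_P = n` in terms of `expAt`. -/
theorem rhld_sum_expAt (t : A) (ht : Prime t)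
    (hK : Function.Bijective (fun c : K => Ideal.Quotient.mk (Ideal.span {t}) (algebraMap K A c)))
    (hinj : Function.Injective (algebraMap A B))
    {n : ℕ} (u : Basis (Fin n) A B) :
    (∑ᶠ P : HeightOneSpectrum B, expAt t P) = n := by
  classical
  have ht0 : algebraMap A B t ≠ 0 := by
    rw [Ne, map_eq_zero_iff _ hinj]; exact ht.ne_zero
  have hp0 : (Ideal.span {t} : Ideal A) ≠ ⊥ := by
    rw [Ne, Ideal.span_singleton_eq_bot]; exact ht.ne_zero
  haveI hpm : (Ideal.span {t} : Ideal A).IsMaximal :=
    PrincipalIdealRing.isMaximal_of_irreducible ht.irreducible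
  haveI : Module.Finite A B := Module.Finite.of_basis u
  haveI : Module.Free A B := Module.Free.of_basis u
  haveI : FaithfulSMul A B := (faithfulSMul_iff_algebraMap_injective A B).mpr hinj
  have hfund := Ideal.sum_ramification_inertia_eq_finrank (Ideal.span {t} : Ideal A) B
  rw [Module.finrank_eq_card_basis u, Fintype.card_fin] at hfund
  rw [← hfund]
  have hfin := rhld_finite A B t ht0
  rw [finsum_eq_sum_of_support_subset (s := hfin.toFinset) _ (by
    intro P hP
    rw [Function.mem_support] at hP
    rw [Set.Finite.coe_toFinset]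
    show 0 < expAt t P
    omega)]
  symm
  refine Finset.sum_bij (fun q _ => ⟨q.1, q.2.1, Ideal.ne_bot_of_mem_primesOver hp0 q.2⟩)
    ?_ ?_ ?_ ?_
  · intro q _
    rw [Set.Finite.mem_toFinset]
    show 0 < expAt t _
    rw [rhld_expAt_pos_iff t ht0]
    have := q.2.2
    have h1 : t ∈ q.1.under A := by
      rw [← this.over]; exact Ideal.mem_span_singleton_self t
    exact h1
  · intro q₁ _ q₂ _ h
    have := congrArg HeightOneSpectrum.asIdeal h
    exact Subtype.ext this
  · intro P hP
    rw [Set.Finite.mem_toFinset] at hP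
    have hP' : 0 < expAt t P := hP
    rw [rhld_expAt_pos_iff t ht0] at hP'
    haveI := rhld_liesOver_of_mem A B t ht P hP'
    exact ⟨⟨P.asIdeal, P.isPrime, this⟩, Finset.mem_univ _, rfl⟩
  · intro q _
    haveI := q.2.1
    haveI := q.2.2
    rw [rhld_inertiaDeg_eq_one A B K t ht hK hinj u q.1, mul_one]
    exact rhld_ramificationIdx_eq A B t ht hinj ⟨q.1, q.2.1, Ideal.ne_bot_of_mem_primesOver hp0 q.2⟩

end Primes

end Fermat.Agent.H75
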