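import Fermat.Agent.H6.S16UB.Interfaces
import Fermat.Prelude.Thm_UpperHalfPlane_qExpansion_prod
import Fermat.Prelude.Thm_UpperHalfPlane_qExpansion_coeff_nat_mul

/-!
# S16, upper bound: the norm machine (second independent proof, helper75)

`normMachine : SturmModStatement → NormMachineStatement`.
-/

namespace Fermat.Agent.H75

open UpperHalfPlane ModularForm SlashInvariantForm Matrix.SpecialLinearGroup Function
open scoped MatrixGroups ModularForm Real Manifold

open Fermat.Agent.H6.S16UB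

lemma s16norm_qParam_add (h : ℕ) (hh : 0 < h) (w : ℂ) :
    Periodic.qParam (h : ℝ) (w + ((h : ℝ) : ℂ)) = Periodic.qParam (h : ℝ) w := by
  have hne : ((h : ℝ) : ℂ) ≠ 0 := by
    exact_mod_cast (Nat.pos_iff_ne_zero.mp hh)
  unfold Periodic.qParam
  rw [show 2 * (π : ℂ) * Complex.I * (w + ((h : ℝ) : ℂ)) / ((h : ℝ) : ℂ)
      = 2 * (π : ℂ) * Complex.I * w / ((h : ℝ) : ℂ) + 2 * π * Complex.I by field_simp]
  rw [Complex.exp_add, Complex.exp_two_pi_mul_I, mul_one]

/-- An expansion in `e(z / h)` forces `h`-periodicity. -/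
lemma s16norm_periodic {h : ℕ} (hh : 0 < h) {F : ℍ → ℂ} {b : ℕ → ℂ} (hF : HasExp h F b) :
    Periodic (F ∘ UpperHalfPlane.ofComplex) (h : ℝ) := by
  intro w
  by_cases! hw : 0 < Complex.im w
  · have hw' : 0 < Complex.im (w + ((h : ℝ) : ℂ)) := by simpa using hw
    simp only [comp_apply, ofComplex_apply_of_im_pos hw', ofComplex_apply_of_im_pos hw]
    refine (hF ⟨w + ((h : ℝ) : ℂ), hw'⟩).unique ?_
    have := hF ⟨w, hw⟩
    rw [s16norm_qParam_add h hh w]
    exact this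
  · have hw' : Complex.im (w + ((h : ℝ) : ℂ)) ≤ 0 := by simpa using hw
    simp only [comp_apply, ofComplex_apply_of_im_nonpos hw', ofComplex_apply_of_im_nonpos hw]

/-- An expansion in `e(z / h)` forces boundedness at infinity. -/
lemma s16norm_bdd {h : ℕ} (hh : 0 < h) {F : ℍ → ℂ} {b : ℕ → ℂ} (hF : HasExp h F b) :
    IsBoundedAtImInfty F :=
  isBoundedAtImInfty_of_hasSum_qExpansion (h := (h : ℝ)) (c := b) (by exact_mod_cast hh)
    (fun τ => by simpa [smul_eq_mul] using hF τ)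

/-- The `q`-expansion at width `h` of a holomorphic function with an expansion in `e(z / h)`. -/
lemma s16norm_analytic {h : ℕ} (hh : 0 < h) {F : ℍ → ℂ} {b : ℕ → ℂ} (hF : HasExp h F b)
    (hol : MDiff F) : AnalyticAt ℂ (cuspFunction (h : ℝ) F) 0 :=
  analyticAt_cuspFunction_zero (by exact_mod_cast hh) (s16norm_periodic hh hF) hol
    (s16norm_bdd hh hF)

lemma s16norm_coeff_unique {h : ℝ} {f : ℍ → ℂ} {c : ℕ → ℂ} (hh : 0 < h)
    (hfanalytic : AnalyticAt ℂ (cuspFunction h f) 0)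
    (hf : ∀ τ : ℍ, HasSum (fun m ↦ c m • Periodic.qParam h τ ^ m) (f τ)) (m : ℕ) :
    c m = (qExpansion h f).coeff m := by
  have h1 := (hasFPowerSeriesOnBall_cuspFunction hh hfanalytic hf).hasFPowerSeriesAt
  have h2 : HasFPowerSeriesAt (cuspFunction h f)
      (.ofScalars ℂ fun m ↦ (qExpansion h f).coeff m) 0 := by
    simpa [qExpansion_coeff, div_eq_mul_inv, mul_comm] using hfanalytic.hasFPowerSeriesAt
  simpa [FormalMultilinearSeries.coeff_ofScalars] using
    congr_arg (FormalMultilinearSeries.coeff · m) (h1.eq_formalMultilinearSeries h2)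

lemma s16norm_qExpansion {h : ℕ} (hh : 0 < h) {F : ℍ → ℂ} {b : ℕ → ℂ} (hF : HasExp h F b)
    (hol : MDiff F) : qExpansion (h : ℝ) F = PowerSeries.mk b := by
  ext m
  rw [PowerSeries.coeff_mk]
  exact (s16norm_coeff_unique (by exact_mod_cast hh) (s16norm_analytic hh hF hol)
    (fun τ => by simpa [smul_eq_mul] using hF τ) m).symm


lemma s16norm_relIndex (Γ : Subgroup SL(2, ℤ)) :
    (Γ : Subgroup (GL (Fin 2) ℝ)).relIndex 𝒮ℒ = Γ.index := by
  rw [← Subgroup.index_comap, Subgroup.comap_map_eq_self_of_injective mapGL_injective]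

/-- The expansion data of a translate: holomorphy. -/
lemma s16norm_hol {Γ : Subgroup SL(2, ℤ)} {k : ℤ} (Y : ModularForm Γ k) (γ : SL(2, ℤ)) :
    MDiff (⇑Y ∣[k] γ) := by
  exact (ModularForm.translate Y (mapGL ℝ γ)).holo'

/-- The `q`-expansion at width `h` of a translate with a given expansion. -/
lemma s16norm_qExpansion_translate {Γ : Subgroup SL(2, ℤ)} {k : ℤ} (Y : ModularForm Γ k)
    {h : ℕ} (hh : 0 < h) (A : Subring ℂ) (β : PowerSeries A) (γ : SL(2, ℤ))
    (hβ : HasExp h (⇑Y ∣[k] γ) (fun n => ((PowerSeries.coeff n β : A) : ℂ))) :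
    qExpansion (h : ℝ) (⇑Y ∣[k] γ) = β.map A.subtype := by
  rw [s16norm_qExpansion hh hβ (s16norm_hol Y γ)]
  ext n
  simp

/-- Every translate appearing in the norm is a translate by an element of `SL(2, ℤ)`. -/
lemma s16norm_exists_rep {Γ : Subgroup SL(2, ℤ)} {k : ℤ} (Y : ModularForm Γ k)
    (q : 𝒮ℒ ⧸ (Γ : Subgroup (GL (Fin 2) ℝ)).subgroupOf 𝒮ℒ) :
    ∃ γ : SL(2, ℤ), quotientFunc Y q = ⇑Y ∣[k] γ := by
  induction q using Quotient.inductionOn with
  | h r =>
    obtain ⟨γ, hγ⟩ := r.2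
    refine ⟨γ⁻¹, ?_⟩
    rw [quotientFunc_mk, SL_slash, ← hγ, ← map_inv]
    rfl


/-- Power series supported on multiples of `h`: comparison of orders after reduction. -/
lemma s16norm_order_le {A κ : Type*} [CommRing A] [Field κ] (φ : A →+* κ) {h : ℕ}
    (B : PowerSeries A) (hB : ∀ m, ¬ h ∣ m → PowerSeries.coeff m B = 0)
    (hne : B.map φ ≠ 0) :
    (PowerSeries.mk fun n => PowerSeries.coeff (h * n) B).map φ ≠ 0 ∧
      (B.map φ).order ≤
        (h : ℕ∞) * ((PowerSeries.mk fun n => PowerSeries.coeff (h * n) B).map φ).order := by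
  set c : PowerSeries A := PowerSeries.mk fun n => PowerSeries.coeff (h * n) B with hc
  have hcne : c.map φ ≠ 0 := by
    intro h0
    apply hne
    ext m
    rw [PowerSeries.coeff_map, map_zero]
    by_cases hm : h ∣ m
    · obtain ⟨n, rfl⟩ := hm
      have := congrArg (PowerSeries.coeff n) h0
      simpa [hc] using this
    · rw [hB m hm, map_zero]
  refine ⟨hcne, ?_⟩
  have h1 := PowerSeries.coeff_order hcne
  have h2 : PowerSeries.coeff (h * (c.map φ).order.toNat) (B.map φ) ≠ 0 := by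
    simpa [hc] using h1
  have h3 := PowerSeries.order_le _ h2
  have h4 : ((c.map φ).order.toNat : ℕ∞) = (c.map φ).order :=
    ENat.natCast_toNat (PowerSeries.order_eq_top.not.mpr hcne)
  calc (B.map φ).order ≤ ((h * (c.map φ).order.toNat : ℕ) : ℕ∞) := h3
    _ = (h : ℕ∞) * (c.map φ).order := by rw [Nat.cast_mul, h4]


/-- **The norm machine** (second independent proof): the level-one Sturm bound modulo a prime
implies the norm/valence inequality for forms on finite-index subgroups. -/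
theorem normMachine (hS : SturmModStatement) : NormMachineStatement := by
  intro Γ _ k Y h hh A κ _ φ b hb hbne S hSinj
  classical
  let _ : Fintype (𝒮ℒ ⧸ (Γ : Subgroup (GL (Fin 2) ℝ)).subgroupOf 𝒮ℒ) := Fintype.ofFinite _
  -- representatives
  choose rep hrep using s16norm_exists_rep Y
  -- q-expansions of the translates
  have hqe : ∀ γ : SL(2, ℤ), qExpansion (h : ℝ) (⇑Y ∣[(k : ℤ)] γ) = (b γ).map A.subtype :=
    fun γ => s16norm_qExpansion_translate Y hh A (b γ) γ (hb γ)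
  have han : ∀ γ : SL(2, ℤ), AnalyticAt ℂ (cuspFunction (h : ℝ) (⇑Y ∣[(k : ℤ)] γ)) 0 :=
    fun γ => s16norm_analytic hh (hb γ) (s16norm_hol Y γ)
  -- the norm
  set N := ModularForm.norm 𝒮ℒ Y with hN
  have hprod : qExpansion (h : ℝ) N =
      ∏ q : 𝒮ℒ ⧸ (Γ : Subgroup (GL (Fin 2) ℝ)).subgroupOf 𝒮ℒ,
        qExpansion (h : ℝ) (quotientFunc Y q) := by
    rw [hN, ModularForm.coe_norm]
    exact UpperHalfPlane.qExpansion_prod Finset.univ fun q _ => by rw [hrep q]; exact han _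
  set B : PowerSeries A :=
    ∏ q : 𝒮ℒ ⧸ (Γ : Subgroup (GL (Fin 2) ℝ)).subgroupOf 𝒮ℒ, b (rep q) with hB
  have hBmap : B.map A.subtype = qExpansion (h : ℝ) N := by
    rw [hprod, hB, map_prod]
    refine Finset.prod_congr rfl fun q _ => ?_
    rw [hrep q, hqe]
  -- relation with width one
  have hcoeff : ∀ n, (qExpansion (h : ℝ) N).coeff n =
      if h ∣ n then (qExpansion 1 N).coeff (n / h) else 0 := by
    intro n
    have := UpperHalfPlane.qExpansion_coeff_nat_mul one_pos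
      (SlashInvariantFormClass.periodic_comp_ofComplex N one_mem_strictPeriods_SL)
      (ModularFormClass.holo N) (ModularFormClass.bdd_at_infty N) hh n
    rwa [mul_one] at this
  -- `B` is supported on multiples of `h`
  have hBsupp : ∀ m, ¬ h ∣ m → PowerSeries.coeff m B = 0 := by
    intro m hm
    have h1 := congrArg (PowerSeries.coeff m) hBmap
    rw [PowerSeries.coeff_map, hcoeff m, if_neg hm] at h1
    exact Subtype.ext h1
  set c : PowerSeries A := PowerSeries.mk fun n => PowerSeries.coeff (h * n) B with hc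
  have hq1 : qExpansion 1 N = c.map A.subtype := by
    ext n
    rw [PowerSeries.coeff_map, hc, PowerSeries.coeff_mk]
    have h1 := congrArg (PowerSeries.coeff (h * n)) hBmap
    rw [PowerSeries.coeff_map, hcoeff (h * n), if_pos (dvd_mul_right h n),
      Nat.mul_div_cancel_left n hh] at h1
    exact h1.symm
  have hBφ : B.map φ =
      ∏ q : 𝒮ℒ ⧸ (Γ : Subgroup (GL (Fin 2) ℝ)).subgroupOf 𝒮ℒ, (b (rep q)).map φ := by
    rw [hB, map_prod]
  have hBne : B.map φ ≠ 0 := by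
    rw [hBφ]
    exact Finset.prod_ne_zero_iff.mpr fun q _ => hbne _
  obtain ⟨hcne, hord⟩ := s16norm_order_le φ B hBsupp hBne
  -- Sturm
  have hcard : Nat.card (𝒮ℒ ⧸ (Γ : Subgroup (GL (Fin 2) ℝ)).subgroupOf 𝒮ℒ) = Γ.index :=
    s16norm_relIndex Γ
  have hw : ((k : ℤ) * (Nat.card (𝒮ℒ ⧸ (Γ : Subgroup (GL (Fin 2) ℝ)).subgroupOf 𝒮ℒ) : ℤ))
      = ((k * Γ.index : ℕ) : ℤ) := by
    rw [hcard]
    push_cast
    rfl
  have hSt := hS A κ φ (k * Γ.index) (ModularForm.mcast hw N) c hq1 hcne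
  -- orders
  have hsum : (B.map φ).order =
      ∑ q : 𝒮ℒ ⧸ (Γ : Subgroup (GL (Fin 2) ℝ)).subgroupOf 𝒮ℒ, ((b (rep q)).map φ).order := by
    rw [hBφ, PowerSeries.order_prod]
  -- the injection of `S` into the coset space
  let ι : SL(2, ℤ) → 𝒮ℒ ⧸ (Γ : Subgroup (GL (Fin 2) ℝ)).subgroupOf 𝒮ℒ :=
    fun γ => QuotientGroup.mk (⟨mapGL ℝ γ⁻¹, ⟨γ⁻¹, rfl⟩⟩ : 𝒮ℒ)
  have hι : ∀ γ : SL(2, ℤ), quotientFunc Y (ι γ) = ⇑Y ∣[(k : ℤ)] γ := by
    intro γ
    show quotientFunc Y (⟦_⟧) = _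
    rw [quotientFunc_mk, SL_slash]
    simp only [map_inv, inv_inv]
    rfl
  have hbι : ∀ γ : SL(2, ℤ), b γ = b (rep (ι γ)) := by
    intro γ
    apply PowerSeries.map_injective A.subtype Subtype.val_injective
    rw [← hqe, ← hqe, ← hrep, hι]
  have hιinj : Set.InjOn ι (S : Set SL(2, ℤ)) := by
    intro γ hγ γ' hγ' hγγ'
    apply hSinj γ hγ γ' hγ'
    have h1 := QuotientGroup.eq.mp hγγ'
    rw [Subgroup.mem_subgroupOf] at h1
    obtain ⟨δ, hδ, hδ'⟩ := Subgroup.mem_map.mp h1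
    have h2 : δ = γ * γ'⁻¹ := by
      apply mapGL_injective (R := ℤ) (S := ℝ)
      rw [hδ']
      simp
    rwa [h2] at hδ
  have hS1 : ∑ γ ∈ S, ((b γ).map φ).order ≤ (B.map φ).order := by
    rw [hsum]
    calc ∑ γ ∈ S, ((b γ).map φ).order
        = ∑ γ ∈ S, ((b (rep (ι γ))).map φ).order :=
          Finset.sum_congr rfl fun γ _ => by rw [← hbι γ]
      _ = ∑ q ∈ S.image ι, ((b (rep q)).map φ).order :=
          (Finset.sum_image (f := fun q => ((b (rep q)).map φ).order) hιinj).symm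
      _ ≤ ∑ q : 𝒮ℒ ⧸ (Γ : Subgroup (GL (Fin 2) ℝ)).subgroupOf 𝒮ℒ, ((b (rep q)).map φ).order :=
          Finset.sum_le_sum_of_subset (Finset.subset_univ _)
  calc 12 * ∑ γ ∈ S, ((b γ).map φ).order
      ≤ 12 * ((h : ℕ∞) * (c.map φ).order) := by gcongr; exact hS1.trans hord
    _ = (h : ℕ∞) * (12 * (c.map φ).order) := by ring
    _ ≤ (h : ℕ∞) * ((k * Γ.index : ℕ) : ℕ∞) := by gcongr
    _ = ((h * (k * Γ.index) : ℕ) : ℕ∞) := by push_cast; rfl

end Fermat.Agent.H75
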