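/-
helper75 — P-SS2 row 1025 (SS2-J10 LEVEL-CHANGE), part 1: the level pull-back.

* `pic0BC_pullback` : base change on `Pic0` commutes with pull-back (generic);
* `squareCompat_levelIncl`, `descentHom_levelPull` : the descent homomorphism intertwines the
  pull-backs along `levelIncl` over `ℚ̄` and over `ℂ` (any `N ∣ N'`);
* `exists_levelPull` : over `ℚ̄`, for `N' = N r` (`r` prime): inputs of the pull-back along
  `levelIncl`, Galois equivariance, kernel killed by a nonzero integer.
-/
import Fermat.Agent.H63.SS2.Interfaces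
import Fermat.Agent.H23.EsA.Unconditional

set_option autoImplicit false
set_option synthInstance.maxHeartbeats 400000
set_option linter.style.haveILetI false
set_option linter.unusedSectionVars false
set_option linter.unusedVariables false

noncomputable section

namespace Fermat.Agent.H75.SS2

open AlgebraicCurve ModularCurve CongruenceSubgroup IntermediateField
open Fermat.Agent.H63.SS2 Fermat.Agent.H23.EsA Fermat.Agent.H29

section Generic

variable {k K Fk FK Fk' FK' : Type} [Field k] [Field K] [Field Fk] [Field FK]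
  [Field Fk'] [Field FK'] [Algebra k Fk] [Algebra K FK] [Algebra k Fk'] [Algebra K FK']
  [HasPrincipalDivisors k Fk'] [HasPrincipalDivisors K FK']

/-- Base change on `Pic0` commutes with pull-back as soon as it does on divisors. -/
theorem pic0BC_pullback (ext : Place k Fk → Place K FK) (ext' : Place k Fk' → Place K FK')
    (hdeg : ∀ D : Divisor k Fk, Divisor.degree (divisorBC ext D) = Divisor.degree D)
    (hprin : ∀ D : Divisor k Fk, Divisor.IsPrincipal D → Divisor.IsPrincipal (divisorBC ext D))
    (hdeg' : ∀ D : Divisor k Fk', Divisor.degree (divisorBC ext' D) = Divisor.degree D)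
    (hprin' : ∀ D : Divisor k Fk',
      Divisor.IsPrincipal D → Divisor.IsPrincipal (divisorBC ext' D))
    (φk : Fk →ₐ[k] Fk') (φK : FK →ₐ[K] FK')
    (hφk : φk.toRingHom.IsIntegral) (hφK : φK.toRingHom.IsIntegral)
    (hFIk : FundamentalIdentityAlong k φk hφk) (hFIK : FundamentalIdentityAlong K φK hφK)
    (hpb : ∀ D : Divisor k Fk,
      divisorBC ext' (Divisor.pullbackAlong φk hφk D)
        = Divisor.pullbackAlong φK hφK (divisorBC ext D))
    (x : Pic0 k Fk) :
    pic0BC ext' hdeg' hprin' (Fermat.Agent.H71.SS.pic0PullbackAlong φk hφk hFIk x)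
      = Fermat.Agent.H71.SS.pic0PullbackAlong φK hφK hFIK (pic0BC ext hdeg hprin x) := by
  obtain ⟨D, rfl⟩ := Pic0.mk_surjective x
  rw [Fermat.Agent.H71.SS.pic0PullbackAlong_mk, pic0BC_mk, pic0BC_mk,
    Fermat.Agent.H71.SS.pic0PullbackAlong_mk]
  congr 1
  apply Subtype.ext
  rw [coe_degZeroBC, Fermat.Agent.H71.SS.coe_degZeroPullbackAlong,
    Fermat.Agent.H71.SS.coe_degZeroPullbackAlong, coe_degZeroBC]
  exact hpb _

end Generic

section Modular

variable {N N' : ℕ} [NeZero N] [NeZero N'] (h : N ∣ N')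

theorem coe_levelIncl (K : Type) [Field K] [Algebra ℚ K]
    (x : ↥(laurentBaseChange K (modularFunctionFieldFull N))) :
    ((levelIncl K h x : ↥(laurentBaseChange K (modularFunctionFieldFull N'))) :
      LaurentSeries K) = (x : LaurentSeries K) :=
  IntermediateField.coe_inclusion _ x

variable (ι : AlgebraicClosure ℚ →+* ℂ)

theorem squareCompat_levelIncl :
    SquareCompat (cE N ι) (cE N' ι) (levelIncl (AlgebraicClosure ℚ) h) (levelIncl ℂ h) := by
  refine ⟨rfl, fun f => Subtype.ext ?_⟩
  rw [cE_bc_coe, coe_levelIncl, coe_levelIncl, cE_bc_coe]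

/-- The descent homomorphism intertwines the level pull-backs over `ℚ̄` and over `ℂ`. -/
theorem descentHom_levelPull
    [HasPrincipalDivisors (AlgebraicClosure ℚ) ↥(modularFunctionFieldBar N')]
    [HasPrincipalDivisors ℂ ↥(laurentBaseChange ℂ (modularFunctionFieldFull N'))]
    (hφk : (levelIncl (AlgebraicClosure ℚ) h).toRingHom.IsIntegral)
    (hφC : (levelIncl ℂ h).toRingHom.IsIntegral)
    (hFIk : FundamentalIdentityAlong (AlgebraicClosure ℚ) (levelIncl (AlgebraicClosure ℚ) h) hφk)
    (hFIC : FundamentalIdentityAlong ℂ (levelIncl ℂ h) hφC)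
    (x : JZero N) :
    descentHom N' ι (Fermat.Agent.H71.SS.pic0PullbackAlong (levelIncl (AlgebraicClosure ℚ) h)
        hφk hFIk x)
      = Fermat.Agent.H71.SS.pic0PullbackAlong (levelIncl ℂ h) hφC hFIC (descentHom N ι x) :=
  pic0BC_pullback (extC N ι) (extC N' ι) (degree_divisorBC_extC N ι)
    (isPrincipal_divisorBC_extC N ι) (degree_divisorBC_extC N' ι)
    (isPrincipal_divisorBC_extC N' ι) _ _ hφk hφC hFIk hFIC
    (pullPushBCStatement _ _ _ _ _ _ (cE N ι) (cE N' ι) _ _ hφk hφC
      (squareCompat_levelIncl h ι) (extC N ι) (extC N' ι) (extC_isPlaceExt N ι)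
      (extC_isPlaceExt N' ι)).1 x

end Modular

section Inputs

/-- The level pull-back `J₀(N) → J₀(N')` over `ℚ̄`, `N' = N r` with `r` prime: inputs, Galois
equivariance, and the kernel is killed by a nonzero integer. -/
theorem exists_levelPull (N r N' : ℕ) [NeZero N] [NeZero r] [NeZero N'] (hr : r.Prime)
    (e : N' = N * r) (h : N ∣ N') :
    ∃ (hφ : (levelIncl (AlgebraicClosure ℚ) h).toRingHom.IsIntegral)
      (hP : HasPrincipalDivisors (AlgebraicClosure ℚ) ↥(modularFunctionFieldBar N'))
      (hFI : FundamentalIdentityAlong (AlgebraicClosure ℚ)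
        (levelIncl (AlgebraicClosure ℚ) h) hφ) (d : ℕ), d ≠ 0 ∧
      (∀ (σ : AlgebraicClosure ℚ ≃ₐ[ℚ] AlgebraicClosure ℚ) (x : JZero N),
        Fermat.Agent.H71.SS.pic0PullbackAlong (levelIncl (AlgebraicClosure ℚ) h) hφ hFI (σ • x)
          = σ • Fermat.Agent.H71.SS.pic0PullbackAlong (levelIncl (AlgebraicClosure ℚ) h)
              hφ hFI x) ∧
      ∀ x : JZero N,
        Fermat.Agent.H71.SS.pic0PullbackAlong (levelIncl (AlgebraicClosure ℚ) h) hφ hFI x = 0 →
          d • x = 0 := by
  subst e
  obtain ⟨hα, -, hP, hfin, -, hNF⟩ :=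
    Fermat.Agent.H49.heckeInputsStatement (AlgebraicClosure ℚ) N r hr
  haveI := hP
  have hff := Fermat.Agent.H9.ESD.lc_isFunctionField_bar N
  have hFI : FundamentalIdentityAlong (AlgebraicClosure ℚ)
      (heckeAlphaBar (AlgebraicClosure ℚ) N r) hα :=
    Fermat.Agent.H9.ESD.lc_fundamentalIdentityAlong_of
      Fermat.Agent.H49.relFundamentalIdentityStatement _ hfin hα hff
  have hsum : letI := algebraAlong (heckeAlphaBar (AlgebraicClosure ℚ) N r)
      haveI := isScalarTower_along (heckeAlphaBar (AlgebraicClosure ℚ) N r)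
      haveI := isIntegral_along (heckeAlphaBar (AlgebraicClosure ℚ) N r) hα
      SumRamificationInertia (AlgebraicClosure ℚ) ↥(modularFunctionFieldBar N)
        ↥(modularFunctionFieldBar (N * r)) := by
    letI := algebraAlong (heckeAlphaBar (AlgebraicClosure ℚ) N r)
    haveI := isScalarTower_along (heckeAlphaBar (AlgebraicClosure ℚ) N r)
    haveI := isIntegral_along (heckeAlphaBar (AlgebraicClosure ℚ) N r) hα
    haveI : FundamentalIdentity (AlgebraicClosure ℚ) ↥(modularFunctionFieldBar N)
        ↥(modularFunctionFieldBar (N * r)) := hFI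
    exact Fermat.Agent.H96.sumRamificationInertia_of_deg_one
      (Fermat.Agent.H9.ESD.lc_deg_eq_one_bar N) (Fermat.Agent.H9.ESD.lc_deg_eq_one_bar (N * r))
  refine ⟨hα, hP, hFI,
    finrankAlong (AlgebraicClosure ℚ) (heckeAlphaBar (AlgebraicClosure ℚ) N r), ?_, ?_, ?_⟩
  · letI := algebraAlong (heckeAlphaBar (AlgebraicClosure ℚ) N r)
    haveI : Module.Finite ↥(modularFunctionFieldBar N) ↥(modularFunctionFieldBar (N * r)) := hfin
    have hpos : 0 < Module.finrank ↥(modularFunctionFieldBar N)
        ↥(modularFunctionFieldBar (N * r)) := Module.finrank_pos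
    exact hpos.ne'
  · intro σ x
    rw [galois_smul_pic0_def, galois_smul_pic0_def]
    exact Fermat.Agent.H71.SS.pic0PullbackAlong_smul _ hα hFI
      (Fermat.Agent.H49.intertwines_heckeAlphaBar (AlgebraicClosure ℚ) N r σ) x
  · intro x hx
    exact Fermat.Agent.H71.SS.pic0PullbackAlong_ker _ hα hFI hfin hNF hsum x hx

end Inputs

end Fermat.Agent.H75.SS2

end
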