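/-
helper75 — P-SS2 row 1025 (SS2-J10 LEVEL-CHANGE), part 2:

`levelChange (hnew : KummerNewStatement) (hpull : KummerPullStatement) (hres : CorResStatement) :
  LevelChangeStatement`  —  `(KC)_J` at level `(L r) q` implies `(KC)_J` at level `L q`.
-/
import Fermat.Agent.H75.SS2LevelPull

set_option autoImplicit false
set_option synthInstance.maxHeartbeats 400000
set_option linter.style.haveILetI false
set_option linter.unusedSectionVars false
set_option linter.unusedVariables false

noncomputable section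

namespace Fermat.Agent.H75.SS2

open AlgebraicCurve ModularCurve CongruenceSubgroup IntermediateField
open Fermat.Agent.H63.SS2 Fermat.Agent.H23.EsA Fermat.Agent.H29

/-- The restriction of the trivial additive character is trivial. -/
theorem toAdditive_symm_resHom_eq_one {N N' : ℕ} (h : N ∣ N')
    (ψ : Additive (Gamma0 N) →+ Additive ℂˣ) (hψ : MonoidHom.toAdditive.symm ψ = 1) :
    MonoidHom.toAdditive.symm (resHom h (Additive ℂˣ) ψ) = 1 := by
  have h0 : ψ = 0 := by
    have := congrArg MonoidHom.toAdditive hψ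
    rw [Equiv.apply_symm_apply] at this
    rw [this]
    rfl
  rw [h0]
  rfl

/-- **J10 (LEVEL-CHANGE)** (row 1025). -/
theorem levelChange (hnew : KummerNewStatement) (hpull : KummerPullStatement)
    (hres : CorResStatement) : LevelChangeStatement := by
  intro L q r _ _ _ hq hqL hr hrq hKC A hA
  obtain ⟨c, hc, hcx⟩ := hKC A hA
  have e : L * r * q = (L * q) * r := by ring
  have h : L * q ∣ L * r * q := ⟨r, e⟩
  obtain ⟨hφ, hP, hFI, d, hd, hsmul, hker⟩ := exists_levelPull (L * q) r (L * r * q) hr e h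
  haveI := hP
  refine ⟨d * c, Nat.mul_pos (Nat.pos_of_ne_zero hd) hc, ?_⟩
  intro m hm hqm x hmx hxnew hxI
  have hy_m : m • Fermat.Agent.H71.SS.pic0PullbackAlong (levelIncl (AlgebraicClosure ℚ) h)
      hφ hFI x = 0 := by
    rw [← map_nsmul, hmx, map_zero]
  have hy_I : ∀ σ ∈ A.inertiaSubgroupIn ℚ,
      σ • Fermat.Agent.H71.SS.pic0PullbackAlong (levelIncl (AlgebraicClosure ℚ) h) hφ hFI x
        = Fermat.Agent.H71.SS.pic0PullbackAlong (levelIncl (AlgebraicClosure ℚ) h) hφ hFI x :=
    fun σ hσ => by rw [← hsmul, hxI σ hσ]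
  have hy_new : Fermat.Agent.H71.SS.pic0PullbackAlong (levelIncl (AlgebraicClosure ℚ) h)
      hφ hFI x ∈ newPart (L * r) q := by
    haveI : Algebra.IsAlgebraic ℚ (AlgebraicClosure ℚ) := AlgebraicClosure.isAlgebraic ℚ
    let ι : AlgebraicClosure ℚ →+* ℂ :=
      (IsAlgClosed.lift : AlgebraicClosure ℚ →ₐ[ℚ] ℂ).toRingHom
    have hxt : x ∈ Pic0.torsion (AlgebraicClosure ℚ) ↥(modularFunctionFieldBar (L * q)) m := by
      rw [Pic0.mem_torsion, natCast_zsmul]
      exact hmx
    have hxC : descentHom (L * q) ι x ∈ Pic0.torsion ℂ ↥(Fermat.Agent.H23.EsA.FC (L * q)) m :=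
      descentHom_mem_torsion (L * q) ι hxt
    obtain ⟨χ, hχ⟩ := (torsionCharStatement (L * q) m hm).1 _ hxC
    have hn := hnew L q hq hqL ι m hm x χ hχ
    rw [mem_newPart] at hxnew
    have hA1 : corCharA L q χ = 1 := hn.1.2 hxnew.1
    have hB1 : corCharB L q χ = 1 := hn.2.2 hxnew.2
    obtain ⟨f, ⟨hφC, hPC, hFIC, hf⟩, hfχ⟩ := hpull (L * q) (L * r * q) h
    haveI := hPC
    have hχ' := hfχ m hm _ χ hχ
    have hdesc : descentHom (L * r * q) ι
        (Fermat.Agent.H71.SS.pic0PullbackAlong (levelIncl (AlgebraicClosure ℚ) h) hφ hFI x)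
        = f (descentHom (L * q) ι x) := by
      rw [hf]
      exact descentHom_levelPull h ι hφ hφC hFI hFIC x
    rw [← hdesc] at hχ'
    have hqLr : q ∣ L * r := Dvd.dvd.mul_right hqL r
    have hn' := hnew (L * r) q hq hqLr ι m hm _ _ hχ'
    have hcop : Nat.Coprime r q := (Nat.coprime_primes hr hq).2 hrq
    obtain ⟨hresA, hresB⟩ := hres L q r hq hqL hcop (Additive ℂˣ) (MonoidHom.toAdditive χ)
    rw [mem_newPart]
    refine ⟨hn'.1.1 ?_, hn'.2.1 ?_⟩
    · unfold corCharA
      rw [Equiv.apply_symm_apply]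
      exact (congrArg MonoidHom.toAdditive.symm hresA).trans
        (toAdditive_symm_resHom_eq_one _ _ hA1)
    · unfold corCharB
      rw [Equiv.apply_symm_apply]
      exact (congrArg MonoidHom.toAdditive.symm hresB).trans
        (toAdditive_symm_resHom_eq_one _ _ hB1)
  have hcy := hcx m hm hqm _ hy_m hy_new hy_I
  have h1 : Fermat.Agent.H71.SS.pic0PullbackAlong (levelIncl (AlgebraicClosure ℚ) h) hφ hFI
      (c • x) = 0 := by
    rw [map_nsmul, hcy]
  have h2 := hker _ h1
  rw [mul_smul]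
  exact h2

end Fermat.Agent.H75.SS2

end
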