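import Mathlib
import Fermat.Agent.H18.SeparatingForm

/-!
# INT-5: a weight-4 modular form on `Γ₀(N)` with integral `q`-expansion whose stabiliser in
`SL(2, ℤ)` is exactly `Γ₀(N)`

We take `t = E₄ ∣[4] diag(N, 1)`, i.e. `t(z) = N ^ 3 * E₄(N z)`.  The matrix bookkeeping
(`upperGL`, `levelMat`, `Gamma0_le_conj`, `mapGL_mul_upperGL_eq`, `restrictLevel`) is reused
from `Fermat.Agent.H18.SeparatingForm`.
-/

set_option autoImplicit false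

namespace Fermat.Agent.H75

open UpperHalfPlane ModularForm CongruenceSubgroup MatrixGroups Matrix EisensteinSeries
open Fermat.Agent.H18 Filter Topology

/-- The weight-4 separating form `E₄ ∣[4] diag(N, 1)`, i.e. `z ↦ N ^ 3 * E₄ (N z)`. -/
noncomputable def sepE4 (N : ℕ) [NeZero N] : ModularForm (Gamma0 N) 4 :=
  restrictLevel (Gamma0_le_conj N) (ModularForm.translate E₄ (levelMat N))

lemma coe_sepE4 (N : ℕ) [NeZero N] :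
    ⇑(sepE4 N) = ⇑E₄ ∣[(4 : ℤ)] levelMat N := rfl

lemma E4_coeff_int (m : ℕ) : ∃ a : ℤ, (qExpansion 1 E₄).coeff m = (a : ℂ) := by
  rw [E_qExpansion_coeff (by norm_num) (by decide)]
  split_ifs with h
  · exact ⟨1, by simp⟩
  · refine ⟨240 * (ArithmeticFunction.sigma 3 m : ℤ), ?_⟩
    rw [bernoulli_eq_bernoulli'_of_ne_one (by norm_num), bernoulli'_four]
    push_cast
    norm_num

lemma sepE4_apply (N : ℕ) [NeZero N] (τ : ℍ) :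
    sepE4 N τ = E₄ (levelMat N • τ) * (N : ℂ) ^ 3 := by
  have hN : (0 : ℝ) < ((N : ℤ) : ℝ) := by
    exact_mod_cast Nat.pos_of_ne_zero (NeZero.ne N)
  have h1 : (0 : ℝ) < ((1 : ℤ) : ℝ) := by norm_num
  have := slash_upperGL_apply (⇑E₄) 4 _ ((0 : ℤ) : ℝ) _ hN h1 τ
  rw [coe_sepE4]
  refine this.trans ?_
  rw [mul_assoc]
  congr 1
  norm_num

lemma coe_levelMat_smul (N : ℕ) [NeZero N] (τ : ℍ) :
    ((levelMat N • τ : ℍ) : ℂ) = (N : ℂ) * τ := by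
  have hN : (0 : ℝ) < ((N : ℤ) : ℝ) := by
    exact_mod_cast Nat.pos_of_ne_zero (NeZero.ne N)
  have h1 : (0 : ℝ) < ((1 : ℤ) : ℝ) := by norm_num
  have := coe_upperGL_smul _ ((0 : ℤ) : ℝ) _ hN h1 τ
  refine this.trans ?_
  simp

lemma qParam_levelMat_smul (N : ℕ) [NeZero N] (τ : ℍ) :
    Function.Periodic.qParam 1 ((levelMat N • τ : ℍ) : ℂ) = Function.Periodic.qParam 1 (τ : ℂ) ^ N := by
  rw [coe_levelMat_smul, Function.Periodic.qParam, Function.Periodic.qParam, ← Complex.exp_nat_mul]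
  congr 1
  push_cast
  ring

/-- The `q`-expansion coefficients of `sepE4 N`. -/
lemma sepE4_qExpansion_coeff (N : ℕ) [NeZero N] (n : ℕ) :
    (qExpansion 1 (sepE4 N)).coeff n =
      if N ∣ n then (N : ℂ) ^ 3 * (qExpansion 1 E₄).coeff (n / N) else 0 := by
  have hN0 : N ≠ 0 := NeZero.ne N
  set c : ℕ → ℂ := fun n ↦ if N ∣ n then (N : ℂ) ^ 3 * (qExpansion 1 E₄).coeff (n / N) else 0
    with hc
  have hΓ : (1 : ℝ) ∈ ((Gamma0 N : Subgroup SL(2, ℤ)) : Subgroup (GL (Fin 2) ℝ)).strictPeriods := by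
    simp
  suffices ∀ τ : ℍ, HasSum (fun m ↦ c m • Function.Periodic.qParam (1 : ℝ) τ ^ m) (sepE4 N τ) from
    (ModularFormClass.qExpansion_coeff_unique one_pos hΓ this n).symm
  intro τ
  have hinj : Function.Injective (fun m : ℕ ↦ N * m) := fun a b h ↦
    Nat.eq_of_mul_eq_mul_left (Nat.pos_of_ne_zero hN0) h
  rw [← hinj.hasSum_iff]
  · have h := ModularForm.hasSum_qExpansion (f := E₄) one_pos one_mem_strictPeriods_SL
      (levelMat N • τ)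
    rw [qParam_levelMat_smul] at h
    have h2 := h.mul_right ((N : ℂ) ^ 3)
    rw [← sepE4_apply] at h2
    have heq : ((fun m ↦ c m • Function.Periodic.qParam (1 : ℝ) τ ^ m) ∘ fun m : ℕ ↦ N * m) =
        fun i ↦ (qExpansion 1 E₄).coeff i * (Function.Periodic.qParam 1 (τ : ℂ) ^ N) ^ i *
          (N : ℂ) ^ 3 := by
      funext m
      simp only [Function.comp_apply, hc, dvd_mul_right, if_true, Nat.mul_div_cancel_left _
        (Nat.pos_of_ne_zero hN0), smul_eq_mul, pow_mul]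
      ring
    rw [heq]
    exact h2
  · intro x hx
    have : ¬ N ∣ x := fun ⟨m, hm⟩ ↦ hx ⟨m, hm.symm⟩
    simp [hc, this]

lemma sepE4_coeff_int (N : ℕ) [NeZero N] (n : ℕ) :
    ∃ m : ℤ, PowerSeries.coeff n (qExpansion 1 (sepE4 N)) = (m : ℂ) := by
  rw [sepE4_qExpansion_coeff]
  split_ifs with h
  · obtain ⟨a, ha⟩ := E4_coeff_int (n / N)
    exact ⟨(N : ℤ) ^ 3 * a, by rw [ha]; push_cast; ring⟩
  · exact ⟨0, by simp⟩

/-- A modular form tends to the constant term of its `q`-expansion at `i∞`. -/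
lemma tendsto_atImInfty_coeff_zero {Γ : Subgroup (GL (Fin 2) ℝ)} {k : ℤ} (f : ModularForm Γ k)
    {h : ℝ} (hh : 0 < h) (hΓ : h ∈ Γ.strictPeriods) :
    Tendsto (⇑f) atImInfty (𝓝 ((qExpansion h f).coeff 0)) := by
  have hper := SlashInvariantFormClass.periodic_comp_ofComplex f hΓ
  have han := ModularFormClass.analyticAt_cuspFunction_zero f hh hΓ
  have hcomp : (cuspFunction h f ∘ fun τ : ℍ ↦ Function.Periodic.qParam h τ) = f := by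
    funext τ
    simpa using eq_cuspFunction τ hh.ne' hper
  have := han.continuousAt.tendsto.comp (qParam_tendsto_atImInfty hh)
  rw [hcomp] at this
  simpa [qExpansion_coeff] using this

lemma tendsto_E4_atImInfty : Tendsto (⇑E₄) atImInfty (𝓝 1) := by
  have := tendsto_atImInfty_coeff_zero E₄ one_pos one_mem_strictPeriods_SL
  rwa [E_qExpansion_coeff (by norm_num) (by decide), if_pos rfl] at this

lemma tendsto_upperGL_smul_atImInfty (a b d : ℝ) (ha : 0 < a) (hd : 0 < d) :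
    Tendsto (fun τ : ℍ ↦ upperGL a b d (mul_pos ha hd).ne' • τ) atImInfty atImInfty := by
  rw [atImInfty, tendsto_comap_iff]
  have : (UpperHalfPlane.im ∘ fun τ : ℍ ↦ upperGL a b d (mul_pos ha hd).ne' • τ) =
      fun τ : ℍ ↦ a / d * τ.im := by
    funext τ
    rw [Function.comp_apply, im_upperGL_smul a b d ha hd τ]
    ring
  rw [this]
  exact (tendsto_comap (f := UpperHalfPlane.im)).const_mul_atTop (div_pos ha hd)

/-- If `E₄ ∣[4] upperGL g B D = E₄ ∣[4] diag(N, 1)` with `g D = N`, then `D = 1`. -/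
lemma eq_one_of_slash_E4_eq (N g D : ℕ) (B : ℤ) (hg : 0 < g) (hD : 0 < D)
    (hN : N = g * D)
    (hne1 : (((g : ℤ) : ℝ) * ((D : ℤ) : ℝ)) ≠ 0) (hne2 : (((N : ℤ) : ℝ) * ((1 : ℤ) : ℝ)) ≠ 0)
    (h : ⇑E₄ ∣[(4 : ℤ)] upperGL ((g : ℤ) : ℝ) (B : ℝ) ((D : ℤ) : ℝ) hne1 =
      ⇑E₄ ∣[(4 : ℤ)] upperGL ((N : ℤ) : ℝ) ((0 : ℤ) : ℝ) ((1 : ℤ) : ℝ) hne2) :
    D = 1 := by
  have hgR : (0 : ℝ) < ((g : ℤ) : ℝ) := by exact_mod_cast hg
  have hDR : (0 : ℝ) < ((D : ℤ) : ℝ) := by exact_mod_cast hD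
  have hNpos : 0 < N := by rw [hN]; exact Nat.mul_pos hg hD
  have hNR : (0 : ℝ) < ((N : ℤ) : ℝ) := by exact_mod_cast hNpos
  have h1R : (0 : ℝ) < ((1 : ℤ) : ℝ) := by norm_num
  -- limits of both sides
  have hL : Tendsto (⇑E₄ ∣[(4 : ℤ)] upperGL ((g : ℤ) : ℝ) (B : ℝ) ((D : ℤ) : ℝ) hne1) atImInfty
      (𝓝 (1 * ((((g : ℤ) : ℝ) * ((D : ℤ) : ℝ) : ℝ) : ℂ) ^ ((4 : ℤ) - 1) *
        ((((D : ℤ) : ℝ)) : ℂ) ^ (-(4 : ℤ)))) := by
    have e : (⇑E₄ ∣[(4 : ℤ)] upperGL ((g : ℤ) : ℝ) (B : ℝ) ((D : ℤ) : ℝ) hne1) =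
        fun τ ↦ E₄ (upperGL ((g : ℤ) : ℝ) (B : ℝ) ((D : ℤ) : ℝ) hne1 • τ) *
          ((((g : ℤ) : ℝ) * ((D : ℤ) : ℝ) : ℝ) : ℂ) ^ ((4 : ℤ) - 1) *
          ((((D : ℤ) : ℝ)) : ℂ) ^ (-(4 : ℤ)) := by
      funext τ
      exact slash_upperGL_apply (⇑E₄) 4 _ _ _ hgR hDR τ
    rw [e]
    exact ((tendsto_E4_atImInfty.comp (tendsto_upperGL_smul_atImInfty _ _ _ hgR hDR)).mul_const
      _).mul_const _
  have hR : Tendsto (⇑E₄ ∣[(4 : ℤ)] upperGL ((N : ℤ) : ℝ) ((0 : ℤ) : ℝ) ((1 : ℤ) : ℝ) hne2)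
      atImInfty
      (𝓝 (1 * ((((N : ℤ) : ℝ) * ((1 : ℤ) : ℝ) : ℝ) : ℂ) ^ ((4 : ℤ) - 1) *
        ((((1 : ℤ) : ℝ)) : ℂ) ^ (-(4 : ℤ)))) := by
    have e : (⇑E₄ ∣[(4 : ℤ)] upperGL ((N : ℤ) : ℝ) ((0 : ℤ) : ℝ) ((1 : ℤ) : ℝ) hne2) =
        fun τ ↦ E₄ (upperGL ((N : ℤ) : ℝ) ((0 : ℤ) : ℝ) ((1 : ℤ) : ℝ) hne2 • τ) *
          ((((N : ℤ) : ℝ) * ((1 : ℤ) : ℝ) : ℝ) : ℂ) ^ ((4 : ℤ) - 1) *
          ((((1 : ℤ) : ℝ)) : ℂ) ^ (-(4 : ℤ)) := by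
      funext τ
      exact slash_upperGL_apply (⇑E₄) 4 _ _ _ hNR h1R τ
    rw [e]
    exact ((tendsto_E4_atImInfty.comp (tendsto_upperGL_smul_atImInfty _ _ _ hNR h1R)).mul_const
      _).mul_const _
  rw [h] at hL
  have hlim := tendsto_nhds_unique hL hR
  -- extract D ^ 4 = 1
  have hgC : ((g : ℂ)) ≠ 0 := by exact_mod_cast hg.ne'
  have hDC : ((D : ℂ)) ≠ 0 := by exact_mod_cast hD.ne'
  have hNC : (N : ℂ) = (g : ℂ) * (D : ℂ) := by rw [hN]; push_cast; ring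
  have h4 : ((D : ℂ)) ^ 4 = 1 := by
    have h' : ((g : ℂ) * (D : ℂ)) ^ 3 * ((D : ℂ) ^ 4)⁻¹ = ((g : ℂ) * (D : ℂ)) ^ 3 := by
      have := hlim
      simp only [one_mul] at this
      norm_num at this
      rw [hNC] at this
      simpa using this
    have hne : ((g : ℂ) * (D : ℂ)) ^ 3 ≠ 0 := pow_ne_zero _ (mul_ne_zero hgC hDC)
    have h'' : ((D : ℂ) ^ 4)⁻¹ = 1 := by
      have := mul_left_cancel₀ hne (h'.trans (mul_one _).symm)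
      exact this
    have := inv_eq_one.mp h''
    exact this
  have h4' : D ^ 4 = 1 := by exact_mod_cast h4
  exact (Nat.pow_eq_one.mp h4').resolve_right (by norm_num)

/-- **INT-5, stabiliser part.** If `t ∣[4] γ = t` for `γ ∈ SL(2, ℤ)`, then `γ ∈ Γ₀(N)`. -/
theorem mem_Gamma0_of_slash_sepE4_eq (N : ℕ) [NeZero N] (γ : SL(2, ℤ))
    (hγ : ⇑(sepE4 N) ∣[(4 : ℤ)] γ = ⇑(sepE4 N)) : γ ∈ Gamma0 N := by
  have hN0 : 0 < N := Nat.pos_of_ne_zero (NeZero.ne N)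
  have hdet : γ 0 0 * γ 1 1 - γ 0 1 * γ 1 0 = 1 := by
    have := γ.det_coe
    rwa [Matrix.det_fin_two] at this
  -- g = gcd(c, N), D = N / g, c₁ = c / g
  set g : ℕ := Int.gcd (γ 1 0) N with hg_def
  have hg_pos : 0 < g := Int.gcd_pos_of_ne_zero_right _ (by exact_mod_cast hN0.ne')
  have hgN : (g : ℤ) ∣ (N : ℤ) := Int.gcd_dvd_right _ _
  have hgc : (g : ℤ) ∣ γ 1 0 := Int.gcd_dvd_left _ _
  obtain ⟨D', hD'⟩ := hgN
  obtain ⟨c₁, hc₁⟩ := hgc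
  have hD'pos : 0 < D' := by
    have : (0 : ℤ) < (g : ℤ) * D' := by rw [← hD']; exact_mod_cast hN0
    exact pos_of_mul_pos_left (by rwa [mul_comm] at this) (by exact_mod_cast hg_pos.le)
  obtain ⟨D, rfl⟩ : ∃ D : ℕ, (D : ℤ) = D' := ⟨D'.toNat, Int.toNat_of_nonneg hD'pos.le⟩
  have hDpos : 0 < D := by exact_mod_cast hD'pos
  have hND : N = g * D := by exact_mod_cast hD'
  -- coprimality
  have hcop1 : IsCoprime c₁ (D : ℤ) := by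
    have h := Int.isCoprime_iff_gcd_eq_one.mpr
      (Int.gcd_div_gcd_div_gcd (i := γ 1 0) (j := (N : ℤ)) hg_pos)
    rw [← hg_def] at h
    have e1 : γ 1 0 / (g : ℤ) = c₁ := by
      rw [hc₁]; exact Int.mul_ediv_cancel_left _ (by exact_mod_cast hg_pos.ne')
    have e2 : (N : ℤ) / (g : ℤ) = D := by
      rw [hD']; exact Int.mul_ediv_cancel_left _ (by exact_mod_cast hg_pos.ne')
    rwa [e1, e2] at h
  have hcop2 : IsCoprime (γ 0 0) c₁ := by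
    refine ⟨γ 1 1, -(γ 0 1 * g), ?_⟩
    rw [hc₁] at hdet
    linear_combination hdet
  have hcop : IsCoprime ((D : ℤ) * γ 0 0) c₁ := IsCoprime.mul_left hcop1.symm hcop2
  obtain ⟨σ, hσ0, hσ1⟩ := hcop.exists_SL2_col 0
  have hσdet : σ 0 0 * σ 1 1 - σ 0 1 * σ 1 0 = 1 := by
    have := σ.det_coe
    rwa [Matrix.det_fin_two] at this
  rw [hσ0, hσ1] at hσdet
  set B : ℤ := σ 1 1 * N * γ 0 1 - σ 0 1 * γ 1 1 with hB
  have hne1 : (((g : ℤ) : ℝ) * ((D : ℤ) : ℝ)) ≠ 0 := by simp [hg_pos.ne', hDpos.ne']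
  have hne2 : (((N : ℤ) : ℝ) * ((1 : ℤ) : ℝ)) ≠ 0 := by simp [hN0.ne']
  have key := mapGL_mul_upperGL_eq σ γ g B D N 0 1 hne1 hne2
    (by linear_combination (g : ℤ) * hσ0 - (γ 0 0) * hD')
    (by linear_combination (B : ℤ) * hσ0 + ((D : ℤ) * γ 0 0) * hB + ((N : ℤ) * γ 0 1) * hσdet
          - (σ 0 1 * (D : ℤ)) * hdet - (σ 0 1 * (D : ℤ) * γ 0 1) * hc₁
          + (γ 0 1 * σ 0 1 * c₁) * hD')
    (by linear_combination (g : ℤ) * hσ1 - hc₁)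
    (by linear_combination (B : ℤ) * hσ1 + c₁ * hB + (γ 1 1) * hσdet
          - (σ 1 1 * (D : ℤ)) * hdet - (σ 1 1 * (D : ℤ) * γ 0 1) * hc₁
          + (c₁ * σ 1 1 * γ 0 1) * hD')
  -- the function identity
  have hfun : ⇑E₄ ∣[(4 : ℤ)] upperGL ((g : ℤ) : ℝ) (B : ℝ) ((D : ℤ) : ℝ) hne1 =
      ⇑E₄ ∣[(4 : ℤ)] upperGL ((N : ℤ) : ℝ) ((0 : ℤ) : ℝ) ((1 : ℤ) : ℝ) hne2 := by
    have h1 : ⇑E₄ ∣[(4 : ℤ)] (σ : GL (Fin 2) ℝ) = ⇑E₄ := by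
      have := SlashInvariantFormClass.slash_action_eq E₄
        (σ : GL (Fin 2) ℝ) ⟨σ, rfl⟩
      simpa using this
    calc ⇑E₄ ∣[(4 : ℤ)] upperGL ((g : ℤ) : ℝ) (B : ℝ) ((D : ℤ) : ℝ) hne1
        = (⇑E₄ ∣[(4 : ℤ)] (σ : GL (Fin 2) ℝ)) ∣[(4 : ℤ)]
            upperGL ((g : ℤ) : ℝ) (B : ℝ) ((D : ℤ) : ℝ) hne1 := by rw [h1]
      _ = ⇑E₄ ∣[(4 : ℤ)] ((σ : GL (Fin 2) ℝ) *
            upperGL ((g : ℤ) : ℝ) (B : ℝ) ((D : ℤ) : ℝ) hne1) := by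
          rw [SlashAction.slash_mul]
      _ = ⇑E₄ ∣[(4 : ℤ)] (upperGL ((N : ℤ) : ℝ) ((0 : ℤ) : ℝ) ((1 : ℤ) : ℝ) hne2 *
            (γ : GL (Fin 2) ℝ)) := by rw [key]
      _ = (⇑E₄ ∣[(4 : ℤ)] upperGL ((N : ℤ) : ℝ) ((0 : ℤ) : ℝ) ((1 : ℤ) : ℝ) hne2) ∣[(4 : ℤ)]
            (γ : GL (Fin 2) ℝ) := by rw [SlashAction.slash_mul]
      _ = ⇑E₄ ∣[(4 : ℤ)] upperGL ((N : ℤ) : ℝ) ((0 : ℤ) : ℝ) ((1 : ℤ) : ℝ) hne2 := hγ
  have hD1 : D = 1 := eq_one_of_slash_E4_eq N g D B hg_pos hDpos hND hne1 hne2 hfun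
  rw [Gamma0_mem, ZMod.intCast_zmod_eq_zero_iff_dvd]
  rw [hD1] at hD'
  rw [hc₁, hD']
  simp

/-- **INT-5.** There is a weight-4 modular form on `Γ₀(N)` with integral `q`-expansion whose
stabiliser in `SL(2, ℤ)` (for the weight-4 slash action) is contained in `Γ₀(N)`. -/
theorem exists_separating_form_E4 (N : ℕ) [NeZero N] :
    ∃ t : ModularForm (Gamma0 N) 4,
      (∀ n, ∃ m : ℤ, PowerSeries.coeff n (qExpansion 1 t) = (m : ℂ)) ∧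
      ∀ γ : SL(2, ℤ), (⇑t ∣[(4 : ℤ)] γ = ⇑t) → γ ∈ Gamma0 N :=
  ⟨sepE4 N, sepE4_coeff_int N, mem_Gamma0_of_slash_sepE4_eq N⟩

end Fermat.Agent.H75
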