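/-
helper75 — P-CFT row 835 (H3-SYL), part 1: TRANSFER IN EVERY DEGREE for Mathlib group cohomology of
a finite group, from the landed corestriction on level cohomology (`H97.Shap.coresU`) and the
comparison `lvlH (discrete level system) ≅ groupCohomology`.

* `discLvl G` : the level system `{⊥}` on a finite group;
* `isIso_lvlComplexι` : if `⊥` is a level, the level complex is the full complex;
* `index_smul_eq_zero_of_res_eq_zero` : `res_U x = 0 → [G : U] • x = 0` in `Hⁿ(G, A)`, every `n`.
-/
import Fermat.Agent.H97.Shap.Main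

set_option autoImplicit false

universe u

open CategoryTheory groupCohomology

namespace Fermat.Agent.H75.TransferN

open Fermat.Agent.H13.Cft Fermat.Agent.H97.Shap

variable {k G : Type u} [CommRing k] [Group G]

/-- The discrete level system on a finite group: the only level is `⊥`. -/
def discLvl (G : Type u) [Group G] [Finite G] : LevelSys G where
  sets := {⊥}
  nonempty := ⟨⊥, rfl⟩
  normal := by
    rintro N (rfl : N = ⊥)
    infer_instance
  finiteIndex := by
    rintro N (rfl : N = ⊥)
    infer_instance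
  directed := by
    rintro N (rfl : N = ⊥) N' (rfl : N' = ⊥)
    exact ⟨⊥, rfl, bot_le⟩

lemma bot_mem_discLvl [Finite G] : (⊥ : Subgroup G) ∈ (discLvl G).sets := rfl

lemma isLevelAt_bot (M : Rep.{u} k G) {n : ℕ} (f : (Fin n → G) → M) :
    IsLevelAt (⊥ : Subgroup G) M f := by
  refine ⟨fun g u hu => ?_, fun g s hs => ?_⟩
  · have : u = 1 := funext fun i => Subgroup.mem_bot.1 (hu i)
    rw [this, mul_one]
  · rw [Subgroup.mem_bot.1 hs, map_one]
    rfl

theorem isIso_lvlComplexι (𝒰 : LevelSys G) (h : (⊥ : Subgroup G) ∈ 𝒰.sets) (M : Rep.{u} k G) :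
    IsIso (lvlComplexι 𝒰 M) := by
  have : ∀ n, IsIso ((lvlComplexι 𝒰 M).f n) := fun n =>
    (ConcreteCategory.isIso_iff_bijective _).2
      ⟨Subtype.val_injective, fun f => ⟨⟨f, ⊥, h, isLevelAt_bot M f⟩, rfl⟩⟩
  exact HomologicalComplex.Hom.isIso_of_components _

lemma lvlRes_comp_lvlComplexι {H : Type u} [Group H] {𝒱 : LevelSys G} {𝒰 : LevelSys H}
    (f : G →* H) (hf : 𝒱.Compat 𝒰 f) (A : Rep.{u} k H) :
    lvlRes f hf A ≫ lvlComplexι 𝒱 (Rep.res f A) =
      lvlComplexι 𝒰 A ≫ cochainsMap f (𝟙 (Rep.res f A)) := by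
  ext n x : 3
  rfl

theorem isSmooth_of_bot_mem (𝒰 : LevelSys G) (h : (⊥ : Subgroup G) ∈ 𝒰.sets) (A : Rep.{u} k G) :
    IsSmooth 𝒰 A := fun m => ⟨⊥, h, fun s hs => by
  rw [Subgroup.mem_bot.1 hs, map_one]
  rfl⟩

/-- **Transfer in every degree**: for a subgroup `U` of a finite group `G`, a class of
`Hⁿ(G, A)` whose restriction to `U` vanishes is killed by the index `[G : U]`. -/
theorem index_smul_eq_zero_of_res_eq_zero [Finite G] (A : Rep.{u} k G) (U : Subgroup G) (n : ℕ)
    (x : groupCohomology A n)
    (hx : (groupCohomology.map U.subtype (𝟙 (Rep.res U.subtype A)) n).hom x = 0) :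
    U.index • x = 0 := by
  have hU : ∃ N ∈ (discLvl G).sets, N ≤ U := ⟨⊥, rfl, bot_le⟩
  obtain ⟨cor, hcor, -⟩ := coresU.{u} (k := k) (discLvl G) U hU
  have hsm : IsSmooth (discLvl G) A := isSmooth_of_bot_mem (discLvl G) bot_mem_discLvl A
  have hbotU : (⊥ : Subgroup U) ∈ ((discLvl G).restrict U hU).sets :=
    ⟨⊥, rfl, bot_le, Subgroup.bot_subgroupOf U⟩
  have := isIso_lvlComplexι (discLvl G) rfl A
  have := isIso_lvlComplexι ((discLvl G).restrict U hU) hbotU (Rep.res U.subtype A)
  let eG := HomologicalComplex.homologyMap (lvlComplexι (discLvl G) A) n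
  let eU := HomologicalComplex.homologyMap
    (lvlComplexι ((discLvl G).restrict U hU) (Rep.res U.subtype A)) n
  let r := HomologicalComplex.homologyMap
    (lvlRes U.subtype ((discLvl G).restrict_compat U hU) A) n
  have : IsIso eG := inferInstance
  have : IsIso eU := inferInstance
  have hGb : Function.Bijective eG.hom := (ConcreteCategory.isIso_iff_bijective eG).1 inferInstance
  have hUb : Function.Bijective eU.hom := (ConcreteCategory.isIso_iff_bijective eU).1 inferInstance
  obtain ⟨x', rfl⟩ := hGb.2 x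
  have hnat : r ≫ eU = eG ≫ groupCohomology.map U.subtype (𝟙 (Rep.res U.subtype A)) n := by
    rw [show r ≫ eU = HomologicalComplex.homologyMap
        (lvlRes U.subtype ((discLvl G).restrict_compat U hU) A ≫
          lvlComplexι ((discLvl G).restrict U hU) (Rep.res U.subtype A)) n from
      (HomologicalComplex.homologyMap_comp _ _ n).symm, lvlRes_comp_lvlComplexι,
      HomologicalComplex.homologyMap_comp]
    rfl
  have h1 : eU.hom (r.hom x') = 0 := by
    have := congrArg (fun φ => φ.hom x') hnat
    simp only [ModuleCat.hom_comp, LinearMap.comp_apply] at this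
    rw [this]
    exact hx
  have h2 : r.hom x' = 0 := hUb.1 (h1.trans (map_zero _).symm)
  have h3 : U.index • x' = 0 := by
    have := congrArg (fun φ => φ.hom x') (hcor A hsm n)
    simp only [ModuleCat.hom_comp, LinearMap.comp_apply] at this
    change (cor A n).hom (r.hom x') = _ at this
    rw [h2, map_zero] at this
    rw [this]
    rfl
  have h4 : eG.hom (U.index • x') = U.index • eG.hom x' := map_nsmul _ _ _
  have h5 : eG.hom (U.index • x') = 0 := by rw [h3, map_zero]
  exact h4.symm.trans h5

end Fermat.Agent.H75.TransferN
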